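import Fermat.Agent.Lifting.Minimal.AuxPrimeTwelve
import Fermat.Agent.EC.Det.AbsIrreducible
import Fermat.Agent.Lifting.Residual.TaylorWiles
import Mathlib.GroupTheory.Nilpotent
import Mathlib.LinearAlgebra.Matrix.GeneralLinearGroup.Card

/-!
# The auxiliary prime `r ≡ 11 (mod 12)` for every semistable curve with irreducible `W[3]`

The image of `W[3]` has a non-trivial unipotent element: otherwise it is a `2`-group unramified
outside `3`, hence equal to the abelian image of inertia at `3`, hence reducible as `W[3]` is odd.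
-/

set_option autoImplicit false
set_option linter.style.haveILetI false

noncomputable section

open Matrix
open Fermat.Agent.Deformation (matOf matOf_apply)

namespace Fermat.Agent.Semistable

open Lifting Lifting.Minimal
open Lifting.Residual (rep NoUnipotent)
open EC.Reducible (Tors finiteDimensional_torsion finrank_torsion)

local notation "ℚ̄" => AlgebraicClosure ℚ
local notation "Γℚ" => (AlgebraicClosure ℚ ≃ₐ[ℚ] AlgebraicClosure ℚ)

variable {W : WeierstrassCurve ℤ} (hΔ : W.Δ ≠ 0)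

/-- A unipotent endomorphism of an `𝔽₃`-space has order dividing `3`. -/
theorem pow_three_eq_one_of_sub_one_sq {V : Type*} [AddCommGroup V] [Module (ZMod 3) V]
    (X : Module.End (ZMod 3) V) (h : (X - 1) * (X - 1) = 0) : X ^ 3 = 1 := by
  have h3 : (3 : Module.End (ZMod 3) V) = 0 := by
    rw [← map_ofNat (algebraMap (ZMod 3) (Module.End (ZMod 3) V)) 3,
      show (3 : ZMod 3) = 0 from rfl, map_zero]
  calc X ^ 3 = (X - 1) * (X - 1) * (X + 2) + 3 * (X - 1) + 1 := by noncomm_ring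
    _ = 1 := by rw [h, h3, zero_mul, zero_mul, zero_add, zero_add]

include hΔ in
/-- Without unipotents the image of `W[3]` is commutative. -/
theorem rep_commute_of_noUnipotent [Fact (Nat.Prime 3)] (hss : W.IsSemistableModel)
    (hnu : NoUnipotent W 3) (σ τ : Γℚ) : Commute (rep W 3 σ) (rep W 3 τ) := by
  classical
  have hfd := finiteDimensional_torsion (p := 3) hΔ
  let b := Module.finBasisOfFinrankEq (ZMod 3) (Tors W 3) (finrank_torsion hΔ)
  let e : (Module.End (ZMod 3) (Tors W 3))ˣ ≃* GL (Fin 2) (ZMod 3) :=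
    Units.mapEquiv (LinearMap.toMatrixAlgEquiv b).toMulEquiv
  have hfinU : Finite (Module.End (ZMod 3) (Tors W 3))ˣ := Finite.of_equiv _ e.symm.toEquiv
  have hcard : Nat.card (Module.End (ZMod 3) (Tors W 3))ˣ = 2 ^ 4 * 3 := by
    rw [Nat.card_congr e.toEquiv, Matrix.card_GL_field, Fin.prod_univ_two, ZMod.card]
    norm_num
  set f : Γℚ →* (Module.End (ZMod 3) (Tors W 3))ˣ := (rep W 3).toHomUnits with hf
  have hord : ∀ γ : Γℚ, ∃ N : ℕ, ¬ 3 ∣ N ∧ f γ ^ N = 1 := fun γ => by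
    obtain ⟨N, hN, hγ⟩ := Lifting.Residual.exists_pow_eq_one hΔ hnu γ
    exact ⟨N, hN, Units.ext (by
      rw [Units.val_pow_eq_pow_val, hf, MonoidHom.coe_toHomUnits, hγ]; rfl)⟩
  have hpg : IsPGroup 2 f.range := by
    rintro ⟨x, γ, rfl⟩
    obtain ⟨N, hN, hγ⟩ := hord γ
    refine ⟨4, Subtype.ext ?_⟩
    have h48 : orderOf (f γ) ∣ 2 ^ 4 * 3 := hcard ▸ orderOf_dvd_natCard (f γ)
    have hcop : Nat.Coprime (orderOf (f γ)) 3 := by
      refine Nat.Coprime.symm ((Nat.Prime.coprime_iff_not_dvd (by norm_num)).2 fun h => hN ?_)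
      exact h.trans (orderOf_dvd_of_pow_eq_one hγ)
    rw [SubgroupClass.coe_pow]
    exact orderOf_dvd_iff_pow_eq_one.1 (hcop.dvd_of_dvd_mul_right h48)
  have hnil : Group.IsNilpotent f.range := hpg.isNilpotent
  obtain ⟨A, hA⟩ := Galois.exists_valuationSubring_liesOverPrime (L := ℚ̄) Nat.prime_three
  have hcommI : ∀ s ∈ A.inertiaSubgroupIn ℚ, ∀ t ∈ A.inertiaSubgroupIn ℚ,
      Commute (f s) (f t) := by
    obtain ⟨L, hL, hfix⟩ : GaloisFactorsThroughFiniteLevel (rep W 3) :=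
      haveI := EC.Reducible.isElliptic_rat W hΔ
      EC.galoisRepModuleEnd_factorsThroughFiniteLevel _ (by norm_num)
    exact Lifting.Residual.commute_map_inertiaSubgroupIn f
      ⟨L, hL, fun γ hγ => Units.ext (by rw [hf, MonoidHom.coe_toHomUnits, hfix γ hγ]; rfl)⟩
      Nat.prime_three hA fun γ _ => hord γ
  set I : Subgroup f.range := (A.inertiaSubgroupIn ℚ).map f.rangeRestrict with hI
  have htop : I = ⊤ := by
    rcases eq_top_or_exists_le_coatom I with h | ⟨M, hM, hle⟩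
    · exact h
    have : M.Normal := Subgroup.NormalizerCondition.normal_of_coatom M (Group.normalizerCondition_of_isNilpotent (G := f.range)) hM
    have hH := Lifting.Residual.eq_top_of_ker_le hΔ hss hnu hA (M.comap f.rangeRestrict)
      (fun γ hγ => by
        rw [Subgroup.mem_comap, show f.rangeRestrict γ = 1 from Subtype.ext (Units.ext hγ)]
        exact one_mem M)
      fun γ hγ => hle (Subgroup.mem_map_of_mem _ hγ)
    refine absurd (eq_top_iff.2 fun x _ => ?_) hM.1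
    obtain ⟨γ, rfl⟩ := f.rangeRestrict_surjective x
    have : γ ∈ M.comap f.rangeRestrict := hH ▸ Subgroup.mem_top γ
    exact this
  have hmem : ∀ γ : Γℚ, ∃ s ∈ A.inertiaSubgroupIn ℚ, f s = f γ := fun γ => by
    have h : f.rangeRestrict γ ∈ I := htop ▸ Subgroup.mem_top _
    obtain ⟨s, hs, hsγ⟩ := Subgroup.mem_map.1 h
    exact ⟨s, hs, congrArg Subtype.val hsγ⟩
  obtain ⟨s, hs, hsσ⟩ := hmem σ
  obtain ⟨t, ht, htτ⟩ := hmem τ
  have h := hcommI s hs t ht
  rw [hsσ, htτ] at h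
  exact congrArg Units.val h.eq

theorem one_ne_neg_one_three : (1 : ZMod 3) ≠ -1 := by decide

include hΔ in
/-- The image of an irreducible `W[3]` of a semistable curve has a non-trivial unipotent. -/
theorem exists_unipotent_three [Fact (Nat.Prime 3)] (hss : W.IsSemistableModel)
    (hirr : W.ModRepIsIrreducible 3) :
    ∃ τ : Γℚ, ((Residual.torsRep W 3 hΔ).ρ τ - 1) * ((Residual.torsRep W 3 hΔ).ρ τ - 1) = 0 ∧
      (Residual.torsRep W 3 hΔ).ρ τ ≠ 1 := by
  by_contra! hall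
  have hnu : NoUnipotent W 3 := fun γ hγ => hall γ hγ
  have hcomm : ∀ γ δ : Γℚ, Commute ((Residual.torsRep W 3 hΔ).ρ γ)
      ((Residual.torsRep W 3 hΔ).ρ δ) := fun γ δ => rep_commute_of_noUnipotent hΔ hss hnu γ δ
  obtain ⟨ρ, hρ⟩ : ∃ ρ, ρ = Residual.torsRep W 3 hΔ := ⟨_, rfl⟩
  rw [← hρ] at hcomm
  have hodd : ρ.IsOdd := hρ ▸ Residual.torsRep_isOdd hΔ
  obtain ⟨c, hc2, hcdet⟩ : ∃ c : Γℚ, ρ.ρ c * ρ.ρ c = 1 ∧ LinearMap.det (ρ.ρ c) = -1 := by
    refine ⟨complexConjugation, ?_, hodd _ complexConjugation_mul_self EC.complexConjugation_ne_one⟩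
    rw [← map_mul, complexConjugation_mul_self, map_one]
  set X := ρ.ρ c with hX
  let U : Submodule (ZMod 3) ρ.V := LinearMap.ker (X - 1)
  have hUst : ∀ γ, ∀ x ∈ U, ρ.ρ γ x ∈ U := fun γ x hx => by
    rw [LinearMap.mem_ker] at hx ⊢
    have h : (X - 1) * ρ.ρ γ = ρ.ρ γ * (X - 1) := by
      rw [sub_mul, mul_sub, one_mul, mul_one, (hcomm c γ).eq]
    rw [← Module.End.mul_apply, h, Module.End.mul_apply, hx, map_zero]
  have hneg : LinearMap.det (-1 : Module.End (ZMod 3) ρ.V) = 1 := by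
    rw [← neg_one_smul (ZMod 3) (1 : Module.End (ZMod 3) ρ.V), LinearMap.det_smul, ρ.finrank_eq,
      map_one, mul_one, neg_one_sq]
  rcases (hρ ▸ Residual.torsRep_isIrreducible hΔ hirr) U hUst with h | h
  · have h0 : (X - 1) * (X + 1) = 0 := by
      rw [mul_add, sub_mul, mul_one, one_mul, hc2]; abel
    have hX1 : X = -1 := by
      rw [← add_eq_zero_iff_eq_neg]
      refine LinearMap.ext fun x => ?_
      have : (X + 1) x ∈ U := by
        rw [LinearMap.mem_ker, ← Module.End.mul_apply, h0, LinearMap.zero_apply]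
      rw [h, Submodule.mem_bot] at this
      rw [this, LinearMap.zero_apply]
    rw [hX1, hneg] at hcdet
    exact one_ne_neg_one_three hcdet
  · have hX1 : X = 1 := sub_eq_zero.1 (LinearMap.ker_eq_top.1 h)
    rw [hX1, map_one] at hcdet
    exact one_ne_neg_one_three hcdet

include hΔ in
/-- Some element with cyclotomic character `-1` modulo `12` has non-zero trace on `W[3]`. -/
theorem exists_trace_ne_zero_twelve [Fact (Nat.Prime 3)] (hss : W.IsSemistableModel)
    (hirr : W.ModRepIsIrreducible 3) :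
    ∃ g : Γℚ, (EC.cycloChar 12 g : ZMod 12) = -1 ∧
      LinearMap.trace (ZMod 3) _ ((Residual.torsRep W 3 hΔ).ρ g) ≠ 0 := by
  obtain ⟨τ, hτsq, hτ1⟩ := exists_unipotent_three hΔ hss hirr
  set ρ := Residual.torsRep W 3 hΔ with hρ
  set u := τ ^ 4 with hu
  have hρu : ρ.ρ u = ρ.ρ τ := by
    rw [hu, map_pow, show (4 : ℕ) = 3 + 1 from rfl, pow_succ,
      pow_three_eq_one_of_sub_one_sq _ hτsq, one_mul]
  have hχu : EC.cycloChar 12 u = 1 := by
    rw [hu, map_pow]
    exact (by decide : ∀ z : (ZMod 12)ˣ, z ^ 4 = 1) _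
  obtain ⟨b, hb0, hb1⟩ := exists_basis_of_sq_eq_zero ρ.finrank_eq hτsq (sub_ne_zero.2 hτ1)
  have hU : matOf ρ.ρ b u = !![1, 1; 0, 1] := by
    have h0 : ρ.ρ τ (b 0) = b 0 := sub_eq_zero.1 (by simpa using hb0)
    have h1 : ρ.ρ τ (b 1) = b 0 + b 1 := eq_add_of_sub_eq (by simpa using hb1)
    rw [matOf_apply, hρu]
    ext i j
    fin_cases i <;> fin_cases j <;> simp [LinearMap.toMatrix_apply, h0, h1]
  have hU' : matOf ρ.ρ b u⁻¹ = !![1, -1; 0, 1] := by
    have h1 : matOf ρ.ρ b u⁻¹ * matOf ρ.ρ b u = 1 := by rw [← map_mul, inv_mul_cancel, map_one]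
    rw [hU] at h1
    calc matOf ρ.ρ b u⁻¹ = matOf ρ.ρ b u⁻¹ * (!![1, 1; 0, 1] * !![1, -1; 0, 1]) := by
          rw [show (!![1, 1; 0, 1] * !![1, -1; 0, 1] : Matrix (Fin 2) (Fin 2) (ZMod 3)) = 1 by
            simp [Matrix.one_fin_two], mul_one]
      _ = _ := by rw [← mul_assoc, h1, one_mul]
  obtain ⟨a, ha⟩ : ∃ a : Γℚ, matOf ρ.ρ b a 1 0 ≠ 0 := by
    by_contra! hall
    have hne : (ZMod 3 ∙ b 0) ≠ ⊤ := fun h => by
      have hm : b 1 ∈ (ZMod 3 ∙ b 0) := h ▸ Submodule.mem_top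
      obtain ⟨r, hr⟩ := Submodule.mem_span_singleton.1 hm
      simpa using congrArg (fun v => b.repr v 1) hr
    refine hne (((Residual.torsRep_isIrreducible hΔ hirr) _ fun σ x hx => ?_).resolve_left
      fun h => b.ne_zero 0 ?_)
    · obtain ⟨r, rfl⟩ := Submodule.mem_span_singleton.1 hx
      have hs : b.repr (ρ.ρ σ (b 0)) 1 = 0 := by
        simpa [matOf_apply, LinearMap.toMatrix_apply] using hall σ
      rw [map_smul]
      refine Submodule.smul_mem _ _ (Submodule.mem_span_singleton.2 ⟨b.repr (ρ.ρ σ (b 0)) 0, ?_⟩)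
      conv_rhs => rw [← b.sum_repr (ρ.ρ σ (b 0)), Fin.sum_univ_two, hs, zero_smul, add_zero]
    · exact (Submodule.mem_bot _).1 (h ▸ Submodule.mem_span_singleton_self (b 0))
  obtain ⟨g, hg⟩ := ClassField.Idele.cycloChar_surjective_of_neZero 12 (-1)
  have hg' : (EC.cycloChar 12 g : ZMod 12) = -1 := by rw [hg]; simp
  have htr : ∀ σ : Γℚ, LinearMap.trace (ZMod 3) _ (ρ.ρ σ) = (matOf ρ.ρ b σ).trace := fun σ => by
    rw [LinearMap.trace_eq_matrix_trace (ZMod 3) b, matOf_apply]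
  by_contra! hall
  have hz : ∀ w : Γℚ, EC.cycloChar 12 w = 1 → (matOf ρ.ρ b (g * w)).trace = 0 := fun w hw => by
    rw [← htr]
    exact hall _ (by rw [map_mul, hw, mul_one, hg'])
  have hconj : EC.cycloChar 12 (a * u * a⁻¹) = 1 := by
    rw [map_mul, map_mul, hχu, mul_one, ← map_mul, mul_inv_cancel, map_one]
  refine false_of_trace_eq_zero (X := matOf ρ.ρ b g) (F := matOf ρ.ρ b a) (G := matOf ρ.ρ b a⁻¹)
    (Residual.two_ne_zero_of_odd (by norm_num)) ?_ (by rw [← map_mul, inv_mul_cancel, map_one]) ha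
    (by simpa using hz 1 (map_one _)) ?_ ?_ ?_
  · rw [matOf_apply, LinearMap.det_toMatrix, hρ, Residual.torsRep_det hΔ g, cycloChar_twelve_three,
      hg', map_neg, map_one]
  · have h := hz u hχu
    rwa [map_mul, hU] at h
  · have h := hz _ hconj
    rwa [map_mul, map_mul, map_mul, hU] at h
  · have h := hz (u * (a * u * a⁻¹) * u⁻¹)
      (by rw [map_mul, map_mul, hconj, mul_one, ← map_mul, mul_inv_cancel, map_one])
    rwa [map_mul, map_mul, map_mul, map_mul, map_mul, hU, hU'] at h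

include hΔ in
/-- **The auxiliary prime at `p = 3`.** -/
theorem exists_aux_prime_twelve [Fact (Nat.Prime 3)] (hss : W.IsSemistableModel)
    (hirr : W.ModRepIsIrreducible 3) (S : Finset ℕ) :
    ∃ r : ℕ, r.Prime ∧ r ∉ S ∧ r ≠ 3 ∧ W.IsGoodPrimeFor r ∧ r % 12 = 11 ∧
      (W.apOfModel r : ZMod 3) ^ 2 ≠ ((r : ZMod 3) + 1) ^ 2 := by
  classical
  obtain ⟨g, hg, hgt⟩ := exists_trace_ne_zero_twelve hΔ hss hirr
  set ρ := Residual.torsRep W 3 hΔ with hρ
  obtain ⟨L₀, hL₀, hfix⟩ := ρ.factorsThroughFiniteLevel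
  obtain ⟨ζ, hζ⟩ := EC.exists_primitiveRoot_qbar 12
  let L := L₀ ⊔ IntermediateField.adjoin ℚ {ζ}
  have : FiniteDimensional ℚ (IntermediateField.adjoin ℚ ({ζ} : Set ℚ̄)) :=
    IntermediateField.adjoin.finiteDimensional (Algebra.IsIntegral.isIntegral ζ)
  have : FiniteDimensional ℚ L := IntermediateField.finiteDimensional_sup _ _
  obtain ⟨r, hr, hrS, A, σ, hA, hσ, -, a, b, hga, hgb⟩ :=
    Density.exists_isFrobeniusAt_agree_pow L g (S ∪ {2, 3} ∪ W.Δ.natAbs.primeFactors)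
  simp only [Finset.mem_union, Finset.mem_insert, Finset.mem_singleton, Nat.mem_primeFactors,
    not_or] at hrS
  obtain ⟨⟨hS, hr2, hr3⟩, hrΔ⟩ := hrS
  have hgood : W.IsGoodPrimeFor r := fun hd =>
    hrΔ ⟨hr, Int.natCast_dvd.1 hd, Int.natAbs_ne_zero.2 hΔ⟩
  have key : ∀ s t : Γℚ, (∀ x ∈ L, s x = t x) → ρ.ρ s = ρ.ρ t := by
    intro s t hst
    have h1 : ρ.ρ (t⁻¹ * s) = 1 := hfix _ fun x hx => by
      rw [AlgEquiv.mul_apply, hst x ((le_sup_left : L₀ ≤ L) hx), ← AlgEquiv.mul_apply,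
        inv_mul_cancel, AlgEquiv.one_apply]
    calc ρ.ρ s = ρ.ρ (t * (t⁻¹ * s)) := by rw [mul_inv_cancel_left]
      _ = ρ.ρ t := by rw [map_mul, h1, mul_one]
  have keyχ : ∀ s t : Γℚ, (∀ x ∈ L, s x = t x) →
      (EC.cycloChar 12 s : ZMod 12) = EC.cycloChar 12 t := by
    intro s t hst
    have hmem : ζ ∈ L := (le_sup_right : _ ≤ L) (IntermediateField.mem_adjoin_simple_self ℚ ζ)
    have h := EC.cycloChar_eq_of_apply_eq_pow 12 s hζ
      ((hst ζ hmem).trans (EC.apply_eq_pow_cycloChar 12 t hζ.pow_eq_one))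
    rw [h, ZMod.natCast_zmod_val]
  -- the exponent `a` is odd and `g` is a power of `σ`
  have hσg : ρ.ρ σ = ρ.ρ g ^ a := by rw [← map_pow]; exact key _ _ hga
  have hgσ : ρ.ρ g = ρ.ρ σ ^ b := by rw [← map_pow]; exact key _ _ hgb
  have hcσ : (EC.cycloChar 12 σ : ZMod 12) = (-1) ^ a := by
    rw [keyχ _ _ hga, map_pow, Units.val_pow_eq_pow_val, hg]
  have hodd : (-1 : ZMod 12) ^ a = -1 := by
    rcases neg_one_pow_eq_or (ZMod 12) a with h | h
    · exfalso
      have h1 : (EC.cycloChar 12 g : ZMod 12) = 1 := by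
        rw [keyχ _ _ hgb, map_pow, Units.val_pow_eq_pow_val, hcσ, h, one_pow]
      rw [hg] at h1
      exact absurd h1 (by decide)
    · exact h
  rw [hodd] at hcσ
  have hrr : ((r : ℕ) : ZMod 12) = -1 := by
    rw [← hcσ, EC.cycloChar_eq_of_isFrobeniusAt hr (fun h => ?_) hA hσ]
    have h' : r ∣ 2 * 2 * 3 := h
    rcases hr.dvd_mul.1 h' with h' | h'
    · rcases hr.dvd_mul.1 h' with h' | h' <;>
        exact hr2 ((Nat.prime_dvd_prime_iff_eq hr Nat.prime_two).1 h')
    · exact hr3 ((Nat.prime_dvd_prime_iff_eq hr Nat.prime_three).1 h')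
  have hr12 : r % 12 = 11 := by
    have h : ((r : ℕ) : ZMod 12) = ((11 : ℕ) : ZMod 12) := by rw [hrr]; decide
    exact (ZMod.natCast_eq_natCast_iff' r 11 12).1 h
  have hr1 : (r : ZMod 3) = -1 := by
    have h := congrArg (ZMod.castHom (by norm_num : 3 ∣ 12) (ZMod 3)) hrr
    rwa [map_natCast, map_neg, map_one] at h
  have hdσ : LinearMap.det (ρ.ρ σ) = -1 := by
    rw [hρ, Residual.torsRep_det hΔ, cycloChar_twelve_three, hcσ, map_neg, map_one]
  have htσ : LinearMap.trace (ZMod 3) _ (ρ.ρ σ) ≠ 0 := by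
    intro h0
    have h1 : ρ.ρ σ * ρ.ρ σ = 1 := by
      rw [Residual.mul_self_eq_trace_det, h0, hdσ]
      simp
    rcases Nat.even_or_odd' b with ⟨m, rfl | rfl⟩
    · have hd : LinearMap.det (ρ.ρ g) = -1 := by
        rw [hρ, Residual.torsRep_det hΔ, cycloChar_twelve_three, hg, map_neg, map_one]
      rw [hgσ, pow_mul, pow_two, h1, one_pow, map_one] at hd
      exact Residual.two_ne_zero_of_odd (p := 3) (by norm_num) (by linear_combination hd)
    · rw [hgσ, pow_succ, pow_mul, pow_two, h1, one_pow, one_mul, h0] at hgt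
      exact hgt rfl
  rw [Residual.trace_torsRep_frobenius hΔ hr hr3 hgood hA hσ] at htσ
  refine ⟨r, hr, hS, hr3, hgood, hr12, ?_⟩
  rw [hr1, neg_add_cancel, zero_pow two_ne_zero]
  exact pow_ne_zero 2 htσ

end Fermat.Agent.Semistable

end
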