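import Fermat.Agent.Lifting.Squarefree.Contracts
import Fermat.Agent.Eisenstein.UpperBound
import Fermat.Agent.S08

/-!
# A base of the raising argument has a site

There is no newform of weight two and level `1`, `3` or `5`, so a base at `p ∈ {3, 5}` contains a
prime `q ≠ p`, of bad reduction.
-/

set_option autoImplicit false

namespace Fermat.Agent.Semistable

open Lifting

/-- A newform has level neither `1` nor a prime at most `5`. -/
theorem not_dvd_prime_of_isNewform {L p : ℕ} (hp : p.Prime) (h5 : p ≤ 5)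
    {g : CuspForm (CongruenceSubgroup.Gamma0 L) 2} (hg : g.IsNewform) : ¬ L ∣ p := by
  intro hd
  rcases (Nat.dvd_prime hp).1 hd with rfl | rfl
  · exact hg.ne_zero (Fermat.Agent.S08.result g)
  · exact hg.ne_zero (Fermat.Agent.Eisenstein.cuspForm_eq_zero_of_le_five hp h5 g)

/-- **A base contains a bad prime other than `p`.** -/
theorem exists_site_of_isRaisingBase {W : WeierstrassCurve ℤ} {p L : ℕ}
    (hb : IsRaisingBase W p L) (hp : p = 3 ∨ p = 5) : ∃ q : ℕ, q.Prime ∧ q ≠ p ∧ q ∣ L ∧ (q : ℤ) ∣ W.Δ := by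
  obtain ⟨g, 𝔪, hg, -⟩ := hb.newform
  have hp' : p.Prime := by rcases hp with rfl | rfl <;> norm_num
  by_contra h
  push Not at h
  refine not_dvd_prime_of_isNewform hp' (by rcases hp with rfl | rfl <;> norm_num) hg ?_
  have h0 := hb.pos.ne'
  rw [← Nat.prod_primeFactors_of_squarefree hb.squarefree]
  have hsub : L.primeFactors ⊆ {p} := fun q hq => by
    obtain ⟨hq', hqL, -⟩ := Nat.mem_primeFactors.1 hq
    by_contra hqp
    exact h q hq' (fun e => hqp (Finset.mem_singleton.2 e)) hqL (hb.dvd_bad q hq' hqL)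
  refine (Finset.prod_dvd_prod_of_subset _ _ id hsub).trans ?_
  simp

end Fermat.Agent.Semistable
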