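import Fermat.Agent.Semistable.Contracts
import Fermat.Agent.GoodTwo.Stabilise
import Fermat.Agent.BadPrime.Mazur.Local.Main
import Fermat.Agent.BadPrime.Reps
import Fermat.Agent.EC.Red.Qbar
import Fermat.Agent.EC.Frob.Trace
import Fermat.Agent.Lifting.Minimal.Newform
import Fermat.Agent.Lifting.Squarefree.MazurGeneral
import Fermat.Agent.S29

/-!
# Removal of `3` from an odd residual level at `5`

With `2` put into the level Mazur's principle at `3` applies; a minimal level below the result is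
odd, because a good `2` with `a₂ = 0` is exactly in no level at `5` (`0 ≢ ±3`).
-/

set_option autoImplicit false

noncomputable section

open scoped WeierstrassCurve.Affine
open WeierstrassCurve Polynomial

namespace Fermat.Agent.Semistable

/-- A sign times `3` is nonzero modulo `5`. -/
theorem sign_mul_three_ne_zero : ∀ e : ZMod 5, e * e = 1 → e * (((2 : ℕ) : ZMod 5) + 1) ≠ 0 := by
  decide

variable {V : WeierstrassCurve ℤ} [Fact (Nat.Prime 5)]

/-- Mazur's principle at a good `3` modulo `5`, at an even level. -/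
theorem removeThree (hΔ : V.Δ ≠ 0) (hgood : V.IsGoodPrimeFor 3) (hirr : V.ModRepIsIrreducible 5)
    {M : ℕ} (hM : 0 < M) (h3M : ¬ 3 ∣ M) (h2M : 2 ∣ M)
    (hmod : V.IsResiduallyModularOfLevel 5 (M * 3)) : V.IsResiduallyModularOfLevel 5 M := by
  have : NeZero M := ⟨hM.ne'⟩
  have : NeZero (M * 3) := ⟨by positivity⟩
  have : Fact (Nat.Prime 3) := ⟨Nat.prime_three⟩
  have := EC.isElliptic_map_rat hΔ
  exact BadPrime.Mazur.isResiduallyModularOfLevel_of_inputs
    (fun N _ => EichlerShimura.kummerIso_modular N)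
    (fun N _ p _ => EichlerShimura.frobeniusOnTorsion_modular N p) (by norm_num) hΔ
    (EC.natCard_torsion_rat _ (by norm_num))
    (EC.galoisRepModuleEnd_factorsThroughFiniteLevel _ (by norm_num))
    hirr Nat.prime_three (by norm_num)
    (BadPrime.Mazur.Local.localInputs Nat.prime_five le_rfl (by norm_num)
      ⟨fun h => absurd h (by norm_num), fun _ => h2M⟩ h3M)
    (fun h => absurd ((ZMod.natCast_eq_natCast_iff' 3 1 5).1 (by simpa using h)) (by norm_num))
    (fun A hA σ hσ => LinearMap.ext fun x =>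
      EC.galoisRepUnramifiedAt_of_isGoodPrimeFor V Nat.prime_three hgood (by norm_num) A hA σ hσ x)
    hmod

/-- A good `2` with `a₂ = 0` divides no minimal level at `5`. -/
theorem not_two_dvd_of_minimal (hΔ : V.Δ ≠ 0) (hirr : V.ModRepIsIrreducible 5)
    (hgood : ¬ (2 : ℤ) ∣ V.Δ) (ha : V.apOfModel 2 = 0) {M : ℕ}
    (hM : Lifting.Minimal.IsMinimalResidualLevel V 5 M) : ¬ 2 ∣ M := by
  intro h2M
  obtain ⟨A, σ, hA, hσ⟩ := Galois.exists_valuationSubring_isFrobeniusAt Nat.prime_two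
  obtain ⟨ε, hε, hch⟩ := hM.frobenius_charpoly hΔ (fun hg _ hp _ _ _ φ => S29.result hg hp φ)
    BadPrime.newformMultRep_modular (by norm_num) hirr Nat.prime_two (by norm_num) h2M A hA σ hσ
  have hch' : LinearMap.charpoly ((Lifting.Residual.torsRep V 5 hΔ).ρ σ) =
      X ^ 2 - C (V.apOfModel 2 : ZMod 5) * X + C ((2 : ℕ) : ZMod 5) :=
    EC.charpoly_residualGaloisRepOf V Nat.prime_two hA (show V.IsGoodPrimeFor 2 by exact_mod_cast hgood)
      hσ (by norm_num) _ _
  have h1 := congrArg (fun f => Polynomial.coeff f 1) (hch.symm.trans hch')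
  have h2 : ε * (((2 : ℕ) : ZMod 5) + 1) = (V.apOfModel 2 : ZMod 5) := by
    simpa [Polynomial.coeff_X_pow, Polynomial.coeff_X, Polynomial.coeff_C] using h1
  rw [ha, Int.cast_zero] at h2
  exact sign_mul_three_ne_zero ε hε h2

omit [Fact (Nat.Prime 5)] in
/-- **`LevelThreeRemovalFive`.** -/
theorem levelThreeRemovalFive : LevelThreeRemovalFive := by
  intro V hΔ _ hgood ha hirr N hN hsq h2N hres h5
  have : Fact (Nat.Prime 5) := ⟨Nat.prime_five⟩
  -- an auxiliary level prime to a good `3`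
  obtain ⟨N₂, hN₂, hsq₂, hres₂, h52, h32⟩ : ∃ N₂ : ℕ, 0 < N₂ ∧ Squarefree N₂ ∧
      V.IsResiduallyModularOfLevel 5 N₂ ∧ (V.IsGoodPrimeFor 5 → ¬ 5 ∣ N₂) ∧
      (V.IsGoodPrimeFor 3 → ¬ 3 ∣ N₂) := by
    by_cases h : V.IsGoodPrimeFor 3 ∧ 3 ∣ N
    · obtain ⟨hg3, k, rfl⟩ := h
      have hk : 0 < k := Nat.pos_of_mul_pos_left hN
      have h3k : ¬ 3 ∣ k := fun hd =>
        Nat.prime_three.not_isUnit (hsq 3 (mul_dvd_mul_left 3 hd))
      have h3k2 : ¬ 3 ∣ k * 2 := fun hd =>
        (Nat.prime_three.dvd_mul.1 hd).elim h3k (by norm_num)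
      have hsqk : Squarefree (k * 2) :=
        (Nat.squarefree_mul ((Nat.prime_two.coprime_iff_not_dvd).2
          fun hd => h2N (hd.mul_left 3)).symm).2
          ⟨hsq.squarefree_of_dvd (dvd_mul_left k 3), Nat.prime_two.squarefree⟩
      refine ⟨k * 2, by omega, hsqk, ?_, fun hg hd => ?_, fun _ => h3k2⟩
      · refine removeThree hΔ hg3 hirr (by omega) h3k2 (dvd_mul_left 2 k) ?_
        exact GoodTwo.isResiduallyModularOfLevel_of_dvd (by omega) ⟨2, by ring⟩ hres
      · exact (Nat.prime_five.dvd_mul.1 hd).elim (fun h' => h5 hg (h'.mul_left 3)) (by norm_num)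
    · exact ⟨N, hN, hsq, hres, h5, fun hg hd => h ⟨hg, hd⟩⟩
  have h55 : 5 ∣ N₂ → (5 : ℤ) ∣ V.Δ := fun hd => by_contra fun hn => h52 hn hd
  obtain ⟨M, hMN, hM⟩ := Lifting.Minimal.exists_minimalResidualLevel hN₂ hsq₂ h55 hres₂
  refine ⟨M, hM.pos, hM.squarefree, hM.residual, fun hg hd => hg (hM.mult_of_dvd hd),
    fun q hq hqM hqg hq5 => ?_⟩
  by_contra hlt
  have := hq.two_le
  interval_cases q
  · exact not_two_dvd_of_minimal hΔ hirr hgood ha hM hqM
  · exact h32 hqg (hqM.trans hMN)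
  · exact absurd hq (by norm_num)

end Fermat.Agent.Semistable

end
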