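import Fermat.Agent.Lifting.Squarefree.NewformSystem
import Fermat.Agent.Lifting.Squarefree.RaiseData
import Fermat.Agent.RT.NewformDescent

/-!
# The auxiliary prime comes off a residual level

`isResiduallyModularOfLevel_div_aux`: a good prime `r ≠ p` exactly dividing a residual level with
`a_r² ≢ (r + 1)² (mod p)` comes off it: no congruent newform is new at `r`.
-/

set_option autoImplicit false
set_option linter.style.haveILetI false

noncomputable section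

namespace Fermat.Agent.Semistable

variable {W : WeierstrassCurve ℤ} {p : ℕ}

/-- A good prime `r ≠ p` exactly dividing a residual level with `a_r² ≢ (r + 1)²` comes off it. -/
theorem exists_residualLevel_not_dvd_aux (hS29 : RT.EigenformResidualRep)
    (h35 : BadPrime.NewformMultRep) [Fact p.Prime] (hp2 : p ≠ 2) (hΔ : W.Δ ≠ 0)
    (hirr : W.ModRepIsIrreducible p) {N r : ℕ} (hN : 0 < N) (hr : r.Prime) (hrp : r ≠ p)
    (hgood : W.IsGoodPrimeFor r) (hr2 : ¬ r ^ 2 ∣ N)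
    (hne : (W.apOfModel r : ZMod p) ^ 2 ≠ ((r : ZMod p) + 1) ^ 2)
    (h : W.IsResiduallyModularOfLevel p N) :
    ∃ M' : ℕ, 0 < M' ∧ M' ∣ N ∧ ¬ r ∣ M' ∧ W.IsResiduallyModularOfLevel p M' := by
  have hp : p.Prime := Fact.out
  obtain ⟨M', hd, g, 𝔪, hg, hmax, hpm, hcong⟩ := RT.exists_newform_congruent h hN
  have hM' : 0 < M' := Nat.pos_of_dvd_of_pos hd hN
  let T : Finset ℕ := {p} ∪ N.primeFactors ∪ W.Δ.natAbs.primeFactors
  have hcofin : ∀ ℓ : ℕ, ℓ.Prime → ℓ ∉ T → ∃ a : integralClosure ℤ ℂ,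
      (a : ℂ) = ModularFormClass.qCoeff g ℓ ∧
        a - ((W.apOfModel ℓ : ℤ) : integralClosure ℤ ℂ) ∈ 𝔪 := fun ℓ hℓ hℓT => by
    simp only [T, Finset.mem_union, Finset.mem_singleton, Nat.mem_primeFactors, not_or] at hℓT
    exact hcong ℓ hℓ (fun hd' => hℓT.2 ⟨hℓ, Int.natCast_dvd.1 hd', Int.natAbs_ne_zero.2 hΔ⟩)
      (fun hd' => hℓT.1.2 ⟨hℓ, hd', hN.ne'⟩) hℓT.1.1
  refine ⟨M', hM', hd, fun hrM => ?_, RT.isResiduallyModularOfLevel_of_cofinite hS29
    RT.torsionFrobeniusCharpoly hΔ hp hM' hg.1 hmax hpm T hcofin⟩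
  have hnf := Lifting.residualNewformAt_of_cofinite hS29 hΔ hp2 hirr hM' hg hmax hpm T hcofin
  have hdvd := Lifting.sq_sub_dvd_of_residualNewformAt h35 hΔ hp hp2 hirr hM' hnf hr hrp hgood hrM
    fun h2 => hr2 (h2.trans hd)
  rw [← ZMod.intCast_zmod_eq_zero_iff_dvd] at hdvd
  push_cast at hdvd
  exact hne (sub_eq_zero.1 hdvd)

/-- The auxiliary prime `r` of a level `N * r` comes off. -/
theorem exists_residualLevel_dvd_of_mul_aux (hS29 : RT.EigenformResidualRep)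
    (h35 : BadPrime.NewformMultRep) [Fact p.Prime] (hp2 : p ≠ 2) (hΔ : W.Δ ≠ 0)
    (hirr : W.ModRepIsIrreducible p) {N r : ℕ} (hN : 0 < N) (hr : r.Prime) (hrp : r ≠ p)
    (hgood : W.IsGoodPrimeFor r) (hrN : ¬ r ∣ N)
    (hne : (W.apOfModel r : ZMod p) ^ 2 ≠ ((r : ZMod p) + 1) ^ 2)
    (h : W.IsResiduallyModularOfLevel p (N * r)) :
    ∃ M' : ℕ, 0 < M' ∧ M' ∣ N ∧ W.IsResiduallyModularOfLevel p M' := by
  have hr2 : ¬ r ^ 2 ∣ N * r := fun h2 => by
    rw [pow_two, Nat.mul_dvd_mul_iff_right hr.pos] at h2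
    exact hrN h2
  obtain ⟨M', hM', hd, hrM, hres⟩ := exists_residualLevel_not_dvd_aux hS29 h35 hp2 hΔ hirr
    (Nat.mul_pos hN hr.pos) hr hrp hgood hr2 hne h
  exact ⟨M', hM', (hr.coprime_iff_not_dvd.2 hrM).symm.dvd_of_dvd_mul_right hd, hres⟩

end Fermat.Agent.Semistable

end
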