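import Fermat.Agent.GoodTwo.Contracts
import Fermat.Prelude.Def_WeierstrassCurve_Mlc1RowStatement

/-!
# Contracts of the modularity of every semistable curve

* `LiftAtThreeFull`, `LiftAtFiveFull`: lifting at `3` and at `5` from squarefree residual levels;
* `MazurLoweringThree`, `OrdinaryTpThree`: the two facts at `p = 3` the first of these needs;
* `SupersingularThreeNotInLevel`, `LevelTwoRemovalThree`: `2` removed from a residual level at `3`;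
* `LevelThreeRemovalFive`: `3` removed from a residual level at `5`;
* `FiveSwitchGoodTwo`, `ThreeSwitchTwo`: the switches at `5` and at `3` keeping good reduction at `2`.
-/

set_option autoImplicit false

open WeierstrassCurve

namespace Fermat.Agent.Semistable

/-- Lifting at `3` of a semistable curve, from a squarefree residual level prime to `3` at good
`3` and prime to `2` when `E[3]` is unramified at `2`. -/
def LiftAtThreeFull : Prop :=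
  ∀ {W : WeierstrassCurve ℤ}, W.Δ ≠ 0 → W.IsSemistableModel → W.ModRepIsIrreducible 3 →
    ∀ {M : ℕ}, 0 < M → Squarefree M → W.IsResiduallyModularOfLevel 3 M →
      (W.IsGoodPrimeFor 3 → ¬ 3 ∣ M) → (Lifting.ResiduallyUnramifiedAt W 3 2 → ¬ 2 ∣ M) →
      Mlc1IsModularModelOfExactConductorLevel W

/-- Lifting at `5` of a semistable curve, from a squarefree residual level whose primes of good
reduction other than `5` are at least `5`. -/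
def LiftAtFiveFull : Prop :=
  ∀ {W : WeierstrassCurve ℤ}, W.Δ ≠ 0 → W.IsSemistableModel → W.ModRepIsIrreducible 5 →
    ∀ {M : ℕ}, 0 < M → Squarefree M → W.IsResiduallyModularOfLevel 5 M →
      (W.IsGoodPrimeFor 5 → ¬ 5 ∣ M) →
      (∀ q : ℕ, q.Prime → q ∣ M → W.IsGoodPrimeFor q → q ≠ 5 → 5 ≤ q) →
      Mlc1IsModularModelOfExactConductorLevel W

/-- Mazur's principle at `p = 3` for a prime `q ≥ 5`, `q ≢ 1`, of a squarefree level. -/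
def MazurLoweringThree : Prop :=
  ∀ W : WeierstrassCurve ℤ, W.Δ ≠ 0 → W.IsSemistableModel → W.ModRepIsIrreducible 3 →
    ∀ M q : ℕ, 0 < M → Squarefree M → q.Prime → 5 ≤ q → q ∣ M → (q : ZMod 3) ≠ 1 →
      Lifting.ResiduallyUnramifiedAt W 3 q → (W.IsGoodPrimeFor 3 → ¬ 3 ∣ M) →
      W.IsResiduallyModularOfLevel 3 M →
      ∃ M' : ℕ, 0 < M' ∧ M' ∣ M / q ∧ W.IsResiduallyModularOfLevel 3 M'

/-- At `3`: an eigenform of level prime to `3` congruent to a curve multiplicative at `3` has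
`a₃ ≡ ±1`. -/
def OrdinaryTpThree : Prop :=
  ∀ W : WeierstrassCurve ℤ, W.Δ ≠ 0 → W.IsSemistableModel → (3 : ℤ) ∣ W.Δ →
    W.ModRepIsIrreducible 3 →
    ∀ (M : ℕ) (f : CuspForm (CongruenceSubgroup.Gamma0 M) 2) (𝔪 : Ideal (integralClosure ℤ ℂ)),
    0 < M → ¬ 3 ∣ M → f.IsNormalizedEigenform → 𝔪.IsMaximal →
    ((3 : ℕ) : integralClosure ℤ ℂ) ∈ 𝔪 →
    (∀ ℓ : ℕ, ℓ.Prime → W.IsGoodPrimeFor ℓ → ¬ ℓ ∣ M → ℓ ≠ 3 → ∃ a : integralClosure ℤ ℂ,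
      (a : ℂ) = ModularFormClass.qCoeff f ℓ ∧
        a - ((W.apOfModel ℓ : ℤ) : integralClosure ℤ ℂ) ∈ 𝔪) →
    ∃ a : integralClosure ℤ ℂ, (a : ℂ) = ModularFormClass.qCoeff f 3 ∧ a ^ 2 - 1 ∈ 𝔪

/-- A curve supersingular at `3` is congruent to no newform of a level exactly divisible by `3`. -/
def SupersingularThreeNotInLevel : Prop :=
  ∀ W : WeierstrassCurve ℤ, W.Δ ≠ 0 → W.IsSemistableModel → W.ModRepIsIrreducible 3 →
    W.IsGoodPrimeFor 3 → (3 : ℤ) ∣ W.c₄ →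
    ∀ M : ℕ, 0 < M → 3 ∣ M → ¬ 3 ^ 2 ∣ M → ¬ Lifting.ResidualNewformAt W 3 M

/-- Removal of `2` from a residual level at `3` of a curve good at `2` and bad or supersingular
at `3`. -/
def LevelTwoRemovalThree : Prop :=
  ∀ W : WeierstrassCurve ℤ, W.Δ ≠ 0 → W.IsSemistableModel → W.ModRepIsIrreducible 3 →
    ¬ (2 : ℤ) ∣ W.Δ → (W.IsGoodPrimeFor 3 → (3 : ℤ) ∣ W.c₄) →
    ∀ N : ℕ, 0 < N → Squarefree N → W.IsResiduallyModularOfLevel 3 N →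
      (W.IsGoodPrimeFor 3 → ¬ 3 ∣ N) →
      ∃ M : ℕ, 0 < M ∧ Squarefree M ∧ ¬ 2 ∣ M ∧ W.IsResiduallyModularOfLevel 3 M ∧
        (W.IsGoodPrimeFor 3 → ¬ 3 ∣ M)

/-- Removal of `3` from an odd residual level at `5` of a curve good at `2` with `a₂ = 0`. -/
def LevelThreeRemovalFive : Prop :=
  ∀ W : WeierstrassCurve ℤ, W.Δ ≠ 0 → W.IsSemistableModel → ¬ (2 : ℤ) ∣ W.Δ →
    W.apOfModel 2 = 0 → W.ModRepIsIrreducible 5 →
    ∀ N : ℕ, 0 < N → Squarefree N → ¬ 2 ∣ N → W.IsResiduallyModularOfLevel 5 N →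
      (W.IsGoodPrimeFor 5 → ¬ 5 ∣ N) →
      ∃ M : ℕ, 0 < M ∧ Squarefree M ∧ W.IsResiduallyModularOfLevel 5 M ∧
        (W.IsGoodPrimeFor 5 → ¬ 5 ∣ M) ∧
        ∀ q : ℕ, q.Prime → q ∣ M → W.IsGoodPrimeFor q → q ≠ 5 → 5 ≤ q

/-- The switch at `5` of a curve good at `2`; the class at `3` moves only when `a₂ = 0`. -/
def FiveSwitchGoodTwo : Prop :=
  ∀ W : WeierstrassCurve ℤ, W.Δ ≠ 0 → W.IsSemistableModel → ¬ (2 : ℤ) ∣ W.Δ →
    W.ModRepIsIrreducible 5 →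
    ∃ U : WeierstrassCurve ℤ, U.Δ ≠ 0 ∧ U.IsSemistableModel ∧ ¬ (2 : ℤ) ∣ U.Δ ∧
      U.ModRepIsIrreducible 3 ∧ W.Δ ∣ U.Δ ∧
      ((32 : ℤ) ∣ U.c₄ ↔ (32 : ℤ) ∣ W.c₄) ∧ U.apOfModel 2 = W.apOfModel 2 ∧
      (W.IsGoodPrimeFor 5 → U.IsGoodPrimeFor 5) ∧
      (¬ (32 : ℤ) ∣ W.c₄ → W.IsGoodPrimeFor 3 → U.IsGoodPrimeFor 3) ∧
      ((32 : ℤ) ∣ W.c₄ → U.IsGoodPrimeFor 3 → (3 : ℤ) ∣ U.c₄) ∧
      ∀ ℓ : ℕ, ℓ.Prime → W.IsGoodPrimeFor ℓ → U.IsGoodPrimeFor ℓ → ℓ ≠ 5 →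
        (5 : ℤ) ∣ (U.apOfModel ℓ - W.apOfModel ℓ)

/-- The switch at `3` of a curve with `E[3]` unramified at a multiplicative `2`. -/
def ThreeSwitchTwo : Prop :=
  ∀ W : WeierstrassCurve ℤ, W.Δ ≠ 0 → W.IsSemistableModel → W.ModRepIsIrreducible 3 →
    (2 : ℤ) ∣ W.Δ → 3 ∣ padicValInt 2 W.Δ →
    ∃ V : WeierstrassCurve ℤ, V.Δ ≠ 0 ∧ V.IsSemistableModel ∧ ¬ (2 : ℤ) ∣ V.Δ ∧
      (32 : ℤ) ∣ V.c₄ ∧ V.ModRepIsIrreducible 3 ∧ V.ModRepIsIrreducible 5 ∧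
      (W.IsGoodPrimeFor 3 → V.IsGoodPrimeFor 3) ∧
      ∀ ℓ : ℕ, ℓ.Prime → ℓ ≠ 3 → W.IsGoodPrimeFor ℓ → V.IsGoodPrimeFor ℓ →
        (3 : ℤ) ∣ (V.apOfModel ℓ - W.apOfModel ℓ)

/-- Exact conductor-level modularity of every semistable curve. -/
def SemistableExactConductor : Prop :=
  ∀ W : WeierstrassCurve ℤ, W.Δ ≠ 0 → W.IsSemistableModel →
    Mlc1IsModularModelOfExactConductorLevel W

end Fermat.Agent.Semistable
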