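import Fermat.Agent.BadPrime.Sq.OmegaUnit
import Fermat.Agent.LevelP.X0.Fields

/-!
# The zeros of `j̄` without elliptic points of order `3`

If `ν₃(M) = 0` every zero of `j` on `X₀(M)` in characteristic zero is triple, and the divisor of
the reduction is the image of the divisor of `j`: in characteristic `q ∤ M` the zeros of `j̄` have
multiplicity divisible by `3`.
-/

set_option autoImplicit false
set_option linter.style.haveILetI false
set_option synthInstance.maxHeartbeats 400000
set_option maxHeartbeats 800000

noncomputable section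

open ModularCurve AlgebraicCurve IsLocalRing
open scoped IntermediateField

namespace Fermat.Agent.Semistable

open Fermat.Agent.Curve Fermat.Agent.Reduction Fermat.Agent.BadPrime Fermat.Agent.LevelP

local notation "Qb" => AlgebraicClosure ℚ

variable {M : ℕ} [NeZero M]

/-- Without elliptic points of order `3` every zero of `j` is triple. -/
theorem ord_jBar_eq_three (h3 : nuThree M = 0) (P : Place Qb (modularFunctionFieldBar M))
    (hP : 0 < P.ord (jBar M)) : P.ord (jBar M) = 3 := by
  classical
  have hcard : (Modular.fibreFinset (jBar M) (0 : Qb)).card * 3 = dedekindPsi M := by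
    have h := Modular.three_mul_natCard_placesFL_zero (N := M) qbarEmb
    rw [h3, mul_zero, add_zero] at h
    rw [Modular.card_fibreFinset, mul_comm]
    simp only [map_zero, sub_zero]
    exact h
  have hsum := Modular.sum_fibre_ord (transcendental_jBar M) (0 : Qb)
  simp only [map_zero, sub_zero] at hsum
  rw [Sq.finrank_jBar_eq_psi, ← hcard] at hsum
  have hle : ∀ P' ∈ Modular.fibreFinset (jBar M) (0 : Qb), P'.ord (jBar M) ≤ 3 := fun P' h' =>
    jBar_ord_le_three M P' (by simpa using Modular.mem_fibreFinset.1 h')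
  have heq : ∑ P' ∈ Modular.fibreFinset (jBar M) (0 : Qb), P'.ord (jBar M) =
      ∑ _P' ∈ Modular.fibreFinset (jBar M) (0 : Qb), (3 : ℤ) := by
    rw [hsum, Finset.sum_const, nsmul_eq_mul]
    push_cast
    ring
  exact (Finset.sum_eq_sum_iff_of_le hle).1 heq P
    (Modular.mem_fibreFinset.2 (by simpa using hP))

variable {q : ℕ} [Fact q.Prime]

/-- Without elliptic points of order `3` the zeros of `j̄` have multiplicity divisible by `3`. -/
theorem three_dvd_ord_jResM (A : ValuationSubring Qb) [IsAlgClosed (ResidueField A)]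
    (hA : A.LiesOverPrime q) (hqM : ¬ q ∣ M) (hN : (q = 2 → 3 ∣ M) ∧ (q = 3 → 2 ∣ M))
    (h3 : nuThree M = 0)
    (Q : Place (ResidueField A) (modularFunctionFieldFullC (ResidueField A) M))
    (hQ : 0 ≤ Q.ord (X0.jResM A M)) : (3 : ℤ) ∣ Q.ord (X0.jResM A M) := by
  classical
  set k := ResidueField A
  show (3 : ℤ) ∣ Q.ord (jRes k M)
  replace hQ : 0 ≤ Q.ord (jRes k M) := hQ
  set G := gaussDataX0 M hqM A hA
  obtain ⟨r, hdeg, hr⟩ := G.exists_placeCompat (genusFF_le_modL M hqM A hA hN)
  have hj := jBar_jRes_mem M A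
  have htr := transcendental_jRes M k
  have hjb0 : jRes k M ≠ 0 := fun h => htr (h ▸ isAlgebraic_zero)
  have hdiv := hr (jBar M) (jRes k M) hj hjb0 (divisorOf (K := Qb) (jBar M)) (fun P => rfl) Q
  have hpole := Sq.mapDomain_poleDivisor G hdeg hr hj htr (finrank_jRes M hqM A hA)
  have hsum : poleDivisor (K := Qb) (jBar M) + divisorOf (K := Qb) (jBar M) =
      poleDivisor (K := Qb) (jBar M)⁻¹ :=
    Finsupp.ext fun P => by
      simp only [Finsupp.add_apply, poleDivisor_apply, divisorOf_apply, Place.ord_inv]
      omega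
  have h := congrArg (fun D : Divisor Qb (modularFunctionFieldBar M) =>
    Finsupp.mapDomain r D Q) hsum
  simp only [Finsupp.mapDomain_add, Finsupp.add_apply, hpole, poleDivisor_apply, hdiv] at h
  rw [max_eq_right (neg_nonpos.2 hQ), zero_add] at h
  rw [h]
  refine Sq.dvd_mapDomain_place r _ 3 Q fun P _ => ?_
  rw [poleDivisor_apply, Place.ord_inv, neg_neg]
  rcases lt_or_ge 0 (P.ord (jBar M)) with hP | hP
  · rw [ord_jBar_eq_three h3 P hP]
    norm_num
  · rw [max_eq_right hP]
    exact dvd_zero _

end Fermat.Agent.Semistable
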