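import Fermat.Agent.LevelP.X0.UnitCube

/-!
# The residue of `Δ(τ)/Δ(2τ)` in characteristic `2` is `j`
-/

set_option autoImplicit false
set_option synthInstance.maxHeartbeats 400000
set_option maxHeartbeats 800000

noncomputable section

open ModularCurve AlgebraicCurve IsLocalRing

namespace Fermat.Agent.Semistable

open Fermat.Agent.Modular Fermat.Agent.Igusa Fermat.Agent.LevelP Fermat.Agent.BadPrime

local notation "Qb" => AlgebraicClosure ℚ

/-- In characteristic `2` one has `Δ(τ)/Δ(2τ) = j`. -/
theorem wSeries_two_eq_jqModC (k : Type) [Field k] [CharP k 2] :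
    (X0.wSeries 2 k : LaurentSeries k) = jqModC k := by
  set d := Igusa.deltaSeries k
  have hd : d ≠ 0 := hasLead_deltaSeries.ne_zero one_ne_zero
  have hd2 : qExpand k 2 d ≠ 0 := (hasLead_deltaSeries.qExpand 2).ne_zero one_ne_zero
  let _ : Algebra (ZMod 2) k := ZMod.algebra k 2
  have : Fact (Nat.Prime 2) := ⟨Nat.prime_two⟩
  have hpow : qExpand k 2 d = d ^ 2 := by
    rw [show d = coeffMap (algebraMap (ZMod 2) k) (Igusa.deltaSeries (ZMod 2)) from
      (coeffMap_deltaSeries _).symm, X0.qExpand_eq_pow_of_prime]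
  have h256 : HahnSeries.C (256 : k) = (0 : LaurentSeries k) := by
    rw [show (256 : k) = ((256 : ℕ) : k) by norm_num,
      (CharP.cast_eq_zero_iff k 2 256).2 (by norm_num), map_zero]
  have hid := Reduction.SmallId.identity_two k
  rw [h256, zero_mul, add_zero, hpow] at hid
  have h1 : jqModC k * d = 1 := by
    refine mul_right_cancel₀ (pow_ne_zero 3 hd) ?_
    linear_combination hid
  have hw := X0.wSeries_mul 2 k
  refine mul_right_cancel₀ hd2 ?_
  rw [hw, hpow]
  linear_combination (-d) * h1

/-- At `q = 2` the residue of `Δ(τ)/Δ(2τ)` has orders divisible by `3` at finite `j̄` as soon as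
`j̄` has. -/
theorem three_dvd_ord_wSeries_two {M : ℕ} [NeZero M] (A : ValuationSubring Qb)
    (hA : A.LiesOverPrime 2)
    (hz : ∀ Q : Place (ResidueField A) (modularFunctionFieldFullC (ResidueField A) M),
      0 ≤ Q.ord (X0.jResM A M) → (3 : ℤ) ∣ Q.ord (X0.jResM A M))
    (g : modularFunctionFieldFullC (ResidueField A) M)
    (hg : (g : LaurentSeries (ResidueField A)) =
      (X0.wSeries 2 (ResidueField A) : LaurentSeries (ResidueField A)))
    (Q : Place (ResidueField A) (modularFunctionFieldFullC (ResidueField A) M))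
    (hQ : 0 ≤ Q.ord (X0.jResM A M)) : (3 : ℤ) ∣ Q.ord g := by
  have := EC.charP_residueField A Nat.prime_two hA
  rw [show g = X0.jResM A M from Subtype.ext (hg.trans (wSeries_two_eq_jqModC _))]
  exact hz Q hQ

end Fermat.Agent.Semistable
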