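import Fermat.Agent.BadPrime.Mazur.Local.Main
import Fermat.Agent.BadPrime.Sq.ResidueField
import Fermat.Agent.Semistable.WSeriesTwo
import Fermat.Agent.Semistable.JResZeros

/-!
# The bounded factor `4` at a level with a prime `≡ 2 mod 3`

If a prime `r ≡ 2 mod 3` divides `M` then `X₀(M)` has no elliptic point of order `3`, so the zeros
of `j̄` have multiplicity divisible by `3`, hence so has the thickness of every node of `X₀(Mq)`
at `q`: the local inputs of Mazur's principle hold with the factor `4`.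
-/

set_option autoImplicit false
set_option synthInstance.maxHeartbeats 400000
set_option maxHeartbeats 800000
set_option linter.unusedSectionVars false

noncomputable section

open ModularCurve AlgebraicCurve IsLocalRing

namespace Fermat.Agent.Semistable

open Fermat.Agent.Curve Fermat.Agent.BadPrime Fermat.Agent.LevelP Fermat.Agent.Modular Fermat.Agent.Igusa
open Fermat.Agent.BadPrime.Mazur Fermat.Agent.BadPrime.Mazur.Local

local notation "Qb" => AlgebraicClosure ℚ

section Nodes

variable (A : ValuationSubring Qb) (q M : ℕ) [Fact q.Prime] [NeZero M]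
  [IsAlgClosed (ResidueField A)]

local notation "F" => modularFunctionFieldBar (M * q)
local notation "Fb" => modularFunctionFieldFullC (ResidueField A) M

/-- For `q ≥ 5` the residue of `Δ(τ)/Δ(qτ)` has orders divisible by `3` at finite `j̄` as soon as
`j̄` has. -/
theorem three_dvd_ord_wSeries_of_zeros (hq : 5 ≤ q) (hA : A.LiesOverPrime q)
    (hz : ∀ Q : Place (ResidueField A) Fb, 0 ≤ Q.ord (X0.jResM A M) →
      (3 : ℤ) ∣ Q.ord (X0.jResM A M)) (g : Fb)
    (hg : (g : LaurentSeries (ResidueField A)) =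
      (X0.wSeries q (ResidueField A) : LaurentSeries (ResidueField A)))
    (Q : Place (ResidueField A) Fb) (hQ : 0 ≤ Q.ord (X0.jResM A M)) :
    (3 : ℤ) ∣ Q.ord g := by
  have hp : q.Prime := Fact.out
  have hchar := EC.charP_residueField A hp hA
  obtain ⟨S, φ, b, hb, hb0⟩ := X0.exists_eis_coeff A q hq hA
  obtain ⟨a, P, hP⟩ := X0.exists_cube q hq S φ b hb hb0
  have he : (Polynomial.aeval (X0.jResM A M) P) ^ 3 = g * X0.jResM A M ^ a := by
    apply Subtype.ext
    simp only [IntermediateField.coe_mul, IntermediateField.coe_pow, hg]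
    rw [show ((Polynomial.aeval (X0.jResM A M) P : Fb) : LaurentSeries (ResidueField A)) =
      P.eval₂ HahnSeries.C (jqModC (ResidueField A)) by
        show (modularFunctionFieldFullC (ResidueField A) M).val _ = _
        rw [← Polynomial.aeval_algHom_apply, Polynomial.aeval_def]
        exact Polynomial.eval₂_congr
          (RingHom.ext fun x => (Reduction.C_eq_algebraMap x).symm) rfl rfl]
    exact hP
  have hj0 : X0.jResM A M ≠ 0 := fun h =>
    hasLead_jqModC.ne_zero one_ne_zero (congrArg Subtype.val h)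
  have hg0 : g ≠ 0 := fun h =>
    (X0.wSeries q (ResidueField A)).ne_zero (by rw [← hg, h]; rfl)
  have key := congrArg Q.ord he
  rw [Q.ord_mul hg0 (pow_ne_zero a hj0), Curve.ord_pow, Curve.ord_pow] at key
  obtain ⟨c, hc⟩ := hz Q hQ
  refine ⟨Q.ord (Polynomial.aeval (X0.jResM A M) P) - a * c, ?_⟩
  rw [hc] at key
  push_cast at key
  linarith

/-- The thickness of a node is the order of the residue of `Δ(τ)/Δ(qτ)`. -/
theorem three_dvd_r_of_ord
    (hord : ∀ g : Fb, (g : LaurentSeries (ResidueField A)) =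
        (X0.wSeries q (ResidueField A) : LaurentSeries (ResidueField A)) →
      ∀ Q : Place (ResidueField A) Fb, 0 ≤ Q.ord (X0.jResM A M) → (3 : ℤ) ∣ Q.ord g)
    (T : TwoCompData q A F Fb)
    (hred : ∀ (f : F) (g : Fb), (∃ h : f ∈ T.V false, T.red false ⟨f, h⟩ = g) ↔
      HasGaussRed (residue A) (f : LaurentSeries Qb) (g : LaurentSeries (ResidueField A)))
    (hw : (T.w : LaurentSeries Qb) = (X0.wSeries q Qb : LaurentSeries Qb))
    (hj : ∀ y, T.On y false → T.IsNode y → 0 ≤ (T.loc y false).ord (X0.jResM A M))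
    (y : T.Pt) (hy : T.IsNode y) : 3 ∣ T.r y := by
  have hwV : T.w ∈ T.V false := T.mem_of_valuation_eq_one T.w_false
  set g := T.red false ⟨T.w, hwV⟩ with hg
  have hG : HasGaussRed (residue A) (T.w : LaurentSeries Qb)
      (g : LaurentSeries (ResidueField A)) := (hred _ _).1 ⟨hwV, rfl⟩
  have hW : HasGaussRed (residue A) (T.w : LaurentSeries Qb)
      (X0.wSeries q (ResidueField A) : LaurentSeries (ResidueField A)) := by
    have h := hasGaussRed_coeffMap (π := residue A) (X0.wSeries q A : LaurentSeries A)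
    rwa [X0.coeffMap_wSeries, X0.coeffMap_wSeries, ← hw] at h
  have h := hord g (hG.unique hW) (T.loc y false) (hj y hy.1 hy)
  rw [hg, T.red_w_ord y hy.1 hy.2 hwV] at h
  exact_mod_cast h

end Nodes

variable {q M n : ℕ} [Fact q.Prime] [NeZero M] [NeZero (M * q)] [NeZero n]

/-- **The factor `4`, at a level with a prime `r ≡ 2 mod 3`.** -/
theorem localInputsMod_four_of_prime (hq : 5 ≤ q) (hqM : ¬ q ∣ M) (hn : ¬ q ∣ n) {r : ℕ}
    (hr : r.Prime) (hr3 : r % 3 = 2) (hrM : r ∣ M) : LocalInputsMod q n 4 M :=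
  have hN : (q = 2 → 3 ∣ M) ∧ (q = 3 → 2 ∣ M) :=
    ⟨fun h => absurd h (by omega), fun h => absurd h (by omega)⟩
  localInputsMod_of (m := 3) hN hqM hn rfl fun A hA _ T hT hw hj y hy =>
    three_dvd_r_of_ord A q M
      (three_dvd_ord_wSeries_of_zeros A q M hq hA
        (three_dvd_ord_jResM A hA hqM hN (Sq.nuThree_eq_zero_of_dvd hr hr3 hrM)))
      T hT.red_iff hw hj y hy

/-- **The factor `4` at `q = 2`, at a level divisible by `3` and by a prime `r ≡ 2 mod 3`.** -/
theorem localInputsMod_four_two [Fact (Nat.Prime 2)] [NeZero (M * 2)] (h2M : ¬ 2 ∣ M)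
    (h3M : 3 ∣ M) (hn : ¬ 2 ∣ n) {r : ℕ} (hr : r.Prime) (hr3 : r % 3 = 2) (hrM : r ∣ M) :
    LocalInputsMod 2 n 4 M :=
  have hN : (2 = 2 → 3 ∣ M) ∧ (2 = 3 → 2 ∣ M) :=
    ⟨fun _ => h3M, fun h => absurd h (by omega)⟩
  localInputsMod_of (m := 3) hN h2M hn rfl fun A hA _ T hT hw hj y hy =>
    three_dvd_r_of_ord A 2 M
      (three_dvd_ord_wSeries_two A hA
        (three_dvd_ord_jResM A hA h2M hN (Sq.nuThree_eq_zero_of_dvd hr hr3 hrM)))
      T hT.red_iff hw hj y hy

end Fermat.Agent.Semistable
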