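import Fermat.Agent.BadPrime.Mazur.Assembly
import Fermat.Agent.EichlerShimura.Inputs
import Fermat.Agent.Lifting.Minimal.Defs
import Fermat.Agent.RT.Assembly.FromCurve
import Fermat.Agent.Semistable.Thickness

/-!
# Mazur's principle at `q = 2` for `p = 3`

At a level `2 L`, `L` odd, divisible by `3` and by a prime `r ≡ 2 (mod 3)`, the bounded factor of
the local inputs is `4`, prime to `3`, and `2 ≢ 1 (mod 3)`.
-/

set_option autoImplicit false
set_option linter.style.haveILetI false

noncomputable section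

open scoped WeierstrassCurve.Affine

namespace Fermat.Agent.Semistable

/-- **Mazur's principle at `q = 2`, `p = 3`.** -/
theorem isResiduallyModularOfLevel_of_two_mul {W : WeierstrassCurve ℤ} (hΔ : W.Δ ≠ 0)
    (hirr : W.ModRepIsIrreducible 3) (h2 : W.IsGoodPrimeFor 2) {L r : ℕ} (hL : 0 < L)
    (h2L : ¬ 2 ∣ L) (h3L : 3 ∣ L) (hr : r.Prime) (hr3 : r % 3 = 2) (hrL : r ∣ L)
    (hmod : W.IsResiduallyModularOfLevel 3 (L * 2)) : W.IsResiduallyModularOfLevel 3 L := by
  haveI : Fact (Nat.Prime 3) := ⟨Nat.prime_three⟩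
  haveI : Fact (Nat.Prime 2) := ⟨Nat.prime_two⟩
  haveI : NeZero L := ⟨hL.ne'⟩
  haveI : NeZero (L * 2) := ⟨(Nat.mul_pos hL two_pos).ne'⟩
  haveI : NeZero (3 : ℕ) := ⟨by norm_num⟩
  haveI : (W.map (Int.castRingHom ℚ)).IsElliptic := EC.isElliptic_map_rat hΔ
  have hunr : Lifting.ResiduallyUnramifiedAt W 3 2 :=
    RT.Assembly.residuallyUnramifiedAt_of_good hΔ Nat.prime_two (by norm_num) h2
  exact BadPrime.Mazur.isResiduallyModularOfLevel_of_inputs
    (fun N _ => EichlerShimura.kummerIso_modular N)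
    (fun N _ p _ => EichlerShimura.frobeniusOnTorsion_modular N p) (p := 3) (by norm_num) hΔ
    (EC.natCard_torsion_rat _ (by norm_num))
    (EC.galoisRepModuleEnd_factorsThroughFiniteLevel _ (by norm_num))
    hirr Nat.prime_two (by norm_num)
    ((localInputsMod_four_two (n := 3) h2L h3L (by norm_num) hr hr3 hrL).localInputs (by decide))
    (show ((2 : ℕ) : ZMod 3) ≠ 1 from fun h => absurd ((ZMod.natCast_eq_natCast_iff' 2 1 3).1 (h.trans Nat.cast_one.symm)) (by decide)) (fun A hA σ hσ => LinearMap.ext fun x => hunr A hA σ hσ x) hmod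

end Fermat.Agent.Semistable
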