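import Fermat.Agent.BadPrime.Reps
import Fermat.Agent.Endgame.Chain
import Fermat.Agent.GoodTwo.Stabilise
import Fermat.Agent.Semistable.AuxPrimeTwelve
import Fermat.Agent.Semistable.AuxRemoval
import Fermat.Agent.Semistable.Contracts
import Fermat.Agent.Semistable.MazurTwoThree

/-!
# Removal of `2` from a residual level at `3`

Stabilise to a level divisible by `3` and by an auxiliary prime `r ≡ 11 (mod 12)`, remove `2` by
Mazur's principle, take `r` off, and, when `3` is good and supersingular, `3` as well: no congruent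
newform is new there.
-/

set_option autoImplicit false
set_option linter.style.haveILetI false

noncomputable section

open WeierstrassCurve

namespace Fermat.Agent.Semistable

/-- At good supersingular `3` a residual level exactly divisible by `3` has a divisor prime to `3`
which is again one. -/
theorem exists_residualLevel_not_three_dvd (hA2 : SupersingularThreeNotInLevel)
    {W : WeierstrassCurve ℤ} (hΔ : W.Δ ≠ 0) (hW : W.IsSemistableModel)
    (hirr : W.ModRepIsIrreducible 3) (hgood : W.IsGoodPrimeFor 3) (hss : (3 : ℤ) ∣ W.c₄) {N : ℕ}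
    (hN : 0 < N) (hsq : Squarefree N) (h : W.IsResiduallyModularOfLevel 3 N) :
    ∃ M : ℕ, 0 < M ∧ M ∣ N ∧ ¬ 3 ∣ M ∧ W.IsResiduallyModularOfLevel 3 M := by
  haveI : Fact (Nat.Prime 3) := ⟨Nat.prime_three⟩
  have hS29 : RT.EigenformResidualRep := Endgame.eigenformResidualRep
  have hp2 : (3 : ℕ) ≠ 2 := by norm_num
  obtain ⟨M', hd, g, 𝔪, hg, hmax, hpm, hcong⟩ := RT.exists_newform_congruent h hN
  have hM' : 0 < M' := Nat.pos_of_dvd_of_pos hd hN
  let T : Finset ℕ := {3} ∪ N.primeFactors ∪ W.Δ.natAbs.primeFactors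
  have hcofin : ∀ ℓ : ℕ, ℓ.Prime → ℓ ∉ T → ∃ a : integralClosure ℤ ℂ,
      (a : ℂ) = ModularFormClass.qCoeff g ℓ ∧
        a - ((W.apOfModel ℓ : ℤ) : integralClosure ℤ ℂ) ∈ 𝔪 := fun ℓ hℓ hℓT => by
    simp only [T, Finset.mem_union, Finset.mem_singleton, Nat.mem_primeFactors, not_or] at hℓT
    exact hcong ℓ hℓ (fun hd' => hℓT.2 ⟨hℓ, Int.natCast_dvd.1 hd', Int.natAbs_ne_zero.2 hΔ⟩)
      (fun hd' => hℓT.1.2 ⟨hℓ, hd', hN.ne'⟩) hℓT.1.1
  refine ⟨M', hM', hd, fun h3 => ?_, RT.isResiduallyModularOfLevel_of_cofinite hS29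
    RT.torsionFrobeniusCharpoly hΔ Nat.prime_three hM' hg.1 hmax hpm T hcofin⟩
  refine hA2 W hΔ hW hirr hgood hss M' hM' h3 (fun h9 => ?_)
    (Lifting.residualNewformAt_of_cofinite hS29 hΔ hp2 hirr hM' hg hmax hpm T hcofin)
  exact absurd (Nat.isUnit_iff.1 (hsq 3 (by rw [← pow_two]; exact h9.trans hd))) (by norm_num)

/-- **Removal of `2`.** -/
theorem levelTwoRemovalThree_of (hA2 : SupersingularThreeNotInLevel) : LevelTwoRemovalThree := by
  intro W hΔ hW hirr h2W hss N hN hsq hmod h3N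
  by_cases h2N : 2 ∣ N
  swap
  · exact ⟨N, hN, hsq, h2N, hmod, h3N⟩
  haveI : Fact (Nat.Prime 3) := ⟨Nat.prime_three⟩
  obtain ⟨r, hr, hrS, hr3, hrgood, hr12, hne⟩ :=
    exists_aux_prime_twelve hΔ hW hirr ({2, 3} ∪ N.primeFactors)
  simp only [Finset.mem_union, Finset.mem_insert, Finset.mem_singleton, Nat.mem_primeFactors,
    not_or] at hrS
  obtain ⟨⟨hr2, -⟩, hrN⟩ := hrS
  have hrN : ¬ r ∣ N := fun h => hrN ⟨hr, h, hN.ne'⟩
  -- the odd part with the prime three adjoined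
  obtain ⟨K, hK0, hKsq, h3K, hK2, hNK⟩ : ∃ K : ℕ, 0 < K ∧ Squarefree K ∧ 3 ∣ K ∧ ¬ 2 ∣ K ∧
      N ∣ K * 2 ∧ ¬ r ∣ K := by
    obtain ⟨k, rfl⟩ := h2N
    have hk2 : ¬ 2 ∣ k := fun h => by
      have := hsq 2 (Nat.mul_dvd_mul_left 2 h)
      norm_num at this
    have hk0 : 0 < k := Nat.pos_of_ne_zero fun h => hN.ne' (by simp [h])
    have hksq : Squarefree k := hsq.squarefree_of_dvd (dvd_mul_left k 2)
    have hrk : ¬ r ∣ k := fun h => hrN (h.mul_left 2)
    by_cases h3 : 3 ∣ k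
    · exact ⟨k, hk0, hksq, h3, hk2, ⟨1, by ring⟩, hrk⟩
    · refine ⟨k * 3, by omega, (Nat.squarefree_mul
        (Nat.prime_three.coprime_iff_not_dvd.2 h3).symm).2 ⟨hksq, Nat.prime_three.squarefree⟩,
        dvd_mul_left 3 k, fun h => ?_, ⟨3, by ring⟩, fun h => ?_⟩
      · exact ((Nat.prime_two.dvd_mul).1 h).elim hk2 (by norm_num)
      · exact ((hr.dvd_mul).1 h).elim hrk fun h3r => hr3
          ((Nat.prime_dvd_prime_iff_eq hr Nat.prime_three).1 h3r)
  obtain ⟨hNK, hrK⟩ := hNK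
  have hL0 : 0 < K * r := Nat.mul_pos hK0 hr.pos
  have hL2 : ¬ 2 ∣ K * r := fun h => ((Nat.prime_two.dvd_mul).1 h).elim hK2 fun h2r =>
    hr2 ((Nat.prime_dvd_prime_iff_eq Nat.prime_two hr).1 h2r).symm
  have hLsq : Squarefree (K * r) :=
    (Nat.squarefree_mul (hr.coprime_iff_not_dvd.2 hrK).symm).2 ⟨hKsq, hr.squarefree⟩
  have hg2 : W.IsGoodPrimeFor 2 := fun h => h2W (by exact_mod_cast h)
  have hres2 : W.IsResiduallyModularOfLevel 3 (K * r * 2) :=
    GoodTwo.isResiduallyModularOfLevel_of_dvd (Nat.mul_pos hL0 two_pos)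
      (hNK.trans ⟨r, by ring⟩) hmod
  have hresL := isResiduallyModularOfLevel_of_two_mul hΔ hirr hg2 hL0 hL2 (h3K.mul_right r) hr
    (by omega) (dvd_mul_left r K) hres2
  obtain ⟨M, hM0, hMK, hresM⟩ := exists_residualLevel_dvd_of_mul_aux Endgame.eigenformResidualRep
    BadPrime.newformMultRep_modular (by norm_num) hΔ hirr hK0 hr hr3 hrgood hrK hne hresL
  by_cases hg3 : W.IsGoodPrimeFor 3
  · obtain ⟨M', hM'0, hM'M, h3M', hresM'⟩ := exists_residualLevel_not_three_dvd hA2 hΔ hW hirr hg3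
      (hss hg3) hM0 (hKsq.squarefree_of_dvd hMK) hresM
    exact ⟨M', hM'0, hKsq.squarefree_of_dvd (hM'M.trans hMK),
      fun h => hK2 (h.trans (hM'M.trans hMK)), hresM', fun _ => h3M'⟩
  · exact ⟨M, hM0, hKsq.squarefree_of_dvd hMK, fun h => hK2 (h.trans hMK), hresM,
      fun h => absurd h hg3⟩

end Fermat.Agent.Semistable
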