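import Fermat.Agent.Lifting.Squarefree.Base
import Fermat.Agent.Semistable.Contracts

/-!
# The base of the raising argument at `3` for every semistable curve

`raisingBaseThree`: below an admissible squarefree residual level a minimal one consists of
ramified primes and possibly `3`; when `3` is multiplicative and missing it is raised at `3`.
-/

set_option autoImplicit false

noncomputable section

open WeierstrassCurve ModularFormClass

namespace Fermat.Agent.Semistable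

open Lifting

variable {W : WeierstrassCurve ℤ}

/-- No prime `q ≠ 3` of an admissible minimal level is residually unramified. -/
theorem not_residuallyUnramified_of_minimal (hMaz : MazurLoweringThree)
    (hTW : ∀ W : WeierstrassCurve ℤ, W.Δ ≠ 0 → W.IsSemistableModel → W.ModRepIsIrreducible 3 →
      ∀ M : ℕ, Minimal.IsMinimalResidualLevel W 3 M →
      (∀ q : ℕ, q.Prime → q ∣ M → q ≠ 3 → ResiduallyUnramifiedAt W 3 q →
        (q : ZMod 3) = 1 ∨ (q : ZMod 3) ^ 2 ≠ 1) →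
      ∀ q : ℕ, q.Prime → q ∣ M → q ≠ 3 → ResiduallyUnramifiedAt W 3 q → (q : ZMod 3) ≠ 1)
    (hΔ : W.Δ ≠ 0) (hW : W.IsSemistableModel) (hirr : W.ModRepIsIrreducible 3) {M : ℕ}
    (hM : Minimal.IsMinimalResidualLevel W 3 M) (h3 : W.IsGoodPrimeFor 3 → ¬ 3 ∣ M)
    (h2 : ResiduallyUnramifiedAt W 3 2 → ¬ 2 ∣ M) {q : ℕ} (hq : q.Prime) (hq3 : q ≠ 3)
    (hqM : q ∣ M) : ¬ ResiduallyUnramifiedAt W 3 q := by
  intro hu
  have hone : ∀ r : ℕ, r.Prime → r ∣ M → r ≠ 3 → ResiduallyUnramifiedAt W 3 r →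
      (r : ZMod 3) = 1 := by
    intro r hr hrM hr3 hru
    by_contra h1
    have h5 : 5 ≤ r := by
      have hr2 : r ≠ 2 := by rintro rfl; exact h2 hru hrM
      have hr4 : r ≠ 4 := by rintro rfl; exact absurd hr (by norm_num)
      have := hr.two_le
      omega
    obtain ⟨M', -, hd, hres⟩ :=
      hMaz W hΔ hW hirr M r hM.pos hM.squarefree hr h5 hrM h1 hru h3 hM.residual
    have heq := hM.minimal M' (hd.trans (Nat.div_dvd_of_dvd hrM)) hres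
    rw [heq] at hd
    exact absurd (Nat.le_of_dvd (Nat.div_pos (Nat.le_of_dvd hM.pos hrM) hr.pos) hd)
      (Nat.div_lt_self hM.pos hr.one_lt).not_ge
  exact hTW W hΔ hW hirr M hM (fun r hr hrM hr3 hru => Or.inl (hone r hr hrM hr3 hru)) q hq hqM
    hq3 hu (hone q hq hqM hq3 hu)

/-- **Existence of a base of the raising argument at `3`.** -/
theorem raisingBaseThree (hS29 : RT.EigenformResidualRep) (hMaz : MazurLoweringThree)
    (hord : OrdinaryTpThree)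
    (hTW : ∀ W : WeierstrassCurve ℤ, W.Δ ≠ 0 → W.IsSemistableModel → W.ModRepIsIrreducible 3 →
      ∀ M : ℕ, Minimal.IsMinimalResidualLevel W 3 M →
      (∀ q : ℕ, q.Prime → q ∣ M → q ≠ 3 → ResiduallyUnramifiedAt W 3 q →
        (q : ZMod 3) = 1 ∨ (q : ZMod 3) ^ 2 ≠ 1) →
      ∀ q : ℕ, q.Prime → q ∣ M → q ≠ 3 → ResiduallyUnramifiedAt W 3 q → (q : ZMod 3) ≠ 1) :
    ∀ W : WeierstrassCurve ℤ, W.Δ ≠ 0 → W.IsSemistableModel → W.ModRepIsIrreducible 3 →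
      ∀ M : ℕ, 0 < M → Squarefree M → W.IsResiduallyModularOfLevel 3 M →
        (W.IsGoodPrimeFor 3 → ¬ 3 ∣ M) → (ResiduallyUnramifiedAt W 3 2 → ¬ 2 ∣ M) →
        ∃ L : ℕ, IsRaisingBase W 3 L := by
  intro W hΔ hW hirr M hM hsf hres hgood htwo
  classical
  have hp' : Nat.Prime 3 := Nat.prime_three
  have hp2 : 3 ≠ 2 := by norm_num
  have : Fact (Nat.Prime 3) := ⟨hp'⟩
  obtain ⟨M₀, hM₀M, hM₀⟩ := Minimal.exists_minimalResidualLevel hM hsf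
    (fun h => by_contra fun hn => hgood hn h) hres
  have hram : ∀ {q : ℕ}, q.Prime → q ≠ 3 → q ∣ M₀ → ¬ ResiduallyUnramifiedAt W 3 q :=
    fun hq hq3 hqM => not_residuallyUnramified_of_minimal hMaz hTW hΔ hW hirr hM₀
      (fun hg hd => hgood hg (hd.trans hM₀M)) (fun hu hd => htwo hu (hd.trans hM₀M)) hq hq3 hqM
  have hbad : ∀ q : ℕ, q.Prime → q ∣ M₀ → q ≠ 3 → (q : ℤ) ∣ W.Δ := fun q hq hqM hq3 =>
    by_contra fun hg => hram hq hq3 hqM (EC.galoisRepUnramifiedAt_of_isGoodPrimeFor W hq hg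
      fun h => hq3 ((Nat.prime_dvd_prime_iff_eq hq hp').1 h))
  -- the base level: `M₀`, or one containing `3` inside `M₀ * 3`
  obtain ⟨L, hLM, hLsf, hL, hpL, hmin⟩ : ∃ L : ℕ, L ∣ M₀ * 3 ∧ Squarefree L ∧
      ResidualNewformAt W 3 L ∧
      (3 ∣ L ↔ ((3 : ℕ) : ℤ) ∣ W.Δ) ∧
      ∀ L' : ℕ, L' ∣ L → (3 ∣ L → 3 ∣ L') → ResidualNewformAt W 3 L' → L' = L := by
    have hN₀ : ResidualNewformAt W 3 M₀ := hM₀.exists_newform hS29 hΔ hp'
    by_cases hpM : 3 ∣ M₀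
    · exact ⟨M₀, dvd_mul_right _ _, hM₀.squarefree, hN₀, iff_of_true hpM (hM₀.mult_of_dvd hpM),
        fun L' hd _ h => hM₀.minimal L' hd h.residual⟩
    by_cases hpΔ : ((3 : ℕ) : ℤ) ∣ W.Δ
    swap
    · exact ⟨M₀, dvd_mul_right _ _, hM₀.squarefree, hN₀, iff_of_false hpM hpΔ,
        fun L' hd _ h => hM₀.minimal L' hd h.residual⟩
    obtain ⟨f, 𝔪, hf, hmax, hpm, hc⟩ := hN₀.residual
    obtain ⟨a, ha, ha1⟩ := hord W hΔ hW (by exact_mod_cast hpΔ) hirr M₀ f 𝔪 hM₀.pos hpM hf hmax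
      hpm hc
    have haLR : a ^ 2 - (((3 : ℕ) : integralClosure ℤ ℂ) + 1) ^ 2 ∈ 𝔪 := by
      rw [show a ^ 2 - (((3 : ℕ) : integralClosure ℤ ℂ) + 1) ^ 2 =
        (a ^ 2 - 1) - ((3 : ℕ) : integralClosure ℤ ℂ) * (((3 : ℕ) : integralClosure ℤ ℂ) + 2) by
          ring]
      exact 𝔪.sub_mem ha1 (𝔪.mul_mem_right _ hpm)
    obtain ⟨g, 𝔪', hg, hmax', hpm', hc', hnew⟩ := exists_newAt_of_sq_congr hΔ hp' hp2 hM₀.pos hp'
      hpM hirr hf hmax hpm (fun ℓ hℓ h1 h2 h3 _ => hc ℓ hℓ h1 h2 h3) ⟨a, ha, haLR⟩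
    obtain ⟨L₁, hL₁, hpL₁, hN₁⟩ := exists_residualNewform_dvd hM₀.pos hp' hpM
      (fun ℓ hℓ hd hℓp hgd => hgd (hbad ℓ hℓ ((hℓ.dvd_mul.1 hd).resolve_right fun h =>
        hℓp ((Nat.prime_dvd_prime_iff_eq hℓ hp').1 h)) hℓp))
      hg hmax' hpm' hc' hnew
    have hex : ∃ L, L ∣ M₀ * 3 ∧ 3 ∣ L ∧ ResidualNewformAt W 3 L := ⟨L₁, hL₁, hpL₁, hN₁⟩
    obtain ⟨h1, h2, h3⟩ := Nat.find_spec hex
    exact ⟨_, h1, ((Nat.squarefree_mul ((hp'.coprime_iff_not_dvd.2 hpM).symm)).2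
      ⟨hM₀.squarefree, hp'.prime.squarefree⟩).squarefree_of_dvd h1, h3, iff_of_true h2 hpΔ,
      fun L' hd hpd h =>
      (Nat.le_of_dvd (Nat.pos_of_dvd_of_pos h1 (Nat.mul_pos hM₀.pos hp'.pos)) hd).antisymm
        (Nat.find_min' hex ⟨hd.trans h1, hpd h2, h⟩)⟩
  have hpos : 0 < L := Nat.pos_of_dvd_of_pos hLM (Nat.mul_pos hM₀.pos hp'.pos)
  have hdvdM₀ : ∀ {q : ℕ}, q.Prime → q ≠ 3 → q ∣ L → q ∣ M₀ := fun hq hqp hqL =>
    (hq.dvd_mul.1 (hqL.trans hLM)).resolve_right fun h =>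
      hqp ((Nat.prime_dvd_prime_iff_eq hq hp').1 h)
  refine ⟨L, hpos, hLsf, hL, hpL, ?_, ?_, ?_, hmin⟩
  · intro q hq hqL
    by_cases hqp : q = 3
    · exact hqp ▸ hpL.1 (hqp ▸ hqL)
    · exact hbad q hq (hdvdM₀ hq hqp hqL) hqp
  · exact fun q hq hqp hr => hL.dvd_of_ramified hS29 hpos hLsf hpL.1 hΔ hp' hp2 hirr hq hqp hr
  · intro q hq hqp hqL hu
    exact absurd hu (hram hq hqp (hdvdM₀ hq hqp hqL))

end Fermat.Agent.Semistable

end
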