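import Fermat.Agent.BadPrime.Reps
import Fermat.Agent.GoodTwo.Stabilise
import Fermat.Agent.Lifting.Minimal.Newform
import Fermat.Agent.Lifting.Squarefree.MazurGeneral
import Fermat.Agent.Lifting.Squarefree.NewformSystem
import Fermat.Agent.S29
import Fermat.Agent.Semistable.AuxPrimeTwelve
import Fermat.Agent.Semistable.Contracts
import Fermat.Agent.Semistable.Thickness

/-!
# Mazur's principle at `p = 3` for every squarefree level

The level is stabilised by an auxiliary prime `r ≡ 11 (mod 12)` with `a_r² ≢ (r + 1)²`: then the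
bounded factor of the local inputs at `q` is `4`, so `q` comes off, and `r` cannot stay in a
minimal level.
-/

set_option autoImplicit false

noncomputable section

open WeierstrassCurve

namespace Fermat.Agent.Semistable

/-- **Mazur's principle at `3`.** -/
theorem mazurLoweringThree : MazurLoweringThree := by
  intro W hΔ hss hirr M q hM hsq hq hq5 hqM hq1 hunr hgood hmod
  have hS29 : RT.EigenformResidualRep := fun hg _ hp _ _ _ φ => S29.result hg hp φ
  have : Fact (Nat.Prime 3) := ⟨Nat.prime_three⟩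
  have : Fact q.Prime := ⟨hq⟩
  obtain ⟨L, rfl⟩ : ∃ L, M = L * q := ⟨M / q, (Nat.div_mul_cancel hqM).symm⟩
  rw [Nat.mul_div_cancel L hq.pos]
  have hL : 0 < L := Nat.pos_of_mul_pos_right hM
  obtain ⟨r, hr, hrS, hr3, hgr, hr12, hne⟩ :=
    exists_aux_prime_twelve hΔ hss hirr (L * q).primeFactors
  have hrM : ¬ r ∣ L * q := fun h => hrS (Nat.mem_primeFactors.2 ⟨hr, h, hM.ne'⟩)
  obtain ⟨hpos, hsqR, hmodR⟩ := GoodTwo.isResiduallyModularOfLevel_mul_prime hr hM hsq hrM hmod
  rw [mul_right_comm] at hpos hsqR hmodR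
  have hsqLr : Squarefree (L * r) := hsqR.squarefree_of_dvd (dvd_mul_right _ q)
  have hqLr : ¬ q ∣ L * r := fun h => hq.ne_one (Nat.isUnit_iff.1
    (hsqR q (Nat.mul_dvd_mul_right h q)))
  have hLr : 0 < L * r := Nat.mul_pos hL hr.pos
  have : NeZero (L * r) := ⟨hLr.ne'⟩
  have : NeZero (L * r * q) := ⟨hpos.ne'⟩
  have hq3 : q ≠ 3 := by omega
  have : (W.map (Int.castRingHom ℚ)).IsElliptic := EC.isElliptic_map_rat hΔ
  have hI : BadPrime.Mazur.LocalInputs q 3 (L * r) :=
    (localInputsMod_four_of_prime hq5 hqLr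
      (fun h => hq3 ((Nat.prime_dvd_prime_iff_eq hq Nat.prime_three).1 h)) hr
      (by omega : r % 3 = 2) (dvd_mul_left r L)).localInputs (by decide)
  have hmodLr : W.IsResiduallyModularOfLevel 3 (L * r) :=
    BadPrime.Mazur.isResiduallyModularOfLevel_of_inputs
      (fun N _ => EichlerShimura.kummerIso_modular N)
      (fun N _ p _ => EichlerShimura.frobeniusOnTorsion_modular N p) (by norm_num) hΔ
      (EC.natCard_torsion_rat _ (by norm_num))
      (EC.galoisRepModuleEnd_factorsThroughFiniteLevel _ (by norm_num))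
      hirr hq hq3 hI hq1 (fun A hA σ hσ => LinearMap.ext fun x => hunr A hA σ hσ x) hmodR
  obtain ⟨M₀, hd, h₀⟩ := Lifting.Minimal.exists_minimalResidualLevel hLr hsqLr
    (fun h => by_contra fun hn => hgood (fun hh => hn (by exact_mod_cast hh))
      (((Nat.prime_three.dvd_mul).1 h).resolve_right (fun h' =>
        hr3 ((Nat.prime_dvd_prime_iff_eq Nat.prime_three hr).1 h').symm) |>.mul_right q)) hmodLr
  refine ⟨M₀, h₀.pos, ?_, h₀.residual⟩
  have hr0 : ¬ r ∣ M₀ := fun hrd => hne <| by
    have h := Lifting.sq_sub_dvd_of_residualNewformAt BadPrime.newformMultRep_modular hΔ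
      Nat.prime_three (by norm_num) hirr h₀.pos (h₀.exists_newform hS29 hΔ Nat.prime_three)
      hr hr3 hgr hrd (h₀.sq_not_dvd hr)
    rw [← ZMod.intCast_zmod_eq_zero_iff_dvd] at h
    push_cast at h
    exact sub_eq_zero.1 h
  exact ((hr.coprime_iff_not_dvd.2 hr0).symm).dvd_of_dvd_mul_right hd

end Fermat.Agent.Semistable
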