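import Fermat.Agent.Semistable.OrdinaryEven
import Fermat.Agent.Semistable.Contracts
import Fermat.Agent.BadPrime.Raise

/-!
# `a₃ ≡ ±1` at a multiplicative `3` outside the level

An eigenform of level `M` is replaced by one of level `2 M` with the same coefficient at `3`.
-/

set_option autoImplicit false

noncomputable section

open WeierstrassCurve CongruenceSubgroup

namespace Fermat.Agent.Semistable

/-- `OrdinaryTpThree` holds. -/
theorem ordinaryTpThree : OrdinaryTpThree := by
  intro W hΔ hss h3 hirr M f 𝔪 hM h3M hf hmax hm hcong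
  have : NeZero M := ⟨hM.ne'⟩
  have : NeZero (2 * M) := ⟨by omega⟩
  have : Fact (Nat.Prime 3) := ⟨by norm_num⟩
  have h32 : ¬ 3 ∣ 2 * M := fun h => by
    rcases (Nat.Prime.dvd_mul (by norm_num)).1 h with h | h
    · norm_num at h
    · exact h3M h
  obtain ⟨g, hg, hgf⟩ := BadPrime.exists_eigenform_level_of_dvd (dvd_mul_left M 2) hf
  obtain ⟨a, ha, ham⟩ := OrdinaryThree.exists_sq_sub_one_mem (p := 3) le_rfl
    ⟨fun h => absurd h (by norm_num), fun _ => dvd_mul_right 2 M⟩ h32 hΔ hss
    (by exact_mod_cast h3) hirr hg hmax hm fun ℓ hℓ hgood hℓM hℓ3 => by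
      obtain ⟨b, hb, hbm⟩ := hcong ℓ hℓ hgood (fun h => hℓM (h.trans (dvd_mul_left M 2))) hℓ3
      exact ⟨b, hb.trans (hgf ℓ hℓ hℓM).symm, hbm⟩
  exact ⟨a, ha.trans (hgf 3 (by norm_num) h32), ham⟩

end Fermat.Agent.Semistable
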