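import Fermat.Agent.GoodTwo.LiftFive
import Fermat.Agent.Semistable.BaseThree
import Fermat.Agent.Semistable.MazurThree
import Fermat.Agent.Semistable.OrdinaryTpThree

/-!
# Lifting at `3` and at `5` of every semistable curve

* `liftAtThreeFull`: lifting at `3` from a squarefree residual level;
* `liftAtFiveFull`: the same at `5`.
-/

set_option autoImplicit false

open WeierstrassCurve

namespace Fermat.Agent.Semistable

/-- Every semistable curve with irreducible `E[3]` is raisable at `3`. -/
theorem isRaisableAt_three {W : WeierstrassCurve ℤ} (hΔ : W.Δ ≠ 0) (hW : W.IsSemistableModel)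
    (hirr : W.ModRepIsIrreducible 3) : Lifting.IsRaisableAt W 3 :=
  fun _ h3 _ => ordinaryTpThree W hΔ hW h3 hirr

/-- **Lifting at `3`.** -/
theorem liftAtThreeFull : LiftAtThreeFull := by
  intro W hΔ hW hirr M hM hsq hres hgood h2
  obtain ⟨L, hL⟩ := raisingBaseThree Endgame.eigenformResidualRep mazurLoweringThree
    ordinaryTpThree (fun V => Endgame.noMinimalTWLevel 3 Nat.prime_three (by decide) V) W hΔ hW
    hirr M hM hsq hres hgood h2
  obtain ⟨N, hN, hbad, hmod⟩ := GoodTwo.liftFromBase 3 (Or.inl rfl) W hΔ hW hirr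
    (isRaisableAt_three hΔ hW hirr) L hL
  exact Lifting.exactConductorLevel_of_squarefree BadPrime.newformMultRep_modular hΔ hW hN hmod hbad

/-- **Lifting at `5`.** -/
theorem liftAtFiveFull : LiftAtFiveFull := fun hΔ hW hirr _ hM hsq hres hgood hextra =>
  Lifting.exactConductorLevel_of_residual GoodTwo.raisingBase GoodTwo.liftFromBase
    BadPrime.newformMultRep_modular (Or.inr rfl) hΔ hW hirr
    ⟨Or.inr rfl, fun h => absurd h (by norm_num)⟩ hM hsq hres hgood hextra

end Fermat.Agent.Semistable
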