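import Fermat.Agent.LevelP.Ordinary.Lattice
import Mathlib.LinearAlgebra.Dual.Lemmas
import Mathlib.RingTheory.Nakayama

/-!
# Planes in new torsion have a residual quotient trivial on inertia

A plane over a discrete valuation ring whose reductions embed in powers of classes which are new
at `p`: if the translates `(R σ - 1) v` by inertia spanned the residual plane, all classes of the
plane would have power residues, so inertia would act on its `p`-torsion by the cyclotomic
character, as scalars `a` with `a² ≡ a`, that is trivially.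
-/

set_option autoImplicit false
set_option linter.style.haveILetI false
set_option maxHeartbeats 800000

noncomputable section

namespace Fermat.Agent.LevelP.TwoCompData

open AlgebraicCurve Fermat.Agent.Curve IsLocalRing
open scoped Pointwise

local notation "Qb" => AlgebraicClosure ℚ
local notation "Γℚ" => (AlgebraicClosure ℚ ≃ₐ[ℚ] AlgebraicClosure ℚ)

variable {p : ℕ} {A : ValuationSubring Qb} {F : Type*} [Field F] [Algebra Qb F]
  {Fb : Type*} [Field Fb] [Algebra (ResidueField A) Fb] (M : TwoCompData p A F Fb)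
  [IsFunctionField1 Qb F] [IsFunctionField1 (ResidueField A) Fb] [IsAlgClosed (ResidueField A)]
variable {O : Type} [CommRing O] [IsDomain O] [IsDiscreteValuationRing O]

omit [IsDomain O] [IsDiscreteValuationRing O] in
/-- If no nonzero residual functional kills a set of vectors, the set spans the plane. -/
theorem span_eq_top_of_residual [IsLocalRing O] (s : Set (Fin 2 → O))
    (h : ∀ ψ : (Fin 2 → ResidueField O) →ₗ[ResidueField O] ResidueField O,
      (∀ v ∈ s, ψ (fun i => residue O (v i)) = 0) → ψ = 0) :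
    Submodule.span O s = ⊤ := by
  classical
  let π : (Fin 2 → O) →ₗ[O] (Fin 2 → ResidueField O) :=
    (Algebra.linearMap O (ResidueField O)).compLeft (Fin 2)
  have hk : Submodule.span (ResidueField O) (π '' s) = ⊤ := by
    by_contra hne
    obtain ⟨ψ, hψ0, hψ⟩ := Submodule.exists_le_ker_of_lt_top _ (Ne.lt_top hne)
    exact hψ0 (h ψ fun v hv => hψ (Submodule.subset_span ⟨v, hv, rfl⟩))
  have hmap : (Submodule.span O s).map π = ⊤ := by
    rw [Submodule.map_span,
      ← Submodule.restrictScalars_span O (ResidueField O) residue_surjective, hk,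
      Submodule.restrictScalars_top]
  refine eq_top_iff.2 (Submodule.le_of_le_smul_of_le_jacobson_bot (Module.Finite.fg_top)
    (IsLocalRing.maximalIdeal_le_jacobson ⊥) fun v _ => ?_)
  obtain ⟨y, hy, hyv⟩ := (hmap ▸ Submodule.mem_top : π v ∈ (Submodule.span O s).map π)
  refine Submodule.mem_sup.2 ⟨y, hy, v - y, ?_, by abel⟩
  have hres : ∀ i, (v - y) i ∈ maximalIdeal O := fun i => by
    rw [← IsLocalRing.residue_eq_zero_iff, Pi.sub_apply, map_sub, sub_eq_zero]
    exact (congrFun hyv i).symm
  rw [show v - y = ∑ i, (v - y) i • (Pi.single i 1 : Fin 2 → O) by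
    funext i
    simp [Finset.sum_apply, Pi.single_apply]]
  exact Submodule.sum_mem _ fun i _ => Submodule.smul_mem_smul (hres i) Submodule.mem_top

/-- **No plane in new torsion has residual translates by inertia spanning the plane.** -/
theorem false_of_embedsLevel_of_span (hp : p.Prime) (hp3 : 3 ≤ p) (hA : A.LiesOverPrime p)
    {ζ : Qb} (hζ : IsPrimitiveRoot ζ p) [CharZero O] (hpO : (p : O) ∈ maximalIdeal O)
    {R : Γℚ →* Matrix (Fin 2) (Fin 2) O} (hdet : DetModP p ζ R)
    {Q : Pic0 Qb F → Prop} (hQ : ∀ x, Q x → ∀ k : ℤ, M.PNew (k • x))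
    (hemb : M.EmbedsLevel Q R (M.nodeExp + 1))
    (hfin : ∀ y : Pic0 Qb F, ∃ K : IntermediateField ℚ Qb, FiniteDimensional ℚ K ∧
      ∀ σ : Γℚ, (∀ a ∈ K, σ a = a) → M.act σ • y = y)
    (hspan : ∀ ψ : (Fin 2 → ResidueField O) →ₗ[ResidueField O] ResidueField O,
      (∀ σ ∈ A.inertiaSubgroupIn ℚ, ∀ v : Fin 2 → O,
        ψ (fun i => residue O (((R σ).mulVec v - v) i)) = 0) → ψ = 0) :
    False := by
  haveI : NeZero p := ⟨hp.ne_zero⟩
  obtain ⟨m, f, hker, htor, heq, hfQ⟩ := hemb
  have hq : 0 < p ^ (M.nodeExp + 1) := pow_pos hp.pos _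
  have htorZ : ∀ v j, ((p ^ (M.nodeExp + 1) : ℕ) : ℤ) • f v j = 0 := fun v j => by
    rw [natCast_zsmul]; exact htor v j
  -- every class of the plane has power residues
  set s : Set (Fin 2 → O) := {w | ∃ σ ∈ A.inertiaSubgroupIn ℚ, ∃ v, (R σ).mulVec v - v = w}
    with hs
  have hX : ∀ (v : Fin 2 → O) j, M.PicPow (f v j) (p ^ (M.nodeExp + 1)) := by
    suffices hY : ∀ v ∈ Submodule.span O s, ∀ x : O, ∀ j,
        M.PicPow (f (x • v) j) (p ^ (M.nodeExp + 1)) by
      intro v j
      have hmem : v ∈ Submodule.span O s := by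
        rw [span_eq_top_of_residual s fun ψ hψ =>
          hspan ψ fun σ hσ w => hψ _ ⟨σ, hσ, w, rfl⟩]
        exact Submodule.mem_top
      simpa using hY v hmem 1 j
    intro v hv
    induction hv using Submodule.span_induction with
    | mem w hw =>
      intro x j
      obtain ⟨σ, hσ, w', rfl⟩ := hw
      rw [smul_sub, ← Matrix.mulVec_smul, map_sub, Pi.sub_apply, heq]
      exact M.picPow_act_sub hq hσ (htorZ _ j)
    | zero =>
      intro x j
      rw [smul_zero, map_zero]
      exact M.picPow_zero hq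
    | add a b _ _ ha hb =>
      intro x j
      rw [smul_add, map_add, Pi.add_apply]
      exact M.picPow_add hq (htorZ _ j) (htorZ _ j) (ha x j) (hb x j)
    | smul c a _ ha =>
      intro x j
      rw [smul_smul]
      exact ha _ j
  -- inertia acts modulo `p` by scalars
  have hscal : ∀ σ ∈ A.inertiaSubgroupIn ℚ, ∀ a : ℕ, σ ζ = ζ ^ a → ∀ v : Fin 2 → O,
      ∃ w, (R σ).mulVec v - a • v = (p : O) • w := by
    intro σ hσ a ha v
    have h0 : f ((p : O) ^ M.nodeExp • ((R σ).mulVec v - a • v)) = 0 := by
      rw [← Nat.cast_pow, Nat.cast_smul_eq_nsmul, map_nsmul]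
      funext j
      have hy : (p : ℤ) • (p ^ M.nodeExp • f v j) = 0 := by
        rw [natCast_zsmul, smul_smul, ← pow_succ', htor]
      have key := act_eq_smul_of_pNew hp hp3 hA hζ (p ^ M.nodeExp • f v j) hy (y' := f v j)
        (natCast_zsmul _ _) (hX v j)
        (fun k => by
          rw [← natCast_zsmul, smul_smul]
          exact hQ _ (hfQ v j) _) (hfin _) hσ ha
      rw [Pi.smul_apply, map_sub, Pi.sub_apply, heq, map_nsmul, Pi.smul_apply, nsmul_sub,
        Pi.zero_apply, sub_eq_zero, smul_comm (p ^ M.nodeExp) a, ← key]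
      exact (map_nsmul (DistribSMul.toAddMonoidHom _ (M.act σ)) _ _).symm
    obtain ⟨w, hw⟩ := (hker _).1 h0
    refine ⟨w, smul_right_injective (Fin 2 → O)
      (pow_ne_zero M.nodeExp (Nat.cast_ne_zero.2 hp.ne_zero : (p : O) ≠ 0)) ?_⟩
    show (p : O) ^ M.nodeExp • ((R σ).mulVec v - a • v) = (p : O) ^ M.nodeExp • ((p : O) • w)
    rw [hw, pow_succ, mul_smul]
  -- hence trivially
  have hp0 : residue O (p : O) = 0 := (IsLocalRing.residue_eq_zero_iff _).2 hpO
  haveI : CharP (ResidueField O) p :=
    (CharP.charP_iff_prime_eq_zero hp).2 (by rwa [map_natCast] at hp0)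
  have htriv : ∀ σ ∈ A.inertiaSubgroupIn ℚ, ∀ v : Fin 2 → O, ∀ i,
      residue O (((R σ).mulVec v - v) i) = 0 := by
    intro σ hσ v i
    obtain ⟨a, -, ha⟩ := hζ.eq_pow_of_pow_eq_one
      (show (σ ζ) ^ p = 1 by rw [← map_pow, hζ.pow_eq_one, map_one])
    have hent : ∀ k l, residue O (R σ k l) =
        (a : ResidueField O) * (1 : Matrix (Fin 2) (Fin 2) (ResidueField O)) k l := by
      intro k l
      obtain ⟨w, hw⟩ := hscal σ hσ a ha.symm (Pi.single l 1)
      have h := congrArg (residue O) (congrFun hw k)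
      rw [Pi.smul_apply, smul_eq_mul, map_mul, hp0, zero_mul, Pi.sub_apply,
        Matrix.mulVec_single_one, Pi.smul_apply, map_sub, sub_eq_zero, map_nsmul,
        nsmul_eq_mul, Matrix.col_apply] at h
      rw [h, Matrix.one_apply, Pi.single_apply]
      split_ifs <;> simp
    have hd : residue O (R σ).det = (a : ResidueField O) := by
      obtain ⟨t, ht⟩ := hdet σ a ha.symm
      rw [← map_natCast (residue O), ← sub_eq_zero, ← map_sub, ht, map_mul, hp0, zero_mul]
    rw [Matrix.det_fin_two, map_sub, map_mul, map_mul, hent, hent, hent, hent] at hd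
    simp at hd
    have ha1 : (a : ResidueField O) = 1 := by
      have ha0 : (a : ResidueField O) ≠ 0 := fun h => by
        rw [CharP.cast_eq_zero_iff (ResidueField O) p] at h
        obtain ⟨c, rfl⟩ := h
        rw [pow_mul, hζ.pow_eq_one, one_pow] at ha
        exact hζ.ne_one hp.one_lt (σ.injective (by rw [← ha, map_one]))
      exact mul_right_cancel₀ ha0 (by rw [one_mul]; exact hd)
    rw [Pi.sub_apply, map_sub, sub_eq_zero, RingHom.map_mulVec (residue O) (R σ) v i,
      show (R σ).map (residue O) = (1 : Matrix (Fin 2) (Fin 2) (ResidueField O)) by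
        ext k l
        rw [Matrix.map_apply, hent, ha1, one_mul], Matrix.one_mulVec]
    rfl
  -- but then the translates span nothing
  have hψ := hspan (LinearMap.proj 0) fun σ hσ v => htriv σ hσ v 0
  have := LinearMap.congr_fun hψ ![1, 0]
  simp at this

end Fermat.Agent.LevelP.TwoCompData
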