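import Fermat.Agent.EC.Red.Qbar
import Fermat.Agent.EC.Mult.Ramification
import Fermat.Agent.EC.DivPoly.MulFormula
import Fermat.Agent.LevelP.PeuField
import Fermat.Agent.EC.Det.CyclotomicChar
import Fermat.Agent.EC.Torsion.Count

/-!
# Inertia at a good supersingular `3` spans the three-torsion

For `3 ∤ Δ` and `3 ∣ c₄` one has `3 ∣ b₂` and `3 ∤ b₈`, so the abscissa of a point of order three
satisfies `v(3 x⁴) = 1`, of slope `1/4`; it is moved by an inertia element fixing `ζ₃`, whose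
fixed field has ramification index two. So no line of `E[3]` is stable under inertia.
-/

set_option autoImplicit false
set_option linter.style.haveILetI false

noncomputable section

open WeierstrassCurve
open WeierstrassCurve.Affine (Point)
open scoped WeierstrassCurve.Affine

namespace Fermat.Agent.Semistable

local notation "Qb" => AlgebraicClosure ℚ
local notation "Γℚ" => (AlgebraicClosure ℚ ≃ₐ[ℚ] AlgebraicClosure ℚ)

variable {W : WeierstrassCurve ℤ} {A : ValuationSubring Qb}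

theorem three_dvd_b₂_of_dvd_c₄ (hc4 : (3 : ℤ) ∣ W.c₄) : (3 : ℤ) ∣ W.b₂ := by
  refine Int.prime_three.dvd_of_dvd_pow (n := 2) ?_
  have h : W.b₂ ^ 2 = W.c₄ + 3 * (8 * W.b₄) := by rw [WeierstrassCurve.c₄]; ring
  rw [h]
  exact dvd_add hc4 (dvd_mul_right _ _)

theorem three_not_dvd_b₈ (hgood : ¬ (3 : ℤ) ∣ W.Δ) (hc4 : (3 : ℤ) ∣ W.c₄) :
    ¬ (3 : ℤ) ∣ W.b₈ := by
  obtain ⟨k, hk⟩ := three_dvd_b₂_of_dvd_c₄ hc4
  intro ⟨l, hl⟩
  apply hgood
  have h4 : (3 : ℤ) ∣ W.b₄ := by
    refine Int.prime_three.dvd_of_dvd_pow (n := 2) ⟨k * W.b₆ - 4 * l, ?_⟩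
    have h := W.b_relation
    rw [hk, hl] at h
    linarith
  obtain ⟨m, hm⟩ := h4
  rw [WeierstrassCurve.Δ, hk, hl, hm]
  exact ⟨-9 * k ^ 2 * l - 8 * 9 * m ^ 3 - 9 * W.b₆ ^ 2 + 27 * k * m * W.b₆, by ring⟩

theorem valuation_intCast_of_not_three_dvd (hA : A.LiesOverPrime 3) {m : ℤ}
    (hm : ¬ (3 : ℤ) ∣ m) : A.valuation (m : Qb) = 1 :=
  EC.Mult.valuation_intCast_eq_one Nat.prime_three hA (by exact_mod_cast hm)

theorem valuation_intCast_le_of_three_dvd {m : ℤ} (hm : (3 : ℤ) ∣ m) :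
    A.valuation (m : Qb) ≤ A.valuation (3 : Qb) := by
  obtain ⟨k, rfl⟩ := hm
  push_cast
  rw [map_mul]
  exact mul_le_of_le_one_right zero_le ((A.valuation_le_one_iff _).2 (intCast_mem A k))

/-- `v(3 x⁴) = 1` at a root of `Ψ₃`. -/
theorem valuation_root_psiThree (hgood : ¬ (3 : ℤ) ∣ W.Δ) (hc4 : (3 : ℤ) ∣ W.c₄)
    (hA : A.LiesOverPrime 3) {x : Qb}
    (hx : 3 * x ^ 4 + (W.b₂ : Qb) * x ^ 3 + 3 * (W.b₄ : Qb) * x ^ 2 + 3 * (W.b₆ : Qb) * x +
      (W.b₈ : Qb) = 0) :
    A.valuation 3 * A.valuation x ^ 4 = 1 := by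
  set t := A.valuation (3 : Qb) with ht
  set v := A.valuation x with hv
  have h8 : A.valuation (W.b₈ : Qb) = 1 :=
    valuation_intCast_of_not_three_dvd hA (three_not_dvd_b₈ hgood hc4)
  have ht1 : t < 1 := by
    have := EC.Mult.valuation_natCast_lt_one hA
    simpa using this
  have ht0 : t ≠ 0 := (map_ne_zero _).2 (by norm_num)
  have hint : ∀ m : ℤ, A.valuation (m : Qb) ≤ 1 := fun m =>
    (A.valuation_le_one_iff _).2 (intCast_mem A m)
  -- the three middle terms
  set S := (W.b₂ : Qb) * x ^ 3 + 3 * (W.b₄ : Qb) * x ^ 2 + 3 * (W.b₆ : Qb) * x with hS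
  have hmid : A.valuation S ≤ t * max v (v ^ 3) := by
    have e1 : A.valuation ((W.b₂ : Qb) * x ^ 3) ≤ t * max v (v ^ 3) := by
      rw [map_mul, map_pow]
      exact mul_le_mul' (valuation_intCast_le_of_three_dvd (three_dvd_b₂_of_dvd_c₄ hc4))
        (le_max_right _ _)
    have e2 : A.valuation (3 * (W.b₄ : Qb) * x ^ 2) ≤ t * max v (v ^ 3) := by
      rw [map_mul, map_mul, map_pow]
      refine mul_le_mul' (mul_le_of_le_one_right zero_le (hint _)) ?_
      rcases le_total v 1 with h | h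
      · refine le_max_of_le_left ?_
        rw [← hv, sq]
        exact mul_le_of_le_one_left zero_le h
      · exact le_max_of_le_right (pow_le_pow_right₀ h (by norm_num))
    have e3 : A.valuation (3 * (W.b₆ : Qb) * x) ≤ t * max v (v ^ 3) := by
      rw [map_mul, map_mul]
      exact mul_le_mul' (mul_le_of_le_one_right zero_le (hint _)) (le_max_left _ _)
    exact A.valuation.map_add_le (A.valuation.map_add_le e1 e2) e3
  have heq : 3 * x ^ 4 + (S + (W.b₈ : Qb)) = 0 := by rw [hS]; linear_combination hx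
  have hv4 : A.valuation (3 * x ^ 4) = t * v ^ 4 := by rw [map_mul, map_pow]
  have hv1 : 1 < v := by
    by_contra hle
    push Not at hle
    have h34 : A.valuation (3 * x ^ 4 + S) < 1 := by
      refine A.valuation.map_add_lt ?_ (hmid.trans_lt ?_)
      · rw [hv4]
        exact (mul_le_of_le_one_right zero_le (pow_le_one₀ zero_le hle)).trans_lt ht1
      · exact (mul_le_of_le_one_right zero_le
          (max_le hle (pow_le_one₀ zero_le hle))).trans_lt ht1
    have h : (W.b₈ : Qb) = -(3 * x ^ 4 + S) := by linear_combination heq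
    rw [h, Valuation.map_neg] at h8
    exact absurd h8 h34.ne
  have hlt : A.valuation S < t * v ^ 4 := by
    refine hmid.trans_lt (mul_lt_mul_of_pos_left (max_lt ?_ ?_) (zero_lt_iff.2 ht0))
    · calc v = v ^ 1 := (pow_one v).symm
        _ < v ^ 4 := pow_lt_pow_right₀ hv1 (by norm_num)
    · exact pow_lt_pow_right₀ hv1 (by norm_num)
  have hb : (W.b₈ : Qb) = -(3 * x ^ 4 + S) := by linear_combination heq
  rw [hb, Valuation.map_neg, A.valuation.map_add_eq_of_lt_left (by rw [hv4]; exact hlt), hv4] at h8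
  exact h8

/-- The abscissa is moved by inertia fixing `ζ₃`. -/
theorem exists_wild_apply_ne (hgood : ¬ (3 : ℤ) ∣ W.Δ) (hc4 : (3 : ℤ) ∣ W.c₄)
    (hA : A.LiesOverPrime 3) {ζ : Qb} (hζ : IsPrimitiveRoot ζ 3) {x : Qb}
    (hx : 3 * x ^ 4 + (W.b₂ : Qb) * x ^ 3 + 3 * (W.b₄ : Qb) * x ^ 2 + 3 * (W.b₆ : Qb) * x +
      (W.b₈ : Qb) = 0) :
    ∃ τ ∈ LevelP.wildGroup A ζ, τ x ≠ x := by
  by_contra hcon
  push Not at hcon
  have h := valuation_root_psiThree hgood hc4 hA hx
  have hx0 : x ≠ 0 := by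
    rintro rfl
    rw [map_zero, zero_pow (by norm_num : (4 : ℕ) ≠ 0), mul_zero] at h
    exact zero_ne_one h
  obtain ⟨k, hk⟩ := LevelP.exists_zpow_of_wildGroup_fixed Nat.prime_three hA hζ hx0 hcon
  have h2 := LevelP.valuation_zeta_sub_one_pow Nat.prime_three hA hζ
  simp only [Nat.reduceSub, Nat.cast_ofNat] at h2
  set π := A.valuation (ζ - 1) with hπ
  have hπ0 : π ≠ 0 := (map_ne_zero _).2 (sub_ne_zero.2 (hζ.ne_one (by norm_num)))
  have hπ1 : π < 1 := by
    rw [← pow_lt_one_iff_of_nonneg (n := 2) zero_le two_ne_zero, h2]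
    simpa using EC.Mult.valuation_natCast_lt_one hA
  rw [← h2, hk, ← zpow_natCast π 2, ← zpow_natCast (π ^ k) 4, ← zpow_mul, ← zpow_add₀ hπ0] at h
  have hinj := zpow_right_injective₀ (zero_lt_iff.2 hπ0) hπ1.ne
  have := hinj (h.trans (zpow_zero π).symm)
  push_cast at this
  omega

/-- No nonzero point killed by `3` spans a line stable under inertia. -/
theorem exists_inertia_smul_ne (hgood : ¬ (3 : ℤ) ∣ W.Δ) (hc4 : (3 : ℤ) ∣ W.c₄)
    (hA : A.LiesOverPrime 3) {P : ((W.map (Int.castRingHom ℚ))⁄Qb).Point} (hP : (3 : ℤ) • P = 0)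
    (hP0 : P ≠ 0) : ∃ σ ∈ A.inertiaSubgroupIn ℚ, σ • P ≠ P ∧ σ • P ≠ -P := by
  obtain _ | ⟨x, y, h⟩ := P
  · exact absurd rfl hP0
  obtain ⟨ζ, hζ⟩ := EC.exists_primitiveRoot_qbar 3
  have hΨ := (EC.zsmul_some_eq_zero_iff h 3).1 hP
  rw [WeierstrassCurve.ΨSq_three, Polynomial.eval_pow, sq_eq_zero_iff] at hΨ
  simp [WeierstrassCurve.Ψ₃] at hΨ
  obtain ⟨τ, hτ, hne⟩ := exists_wild_apply_ne hgood hc4 hA hζ (x := x) (by
    simp only [WeierstrassCurve.map_b₂, WeierstrassCurve.map_b₄, WeierstrassCurve.map_b₆,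
      WeierstrassCurve.map_b₈, WeierstrassCurve.baseChange, eq_intCast, map_intCast] at hΨ
    linear_combination hΨ)
  refine ⟨τ, hτ.1, ?_, ?_⟩
  all_goals
    obtain ⟨h', e⟩ := EC.exists_smul_some W τ h
    rw [e]
    intro hh
  · rw [Point.some.injEq] at hh
    exact hne hh.1
  · rw [Affine.Point.neg_some, Point.some.injEq] at hh
    exact hne hh.1

/-- A group of order nine and exponent three in which every nonzero element is moved out of
its line by `S` has no nonzero homomorphism killing the translates by `S`. -/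
theorem eq_zero_of_translates {G T B : Type*} [Group G] [AddCommGroup T] [DistribMulAction G T]
    [AddCommGroup B] (S : Set G) (hcard : Nat.card T = 9) (h3 : ∀ P : T, (3 : ℤ) • P = 0)
    (hmove : ∀ P : T, P ≠ 0 → ∃ σ ∈ S, σ • P ≠ P ∧ σ • P ≠ -P)
    (φ : T →+ B) (hφ : ∀ σ ∈ S, ∀ P, φ (σ • P) = φ P) : φ = 0 := by
  haveI : Finite T := Nat.finite_of_card_ne_zero (by omega)
  have hsub : ∀ σ ∈ S, ∀ P, σ • P - P ∈ φ.ker := fun σ hσ P => by
    rw [AddMonoidHom.mem_ker, map_sub, hφ σ hσ, sub_self]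
  haveI : Fact (Nat.Prime 3) := ⟨Nat.prime_three⟩
  have hker : φ.ker = ⊤ := by
    refine AddSubgroup.eq_top_of_card_eq _ ?_
    have hdvd := φ.ker.card_addSubgroup_dvd_card
    rw [hcard] at hdvd ⊢
    obtain ⟨i, hi, hc⟩ := (Nat.dvd_prime_pow Nat.prime_three).1 (show _ ∣ 3 ^ 2 from hdvd)
    interval_cases i
    · -- trivial kernel
      have hbot : φ.ker = ⊥ := AddSubgroup.eq_bot_of_card_eq _ (by simpa using hc)
      have : Nontrivial T := Finite.one_lt_card_iff_nontrivial.1 (by omega)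
      obtain ⟨P, hP⟩ := exists_ne (0 : T)
      obtain ⟨σ, hσ, h1, -⟩ := hmove P hP
      have h := hsub σ hσ P
      rw [hbot, AddSubgroup.mem_bot, sub_eq_zero] at h
      exact absurd h h1
    · -- a line
      have hc3 : Nat.card φ.ker = 3 := by simpa using hc
      have : Nontrivial φ.ker := Finite.one_lt_card_iff_nontrivial.1 (by omega)
      obtain ⟨Q, hQ0⟩ := exists_ne (0 : φ.ker)
      obtain ⟨σ, hσ, h1, h2⟩ := hmove (Q : T) (fun h => hQ0 (Subtype.ext h))
      have hmem : σ • (Q : T) ∈ φ.ker := by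
        have h := φ.ker.add_mem (hsub σ hσ Q) Q.2
        rwa [sub_add_cancel] at h
      have htop : (⟨_, hmem⟩ : φ.ker) ∈ AddSubgroup.zmultiples Q := by
        rw [zmultiples_eq_top_of_prime_card hc3 hQ0]
        exact AddSubgroup.mem_top _
      obtain ⟨k, hk⟩ := AddSubgroup.mem_zmultiples_iff.1 htop
      have hk' : σ • (Q : T) = k • (Q : T) := (congrArg Subtype.val hk).symm
      rw [← Int.mul_ediv_add_emod k 3, add_smul, mul_comm, mul_smul, h3, smul_zero, zero_add] at hk'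
      have hnn := Int.emod_nonneg k (show (3 : ℤ) ≠ 0 by norm_num)
      have hlt := Int.emod_lt_of_pos k (show (0 : ℤ) < 3 by norm_num)
      obtain h0 | h0 | h0 : k % 3 = 0 ∨ k % 3 = 1 ∨ k % 3 = 2 := by omega
      · rw [h0, zero_smul] at hk'
        exact absurd ((smul_eq_zero_iff_eq σ).1 hk') (fun h => hQ0 (Subtype.ext h))
      · rw [h0, one_smul] at hk'
        exact absurd hk' h1
      · rw [h0] at hk'
        refine absurd ?_ h2
        have h' := h3 (Q : T)
        rw [show (3 : ℤ) = 2 + 1 from rfl, add_smul, one_smul] at h'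
        rw [hk']
        exact eq_neg_of_add_eq_zero_left h'
    · exact hc.trans (by norm_num)
  exact AddMonoidHom.ker_eq_top_iff.1 hker

/-- **The translates `σ P - P` by inertia span the three-torsion**: a homomorphism killing them
all is zero. -/
theorem eq_zero_of_inertia_translates (hgood : ¬ (3 : ℤ) ∣ W.Δ) (hc4 : (3 : ℤ) ∣ W.c₄)
    (hA : A.LiesOverPrime 3) {B : Type*} [AddCommGroup B]
    (φ : Submodule.torsionBy ℤ ((W.map (Int.castRingHom ℚ))⁄Qb).Point ((3 : ℕ) : ℤ) →+ B)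
    (hφ : ∀ σ ∈ A.inertiaSubgroupIn ℚ, ∀ P, φ (σ • P) = φ P) : φ = 0 := by
  haveI : Fact (Nat.Prime 3) := ⟨Nat.prime_three⟩
  have hΔ : W.Δ ≠ 0 := fun h => hgood (h ▸ dvd_zero _)
  haveI : WeierstrassCurve.IsElliptic (((W.map (Int.castRingHom ℚ))⁄Qb).toAffine) :=
    ⟨isUnit_iff_ne_zero.2 (by
      show ((W.map (Int.castRingHom ℚ)).map (algebraMap ℚ Qb)).Δ ≠ 0
      rw [WeierstrassCurve.map_Δ, WeierstrassCurve.map_Δ, eq_intCast]
      simpa using hΔ)⟩
  refine eq_zero_of_translates (A.inertiaSubgroupIn ℚ : Set Γℚ) ?_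
    (fun P => ?_) (fun P hP => ?_) φ hφ
  · simpa using EC.natCard_torsionBy
      (((W.map (Int.castRingHom ℚ))⁄Qb).toAffine) (n := 3) (by norm_num)
  · exact Subtype.ext ((Submodule.mem_torsionBy_iff _ _).1 P.2)
  · obtain ⟨σ, hσ, h1, h2⟩ := exists_inertia_smul_ne hgood hc4 hA
      ((Submodule.mem_torsionBy_iff _ _).1 P.2) (fun h => hP (Subtype.ext h))
    exact ⟨σ, hσ, fun h => h1 (congrArg Subtype.val h), fun h => h2 (congrArg Subtype.val h)⟩

end Fermat.Agent.Semistable
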