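import Fermat.Agent.Semistable.Contracts
import Fermat.Agent.Semistable.SupersingularThree
import Fermat.Agent.Semistable.NewTorsionThree
import Fermat.Agent.LevelP.Ordinary.Datum
import Fermat.Agent.Lifting.Minimal.Newform
import Fermat.Agent.Lifting.Minimal.BaseFacts
import Fermat.Agent.RT.NewformResidual

/-!
# A curve supersingular at `3` is congruent to no newform new at `3`

The Tate representation of such a newform lies in the classes killed by both pushforwards, so its
residual plane has a quotient trivial on inertia at `3`; the three-torsion of the curve has none.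
-/

set_option autoImplicit false
set_option synthInstance.maxHeartbeats 400000
set_option linter.style.haveILetI false

noncomputable section

open IsLocalRing Polynomial ModularFormClass ModularCurve AlgebraicCurve
open Fermat.Agent.BadPrime (alphaPush betaPush)
open scoped WeierstrassCurve.Affine TensorProduct

namespace Fermat.Agent.Semistable

local notation "Qb" => AlgebraicClosure ℚ
local notation "Γℚ" => (AlgebraicClosure ℚ ≃ₐ[ℚ] AlgebraicClosure ℚ)

/-- The Tate representation of a congruent newform, with residual representation `E[p] ⊗ k`. -/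
theorem exists_tateRep_of_residualNewformAt {W : WeierstrassCurve ℤ} (hΔ : W.Δ ≠ 0) {p : ℕ}
    [Fact p.Prime] (hp2 : p ≠ 2) (hirr : W.ModRepIsIrreducible p) {M : ℕ} [NeZero M]
    (hres : Lifting.ResidualNewformAt W p M) :
    ∃ (g : CuspForm (CongruenceSubgroup.Gamma0 M) 2) (O : Type) (_ : CommRing O) (_ : IsDomain O)
      (_ : IsDiscreteValuationRing O) (_ : IsAdicComplete (maximalIdeal O) O) (_ : Finite (ResidueField O)) (_ : CharZero O)
      (r : GaloisRepAdic O) (ι : ZMod p →+* ResidueField O),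
      g.IsNewform ∧ (p : O) ∈ maximalIdeal O ∧ r.DetIsCyclotomic p ∧
        BadPrime.IsNewformTateRep g p r ∧
        ((Lifting.Residual.torsRep W p hΔ).baseChangeAlong ι).IsEquiv r.residual := by
  classical
  have hp : p.Prime := Fact.out
  obtain ⟨g, 𝔪, hg, hmax, hpm, hcong⟩ := hres
  obtain ⟨χ, hχ⟩ := EichlerShimura.exists_eigenCharacter hg.1
  let k₀ := integralClosure ℤ ℂ ⧸ 𝔪
  letI : Field k₀ := Ideal.Quotient.field 𝔪
  haveI : IsAlgClosed k₀ := IsAlgClosed.of_exists_root k₀ fun f hf hirr =>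
    EichlerShimura.exists_root_quotient_integers _ f hf
      (ne_of_gt (degree_pos_of_irreducible hirr))
  haveI : CharP k₀ p := (CharP.charP_iff_prime_eq_zero hp).2
    ((Ideal.Quotient.eq_zero_iff_mem).2 hpm)
  set S : Finset ℕ := insert p M.primeFactors with hS
  have hle : CuspForm.heckeAlgebra M 2 (↑S : Set ℕ) ≤ CuspForm.heckeAlgebra M 2 (∅ : Set ℕ) := by
    refine Algebra.adjoin_mono ?_
    rintro T (⟨ℓ, hℓ, hℓN, -, rfl⟩ | ⟨q, hqN, hq, -, rfl⟩)
    · exact Or.inl ⟨ℓ, hℓ, hℓN, Set.notMem_empty ℓ, rfl⟩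
    · exact Or.inr ⟨q, hqN, hq, Set.notMem_empty q, rfl⟩
  let incl : CuspForm.heckeAlgebra M 2 (↑S : Set ℕ) →+* CuspForm.heckeAlgebra M 2 (∅ : Set ℕ) :=
    (Subalgebra.inclusion hle).toRingHom
  let chi : CuspForm.heckeAlgebra M 2 (↑S : Set ℕ) →+* ℂ :=
    ((integralClosure ℤ ℂ).val.toRingHom.comp χ).comp incl
  have hmem : ∀ x : chi.range, (x : ℂ) ∈ integralClosure ℤ ℂ := by
    rintro ⟨x, t, rfl⟩
    exact (χ (incl t)).2
  let toZbar : chi.range →+* integralClosure ℤ ℂ :=
    chi.range.subtype.codRestrict (integralClosure ℤ ℂ).toSubring hmem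
  haveI := HeckeFinite.moduleFinite_heckeAlgebra M 2 (↑S : Set ℕ)
  haveI : Module.Finite ℤ chi.range :=
    Module.Finite.of_surjective chi.rangeRestrict.toIntAlgHom.toLinearMap
      chi.rangeRestrict_surjective
  haveI : Module.IsTorsionFree ℤ chi.range :=
    Function.Injective.moduleIsTorsionFree (Subtype.val : chi.range → ℂ) Subtype.val_injective
      fun _ _ => by simp
  haveI : Module.Free ℤ chi.range := Module.free_of_finite_type_torsion_free'
  obtain ⟨O', _, _, _, _, _, _, hpO', iota, j, hj⟩ := EichlerShimura.exists_padic_lift p chi.range k₀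
    ((Ideal.Quotient.mk 𝔪).comp toZbar)
  have hMS : ∀ q : ℕ, q.Prime → q ∣ M → q ∈ S := fun q hq hqM =>
    Finset.mem_insert_of_mem (Nat.mem_primeFactors.2 ⟨hq, hqM, NeZero.ne M⟩)
  have hchig : ∀ (ℓ : ℕ) (hℓ : ℓ.Prime) (hℓM : ¬ ℓ ∣ M) (hℓS : ℓ ∉ (↑S : Set ℕ)),
      chi (CuspForm.heckeAlgebra.T hℓ hℓM hℓS) = qCoeff g ℓ := fun ℓ hℓ hℓM hℓS => hχ ℓ hℓ hℓM
  obtain ⟨O, _, _, _, _, _, _, _, _, _, -, hpO, r, hr, hdet, htate⟩ :=
    BadPrime.exists_newformTateRep (BadPrime.hasEigenRep_modular M) hg p S O' hpO' chi hchig iota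
      (Finset.mem_insert_self _ _) hMS
  have hp0 : (p : ResidueField O) = 0 := by
    rw [← map_natCast (residue O)]
    exact (residue_eq_zero_iff _).2 hpO
  haveI : CharP (ResidueField O) p := (CharP.charP_iff_prime_eq_zero hp).2 hp0
  let ι : ZMod p →+* ResidueField O := ZMod.castHom dvd_rfl _
  refine ⟨g, O, inferInstance, inferInstance, inferInstance, inferInstance, inferInstance, inferInstance, r, ι,
    hg, hpO, hdet, htate, ?_⟩
  refine Density.residual_isEquiv_of_frobenius _ _ (S ∪ W.Δ.natAbs.primeFactors)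
    (Lifting.Residual.torsRep_baseChangeAlong_isAbsolutelyIrreducible hΔ hp2 hirr ι)
    fun ℓ hℓ hℓS A hA σ hσ => ?_
  rw [Finset.mem_union, not_or, Nat.mem_primeFactors] at hℓS
  have hℓS' : ℓ ∉ (↑S : Set ℕ) := fun h => hℓS.1 (Finset.mem_coe.1 h)
  have hℓp : ℓ ≠ p := fun h => hℓS.1 (by rw [hS, h]; exact Finset.mem_insert_self _ _)
  have hℓM : ¬ ℓ ∣ M := fun h => hℓS.1 (hMS ℓ hℓ h)
  have hgood : W.IsGoodPrimeFor ℓ := fun hd =>
    hℓS.2 ⟨hℓ, Int.natCast_dvd.1 hd, Int.natAbs_ne_zero.2 hΔ⟩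
  obtain ⟨a, ha, ham⟩ := hcong ℓ hℓ hgood hℓM hℓp
  set t := chi.rangeRestrict (CuspForm.heckeAlgebra.T hℓ hℓM hℓS') with htdef
  have ht : residue O' (iota t) = ((W.apOfModel ℓ : ℤ) : ResidueField O') := by
    refine j.injective ?_
    rw [hj, map_intCast, RingHom.comp_apply, ← map_intCast (Ideal.Quotient.mk 𝔪)]
    refine Ideal.Quotient.eq.2 ?_
    have e : toZbar t = a := Subtype.ext ((hchig ℓ hℓ hℓM hℓS').trans ha.symm)
    rw [e]
    exact ham
  rw [Lifting.Minimal.torsRep_baseChange_charpoly_frob hΔ ι ⟨ℓ, hℓ⟩ hℓp hgood A hA σ hσ]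
  show _ = LinearMap.charpoly ((r.ρ σ).baseChange (ResidueField O))
  rw [LinearMap.charpoly_baseChange, hr ℓ hℓ hℓM hℓS' A hA σ hσ]
  simp only [Polynomial.map_add, Polynomial.map_sub, Polynomial.map_mul, Polynomial.map_pow,
    map_X, map_C, map_natCast, Polynomial.map_natCast, RingHom.comp_apply]
  rw [← htdef, show algebraMap O (ResidueField O) (algebraMap O' O (iota t)) =
    ResidueField.map (algebraMap O' O) (residue O' (iota t)) from
      (ResidueField.map_residue (algebraMap O' O) (iota t)).symm, ht, map_intCast]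
  rfl

/-- In a basis, a residual functional invariant under inertia at a supersingular `3` vanishes. -/
theorem residual_functional_eq_zero {W : WeierstrassCurve ℤ} (hΔ : W.Δ ≠ 0)
    (hgood : ¬ (3 : ℤ) ∣ W.Δ) (hc4 : (3 : ℤ) ∣ W.c₄) [Fact (Nat.Prime 3)]
    {A : ValuationSubring Qb} (hA : A.LiesOverPrime 3) {O : Type} [CommRing O] [IsLocalRing O]
    {r : GaloisRepAdic O} {ι : ZMod 3 →+* ResidueField O}
    (he : ((Lifting.Residual.torsRep W 3 hΔ).baseChangeAlong ι).IsEquiv r.residual)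
    (b : Module.Basis (Fin 2) O r.V)
    (ψ : (Fin 2 → ResidueField O) →ₗ[ResidueField O] ResidueField O)
    (hψ : ∀ σ ∈ A.inertiaSubgroupIn ℚ, ∀ v : Fin 2 → O,
      ψ (fun i => residue O (((Deformation.matOf r.ρ b σ).mulVec v - v) i)) = 0) :
    ψ = 0 := by
  obtain ⟨e⟩ := he
  letI : Algebra (ZMod 3) (ResidueField O) := ι.toAlgebra
  let bb : Module.Basis (Fin 2) (ResidueField O) r.residual.V :=
    Algebra.TensorProduct.basis (ResidueField O) b
  let Ψ : r.residual.V →ₗ[ResidueField O] ResidueField O := ψ.comp bb.equivFun.toLinearMap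
  have hmat : ∀ σ, Deformation.matOf r.residual.ρ bb σ =
      (Deformation.matOf r.ρ b σ).map (residue O) := fun σ =>
    Deformation.matOf_baseChange (ResidueField O) r.ρ b r.residual.ρ (fun _ => rfl) σ
  have hΨ : ∀ σ ∈ A.inertiaSubgroupIn ℚ, ∀ x, Ψ (r.residual.ρ σ x) = Ψ x := by
    intro σ hσ x
    obtain ⟨v, hv⟩ : ∃ v : Fin 2 → O, (fun i => residue O (v i)) = bb.equivFun x :=
      ⟨fun i => Function.surjInv residue_surjective (bb.equivFun x i),
        funext fun i => Function.surjInv_eq residue_surjective _⟩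
    have h := hψ σ hσ v
    rw [show (fun i => residue O (((Deformation.matOf r.ρ b σ).mulVec v - v) i)) =
        bb.equivFun (r.residual.ρ σ x) - bb.equivFun x by
      funext i
      rw [Pi.sub_apply, map_sub, Pi.sub_apply, RingHom.map_mulVec, ← hmat, congrFun hv i,
        show (residue O ∘ v) = bb.equivFun x from hv, Deformation.matOf_apply,
        Module.Basis.equivFun_apply, LinearMap.toMatrix_mulVec_repr]
      rfl, map_sub, sub_eq_zero] at h
    exact h
  let φ : Submodule.torsionBy ℤ ((W.map (Int.castRingHom ℚ))⁄Qb).Point ((3 : ℕ) : ℤ) →+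
      ResidueField O :=
    (Ψ.comp e.toLinearEquiv.toLinearMap).toAddMonoidHom.comp
      (TensorProduct.mk (ZMod 3) (ResidueField O) (Lifting.Residual.torsRep W 3 hΔ).V
        1).toAddMonoidHom
  have hφ0 : φ = 0 := eq_zero_of_inertia_translates hgood hc4 hA φ fun σ hσ P => by
    show Ψ (e.toLinearEquiv (((Lifting.Residual.torsRep W 3 hΔ).baseChangeAlong ι).ρ σ
      ((1 : ResidueField O) ⊗ₜ[ZMod 3] P))) = _
    exact (congrArg Ψ (e.map_apply σ _)).trans (hΨ σ hσ _)
  let L : (ResidueField O) ⊗[ZMod 3] (Lifting.Residual.torsRep W 3 hΔ).V →ₗ[ResidueField O]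
      ResidueField O := Ψ.comp e.toLinearEquiv.toLinearMap
  have hΨ0 : L = 0 := by
    refine LinearMap.ext fun x => ?_
    induction x using TensorProduct.induction_on with
    | zero => exact map_zero L
    | tmul c P =>
      rw [show c ⊗ₜ[ZMod 3] P = c • ((1 : ResidueField O) ⊗ₜ[ZMod 3] P) by
        rw [TensorProduct.smul_tmul', smul_eq_mul, mul_one], map_smul, LinearMap.zero_apply]
      exact (congrArg (c • ·) (DFunLike.congr_fun hφ0 P)).trans (smul_zero c)
    | add x y hx hy => rw [map_add, hx, hy]; exact add_zero _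
  refine LinearMap.ext fun v => ?_
  have h : Ψ (e.toLinearEquiv (e.toLinearEquiv.symm (bb.equivFun.symm v))) = 0 :=
    LinearMap.congr_fun hΨ0 _
  rw [LinearEquiv.apply_symm_apply] at h
  exact (congrArg ψ (bb.equivFun.apply_symm_apply v)).symm.trans h

set_option maxHeartbeats 800000 in
/-- No representation in classes killed by both pushforwards at `(M, 3)` has the residual
representation of a curve supersingular at `3`. -/
theorem false_of_killedFamily {W : WeierstrassCurve ℤ} (hΔ : W.Δ ≠ 0)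
    (hgood : ¬ (3 : ℤ) ∣ W.Δ) (hc4 : (3 : ℤ) ∣ W.c₄) [Fact (Nat.Prime 3)] {M : ℕ} [NeZero M]
    (h3M : ¬ 3 ∣ M) (h2M : 2 ∣ M) {O : Type} [CommRing O] [IsDomain O] [IsDiscreteValuationRing O]
    [CharZero O] (hpO : ((3 : ℕ) : O) ∈ maximalIdeal O) {r : GaloisRepAdic O}
    (hdet : r.DetIsCyclotomic 3) {ι : ZMod 3 →+* ResidueField O}
    (he : ((Lifting.Residual.torsRep W 3 hΔ).baseChangeAlong ι).IsEquiv r.residual) (c₀ : ℕ)
    (hfam : ∀ n : ℕ, ∃ (m : ℕ) (f : r.V →+ (Fin m → JZero (M * 3))),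
      (∀ v, f v = 0 ↔ ∃ w, v = (((3 : ℕ) : O) ^ n) • w) ∧ (∀ v i, 3 ^ n • f v i = 0) ∧
      (∀ σ v i, f (r.ρ σ v) i = σ • f v i) ∧
      ∀ v i, alphaPush M 3 (3 ^ c₀ • f v i) = 0 ∧ betaPush M 3 (3 ^ c₀ • f v i) = 0) :
    False := by
  obtain ⟨A, -, hA, -⟩ := Galois.exists_valuationSubring_isFrobeniusAt Nat.prime_three
  haveI : NeZero (M * 3) := ⟨Nat.mul_ne_zero (NeZero.ne M) (by norm_num)⟩
  haveI : IsAlgClosed (ResidueField A) := EC.isAlgClosed_residueField A
  haveI : Curve.IsFunctionField1 Qb (modularFunctionFieldBar (M * 3)) :=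
    Reduction.isFunctionField1_bar_basic (M * 3)
  haveI : Curve.IsFunctionField1 (ResidueField A) (modularFunctionFieldFullC (ResidueField A) M) :=
    Reduction.isFunctionField1_fullC_basic M (ResidueField A)
  obtain ⟨T, hact, hswap, hred, -⟩ :=
    LevelP.X0.exists_twoCompData' A 3 M ⟨fun h => by omega, fun _ => h2M⟩ h3M hA
  have hT : LevelP.X0.IsStandard T := ⟨h3M, hA, hact, hswap, hred⟩
  have hsm : ∀ (σ : Γℚ) (y : JZero (M * 3)), T.act σ • y = σ • y := fun σ y => by
    rw [hact, galois_smul_pic0_def]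
    rfl
  obtain ⟨ζ, hζ⟩ := EC.exists_primitiveRoot_qbar 3
  let b := Deformation.someBasis r
  refine LevelP.TwoCompData.false_of_embedsLevel_of_span T Nat.prime_three le_rfl hA hζ hpO
    (R := Deformation.matOf r.ρ b) (fun σ a ha => ?_) (Q := LevelP.X0.IsPushKilled (p := 3) (M := M))
    (fun x hx k => hT.pNew (hx.zsmul k)) ?_ (fun y => ?_)
    (fun ψ hψ => residual_functional_eq_zero hΔ hgood hc4 hA he b ψ hψ)
  · rw [Deformation.matOf_apply, LinearMap.det_toMatrix]
    refine Ideal.mem_span_singleton.1 ?_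
    simpa using hdet.2 1 σ a fun μ hμ => by
      obtain ⟨i, -, rfl⟩ := hζ.eq_pow_of_pow_eq_one (by simpa using hμ)
      rw [map_pow, ha, ← pow_mul, ← pow_mul, mul_comm]
  · set n := T.nodeExp + 1
    obtain ⟨m, f, hker, htor, heq, hkill⟩ := hfam (n + c₀)
    refine ⟨m, (DistribSMul.toAddMonoidHom (Fin m → JZero (M * 3)) (3 ^ c₀)).comp
      (f.comp b.equivFun.symm.toAddMonoidHom), fun v => ?_, fun v j => ?_, fun σ v j => ?_,
      fun v j => ?_⟩
    · show 3 ^ c₀ • f (b.equivFun.symm v) = 0 ↔ _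
      rw [← map_nsmul, hker]
      constructor
      · rintro ⟨w, hw⟩
        refine ⟨b.equivFun w, funext fun i => mul_left_cancel₀
          (pow_ne_zero c₀ (Nat.cast_ne_zero.2 (by norm_num) : ((3 : ℕ) : O) ≠ 0)) ?_⟩
        have h := congrFun (congrArg b.equivFun hw) i
        rw [map_nsmul, LinearEquiv.apply_symm_apply, map_smul, pow_add] at h
        simp only [Pi.smul_apply, smul_eq_mul, nsmul_eq_mul, Nat.cast_pow] at h ⊢
        rw [h]
        ring
      · rintro ⟨w, rfl⟩
        refine ⟨b.equivFun.symm w, ?_⟩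
        rw [map_smul, ← Nat.cast_smul_eq_nsmul O, smul_smul, Nat.cast_pow, ← pow_add, add_comm]
    · show 3 ^ n • 3 ^ c₀ • f (b.equivFun.symm v) j = 0
      rw [smul_smul, ← pow_add]
      exact htor _ j
    · show 3 ^ c₀ • f (b.equivFun.symm ((Deformation.matOf r.ρ b σ).mulVec v)) j =
        T.act σ • (3 ^ c₀ • f (b.equivFun.symm v) j)
      have hmv : b.equivFun.symm ((Deformation.matOf r.ρ b σ).mulVec v) =
          r.ρ σ (b.equivFun.symm v) := by
        refine b.equivFun.injective ?_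
        rw [LinearEquiv.apply_symm_apply, Deformation.matOf_apply, Module.Basis.equivFun_apply,
          ← LinearMap.toMatrix_mulVec_repr b b, ← Module.Basis.equivFun_apply,
          LinearEquiv.apply_symm_apply]
      rw [hmv, heq, hsm]
      exact (map_nsmul (DistribSMul.toAddMonoidHom (JZero (M * 3)) σ) _ _).symm
    · exact ⟨(hkill (b.equivFun.symm v) j).1, (hkill (b.equivFun.symm v) j).2⟩
  · obtain ⟨K, hK, hfix⟩ := EichlerShimura.galoisFiniteLevel_modular (M * 3) y
    exact ⟨K, hK, fun σ h => by rw [hsm]; exact hfix σ h⟩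

/-- **A curve supersingular at `3` is congruent to no newform of a level exactly divisible by
`3`.** -/
theorem supersingularThreeNotInLevel : SupersingularThreeNotInLevel := by
  intro W hΔ _ hirr hgood hc4 N hN h3N h9N hres
  haveI : Fact (Nat.Prime 3) := ⟨Nat.prime_three⟩
  haveI : NeZero N := ⟨hN.ne'⟩
  have hgood' : ¬ (3 : ℤ) ∣ W.Δ := fun h => hgood (by exact_mod_cast h)
  obtain ⟨g, O, _, _, _, _, _, _, r, ι, hg, hpO, hdet, htate, he⟩ :=
    exists_tateRep_of_residualNewformAt hΔ (p := 3) (by norm_num) hirr hres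
  obtain ⟨M, rfl⟩ := h3N
  haveI : NeZero M := ⟨fun h => NeZero.ne (3 * M) (by rw [h, mul_zero])⟩
  have h3M : ¬ 3 ∣ M := fun h => h9N (by rw [sq]; exact Nat.mul_dvd_mul_left 3 h)
  obtain ⟨c₀, hfam⟩ := BadPrime.exists_killed_family (M := 3 * M) (M' := M) (q := 3)
    (mul_comm 3 M) (by norm_num) (BadPrime.hasEigenRep_modular _) (BadPrime.hasEigenRep_modular M)
    hg Nat.prime_three hpO htate
  have habs : r.residual.IsAbsolutelyIrreducible :=
    Density.isAbsolutelyIrreducible_of_isEquiv he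
      (Lifting.Residual.torsRep_baseChangeAlong_isAbsolutelyIrreducible hΔ (by norm_num) hirr ι)
  by_cases h2M : 2 ∣ M
  · exact false_of_killedFamily hΔ hgood' hc4 h3M h2M hpO hdet he c₀ hfam
  · exact false_of_killedFamily hΔ hgood' hc4 (M := M * 2)
      (fun h => (Nat.prime_three.dvd_mul.mp h).elim h3M (by norm_num)) (dvd_mul_left 2 M) hpO hdet
      he c₀ (LevelP.exists_killedFamily_auxLevel Nat.prime_three Nat.prime_two rfl h3M h2M habs c₀
        hfam)

end Fermat.Agent.Semistable
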