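import Fermat.Agent.Semistable.Inputs
import Fermat.Agent.Semistable.LiftFull
import Fermat.Agent.Semistable.LevelTwoRemovalThree
import Fermat.Agent.Semistable.SupersingularLevel
import Fermat.Agent.Semistable.LevelThreeRemovalFive
import Fermat.Agent.GoodTwo.Final
import Fermat.Agent.GoodTwo.LevelTwoRemoval

/-!
# Every semistable curve is modular at its conductor
-/

set_option autoImplicit false

namespace Fermat.Agent.Semistable

/-- All inputs of the modularity of every semistable curve. -/
theorem semistableInputs_proved : SemistableInputs :=
  semistableInputs_of (GoodTwo.semistableModularAtThree_of_removal GoodTwo.levelTwoRemoval)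
    liftAtThreeFull liftAtFiveFull (levelTwoRemovalThree_of supersingularThreeNotInLevel)
    levelThreeRemovalFive

end Fermat.Agent.Semistable
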