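import Fermat.Agent.Semistable.S38Reduction

/-!
# No residually unramified prime in a minimal level, from lowering at the primes `≢ 1 (mod p)`

* `MazurAllFive`: Mazur's principle at every `q ≢ 1 (mod p)`, `p ≥ 5`, `q ∈ {2, 3}` included;
* `MinimalThreeOdd`: a minimal level at `3` is odd when `E[3]` is unramified at `2`;
* `MinimalTWRemoval`: no residually unramified `q ≡ 1 (mod p)` in a minimal level;
* `unramifiedRemoved_of`: these and `MazurLoweringThree` give `UnramifiedRemoved`.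
-/

set_option autoImplicit false

open WeierstrassCurve

namespace Fermat.Agent.Semistable

/-- Mazur's principle at every prime `q ≢ 1 (mod p)` of the level, for `p ≥ 5`. -/
def MazurAllFive : Prop :=
  ∀ p : ℕ, p.Prime → 5 ≤ p → ∀ W : WeierstrassCurve ℤ, W.Δ ≠ 0 → W.IsSemistableModel →
    W.ModRepIsIrreducible p → ∀ M q : ℕ, 0 < M → q.Prime → q ≠ p → q ∣ M → ¬ q ^ 2 ∣ M →
      (q : ZMod p) ≠ 1 → Lifting.ResiduallyUnramifiedAt W p q →
      W.IsResiduallyModularOfLevel p M → W.IsResiduallyModularOfLevel p (M / q)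

/-- A minimal level at `3` is odd when `E[3]` is unramified at `2`. -/
def MinimalThreeOdd : Prop :=
  ∀ W : WeierstrassCurve ℤ, W.Δ ≠ 0 → W.IsSemistableModel → W.ModRepIsIrreducible 3 →
    ∀ M : ℕ, Lifting.Minimal.IsMinimalResidualLevel W 3 M →
      Lifting.ResiduallyUnramifiedAt W 3 2 → ¬ 2 ∣ M

/-- No residually unramified `q ≡ 1 (mod p)` in a minimal level, every odd `p`. -/
def MinimalTWRemoval : Prop :=
  ∀ (p : ℕ), p.Prime → p ≠ 2 → ∀ (W : WeierstrassCurve ℤ), W.Δ ≠ 0 → W.IsSemistableModel →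
    W.ModRepIsIrreducible p →
    ∀ M : ℕ, Lifting.Minimal.IsMinimalResidualLevel W p M →
    (∀ q : ℕ, q.Prime → q ∣ M → q ≠ p → Lifting.ResiduallyUnramifiedAt W p q →
      (q : ZMod p) = 1 ∨ (q : ZMod p) ^ 2 ≠ 1) →
    ∀ q : ℕ, q.Prime → q ∣ M → q ≠ p → Lifting.ResiduallyUnramifiedAt W p q → (q : ZMod p) ≠ 1

/-- `UnramifiedRemoved` from lowering at the primes `≢ 1` and removal of those `≡ 1`. -/
theorem unramifiedRemoved_of (h5 : MazurAllFive) (h3 : MazurLoweringThree) (h32 : MinimalThreeOdd)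
    (hTW : MinimalTWRemoval) : UnramifiedRemoved := by
  intro p hp hp2 W hΔ hW hirr M hM q hq hqp hqM hu
  -- every residually unramified prime of the level is `≡ 1`
  have hone : ∀ r : ℕ, r.Prime → r ∣ M → r ≠ p → Lifting.ResiduallyUnramifiedAt W p r →
      (r : ZMod p) = 1 := by
    intro r hr hrM hrp hru
    by_contra h1
    suffices ∃ M' : ℕ, M' ∣ M / r ∧ W.IsResiduallyModularOfLevel p M' by
      obtain ⟨M', hd, hM'⟩ := this
      have heq := hM.minimal M' (hd.trans (Nat.div_dvd_of_dvd hrM)) hM'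
      have hle := Nat.le_of_dvd (Nat.div_pos (Nat.le_of_dvd hM.pos hrM) hr.pos) hd
      exact absurd (heq ▸ hle) (Nat.div_lt_self hM.pos hr.one_lt).not_ge
    by_cases hp5 : 5 ≤ p
    · exact ⟨M / r, dvd_rfl, h5 p hp hp5 W hΔ hW hirr M r hM.pos hr hrp hrM (hM.sq_not_dvd hr) h1
        hru hM.residual⟩
    obtain rfl : p = 3 := by
      have := hp.two_le
      have : p ≠ 4 := by rintro rfl; norm_num at hp
      omega
    rcases eq_or_ne r 2 with rfl | hr2
    · exact absurd hrM (h32 W hΔ hW hirr M hM hru)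
    have hr5 : 5 ≤ r := by
      have := hr.two_le
      have : r ≠ 4 := by rintro rfl; norm_num at hr
      omega
    obtain ⟨M', -, hd, hres⟩ := h3 W hΔ hW hirr M r hM.pos hM.squarefree hr hr5 hrM h1 hru
      (fun hg h => hg (hM.mult_of_dvd h)) hM.residual
    exact ⟨M', hd, hres⟩
  exact hTW p hp hp2 W hΔ hW hirr M hM
    (fun r hr hrM hrp hru => Or.inl (hone r hr hrM hrp hru)) q hq hqM hqp hu (hone q hq hqM hqp hu)

end Fermat.Agent.Semistable
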