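import Fermat.Agent.Semistable.AuxLevelRemoval
import Fermat.Agent.Semistable.AuxPrimeTwelve
import Fermat.Agent.Semistable.UnramifiedRemoval
import Fermat.Agent.BadPrime.Reps
import Fermat.Agent.Lifting.Squarefree.MazurGeneral
import Fermat.Agent.S29

/-!
# A minimal level at `3` is odd when `E[3]` is unramified at `2`

An auxiliary prime `r ≡ 11 (mod 12)` joins the level, `2` comes off by Mazur's principle, and `r`
lies in no minimal level.
-/

set_option autoImplicit false

noncomputable section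

open WeierstrassCurve

namespace Fermat.Agent.Semistable

/-- `MinimalThreeOdd`, from the local inputs at `2` of an odd level with a prime `≡ 2 (mod 3)`. -/
theorem minimalThreeOdd_of (hI : ∀ (L : ℕ) [NeZero L] [NeZero (L * 2)], ¬ 2 ∣ L →
      (∃ r : ℕ, r.Prime ∧ r % 3 = 2 ∧ r ∣ L) → BadPrime.Mazur.LocalInputs 2 3 L) :
    MinimalThreeOdd := by
  intro W hΔ hW hirr M hM hu
  have : Fact (Nat.Prime 3) := ⟨Nat.prime_three⟩
  obtain ⟨r, hr, hrS, hr3, hgr, hr12, hne⟩ := exists_aux_prime_twelve hΔ hW hirr M.primeFactors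
  have hrM : ¬ r ∣ M := fun h => hrS (Nat.mem_primeFactors.2 ⟨hr, h, hM.pos.ne'⟩)
  refine not_dvd_of_aux_lowering (fun hg _ hp _ _ _ φ => S29.result hg hp φ)
    BadPrime.newformMultRep_modular hΔ (by norm_num) hirr hM Nat.prime_two hr hr3 hrM hgr hne
    fun hres h2 => ?_
  obtain ⟨L, rfl⟩ : ∃ L, M = L * 2 := ⟨M / 2, (Nat.div_mul_cancel h2).symm⟩
  rw [mul_right_comm] at hres ⊢
  rw [Nat.mul_div_cancel _ two_pos]
  have hL : ¬ 2 ∣ L := fun h =>
    absurd (Nat.isUnit_iff.1 (hM.squarefree 2 (Nat.mul_dvd_mul_right h 2))) (by norm_num)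
  have hLr : ¬ 2 ∣ L * r := fun h => (Nat.prime_two.dvd_mul.1 h).elim hL fun h' => by omega
  have : NeZero (L * r) :=
    ⟨Nat.mul_ne_zero (fun h => hM.pos.ne' (by rw [h, zero_mul])) hr.ne_zero⟩
  have : NeZero (L * r * 2) := ⟨Nat.mul_ne_zero (NeZero.ne _) two_ne_zero⟩
  have : (W.map (Int.castRingHom ℚ)).IsElliptic := EC.isElliptic_map_rat hΔ
  exact BadPrime.Mazur.isResiduallyModularOfLevel_of_inputs
    (fun N _ => EichlerShimura.kummerIso_modular N)
    (fun N _ p _ => EichlerShimura.frobeniusOnTorsion_modular N p) (by norm_num) hΔ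
    (EC.natCard_torsion_rat _ (by norm_num))
    (EC.galoisRepModuleEnd_factorsThroughFiniteLevel _ (by norm_num))
    hirr Nat.prime_two (by norm_num)
    (hI (L * r) hLr ⟨r, hr, by omega, dvd_mul_left r L⟩)
    (fun h => absurd ((ZMod.natCast_eq_natCast_iff' 2 1 3).1 (by simpa using h)) (by norm_num))
    (fun A hA σ hσ => LinearMap.ext fun x => hu A hA σ hσ x) hres

end Fermat.Agent.Semistable
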