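import Fermat.Agent.Semistable.MazurAllFive
import Fermat.Agent.Semistable.MazurThree
import Fermat.Agent.Semistable.MinimalThreeOdd
import Fermat.Agent.Semistable.UnramifiedRemoval

/-!
# `UnramifiedRemoved` from local inputs without side conditions
-/

set_option autoImplicit false

noncomputable section

open WeierstrassCurve

namespace Fermat.Agent.Semistable

/-- `UnramifiedRemoved` from Mazur's local inputs at every level for `p ≥ 5` and at `q = 2` for
`p = 3`, and the removal of the primes `≡ 1`. -/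
theorem unramifiedRemoved_of_inputs
    (hG : ∀ (q p M : ℕ) [NeZero M] [NeZero (M * q)], q.Prime → p.Prime → 5 ≤ p → q ≠ p → ¬ q ∣ M →
      BadPrime.Mazur.LocalInputs q p M)
    (hI : ∀ (L : ℕ) [NeZero L] [NeZero (L * 2)], ¬ 2 ∣ L →
      (∃ r : ℕ, r.Prime ∧ r % 3 = 2 ∧ r ∣ L) → BadPrime.Mazur.LocalInputs 2 3 L)
    (hTW : MinimalTWRemoval) : UnramifiedRemoved :=
  unramifiedRemoved_of
    (mazurAllFive_of
      (fun p L _ _ hp hp5 h2 _ => hG 2 p L Nat.prime_two hp hp5 (by omega) h2)
      (fun p L _ _ hp hp5 h3 _ => hG 3 p L Nat.prime_three hp hp5 (by omega) h3))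
    mazurLoweringThree (minimalThreeOdd_of hI) hTW

end Fermat.Agent.Semistable
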