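import Fermat.Agent.Semistable.LocalInputsAll
import Fermat.Agent.Semistable.UnramifiedRemovalFinal

/-!
# `UnramifiedRemoved` from the removal of the primes `≡ 1`
-/

set_option autoImplicit false

noncomputable section

namespace Fermat.Agent.Semistable

/-- A minimal level has no residually unramified prime other than `p`, given that it has none
`≡ 1 (mod p)`. -/
theorem unramifiedRemoved_of_tw (hTW : MinimalTWRemoval) : UnramifiedRemoved :=
  unramifiedRemoved_of_inputs
    (fun _ _ _ _ _ hq hp hp5 hqp hqM => localInputs_all hq hp hp5 hqp hqM)
    (fun L _ _ h2 hr => localInputs_two_three L h2 hr) hTW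

end Fermat.Agent.Semistable
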