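import Fermat.Agent.Semistable.S38Reduction
import Fermat.Agent.Lifting.Minimal.BaseFacts

/-!
# Lowering a minimal level through an auxiliary prime

* `not_dvd_minimalResidualLevel`: a good prime `r` with `a_r² ≢ (r + 1)²` divides no minimal
  residual level;
* `not_dvd_of_aux_lowering`: if raising by such an `r` lets `q` be removed, `q` is not in a
  minimal level.
-/

set_option autoImplicit false

noncomputable section

open WeierstrassCurve
open Polynomial ModularFormClass

namespace Fermat.Agent.Semistable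

variable {W : WeierstrassCurve ℤ} {p M : ℕ} [Fact p.Prime]

/-- A good prime `r` with `a_r² ≢ (r + 1)² (mod p)` divides no minimal residual level. -/
theorem not_dvd_minimalResidualLevel (hS29 : RT.EigenformResidualRep)
    (h35 : BadPrime.NewformMultRep) (hΔ : W.Δ ≠ 0) (hp2 : p ≠ 2)
    (hirr : W.ModRepIsIrreducible p) (hM : Lifting.Minimal.IsMinimalResidualLevel W p M) {r : ℕ}
    (hr : r.Prime) (hrp : r ≠ p) (hgood : W.IsGoodPrimeFor r)
    (ha : (W.apOfModel r : ZMod p) ^ 2 ≠ ((r : ZMod p) + 1) ^ 2) : ¬ r ∣ M := by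
  intro hrM
  obtain ⟨A, hA⟩ := Galois.exists_valuationSubring_liesOverPrime (L := AlgebraicClosure ℚ) hr
  obtain ⟨σ, hσ⟩ := Galois.exists_isFrobeniusAt A hr hA
  obtain ⟨ε, hε, hch⟩ := hM.frobenius_charpoly hΔ hS29 h35 hp2 hirr hr hrp hrM A hA σ hσ
  rw [show LinearMap.charpoly ((Lifting.Residual.torsRep W p hΔ).ρ σ) =
      X ^ 2 - C (W.apOfModel r : ZMod p) * X + C (r : ZMod p) from
      EC.charpoly_residualGaloisRepOf W hr hA hgood hσ hrp _ _] at hch
  have h1 := congrArg (fun P : (ZMod p)[X] => P.coeff 1) hch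
  simp only [coeff_add, coeff_sub, coeff_X_pow, coeff_C_mul_X, coeff_C] at h1
  norm_num at h1
  exact ha (by rw [h1, mul_pow, sq ε, hε, one_mul])

/-- If `r` may be adjoined to the level and then `q` removed, `q` is not in a minimal level. -/
theorem not_dvd_of_aux_lowering (hS29 : RT.EigenformResidualRep)
    (h35 : BadPrime.NewformMultRep) (hΔ : W.Δ ≠ 0) (hp2 : p ≠ 2)
    (hirr : W.ModRepIsIrreducible p) (hM : Lifting.Minimal.IsMinimalResidualLevel W p M)
    {q r : ℕ} (hq : q.Prime) (hr : r.Prime) (hrp : r ≠ p) (hrM : ¬ r ∣ M)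
    (hgood : W.IsGoodPrimeFor r) (ha : (W.apOfModel r : ZMod p) ^ 2 ≠ ((r : ZMod p) + 1) ^ 2)
    (hlow : W.IsResiduallyModularOfLevel p (M * r) → q ∣ M →
      W.IsResiduallyModularOfLevel p (M * r / q)) : ¬ q ∣ M := by
  intro hqM
  obtain ⟨hpos, hsq, hres⟩ := GoodTwo.isResiduallyModularOfLevel_mul_prime hr hM.pos hM.squarefree
    hrM hM.residual
  have hqr : q ∣ M * r := hqM.mul_right r
  have hd : M * r / q ∣ M * r := Nat.div_dvd_of_dvd hqr
  obtain ⟨M', hM'd, hM'⟩ := Lifting.Minimal.exists_minimalResidualLevel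
    (Nat.pos_of_dvd_of_pos hd hpos) (hsq.squarefree_of_dvd hd)
    (fun h => hM.mult_of_dvd (((Fact.out : p.Prime).dvd_mul.1 (h.trans hd)).resolve_right
      fun h' => hrp ((Nat.prime_dvd_prime_iff_eq Fact.out hr).1 h').symm))
    (hlow hres hqM)
  have hr' := not_dvd_minimalResidualLevel hS29 h35 hΔ hp2 hirr hM' hr hrp hgood ha
  rw [mul_comm M r, Nat.mul_div_assoc r hqM] at hM'd
  have hd' : M' ∣ M / q := (hr.coprime_iff_not_dvd.2 hr').symm.dvd_of_dvd_mul_left hM'd
  have heq := hM.minimal M' (hd'.trans (Nat.div_dvd_of_dvd hqM)) hM'.residual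
  have hle := Nat.le_of_dvd (Nat.div_pos (Nat.le_of_dvd hM.pos hqM) hq.pos) hd'
  exact absurd (heq ▸ hle) (Nat.div_lt_self hM.pos hq.one_lt).not_ge

end Fermat.Agent.Semistable
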