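/-
The class of the five-torsion family changing the reduction at `3` of a curve good ordinary there.
-/
import Fermat.Agent.Switch.AdjustedLocal

/-!
# The five-torsion family at `3`: from ordinary to multiplicative or supersingular

For a curve good ordinary at `3`, the parameters `x / y ≡ -16 b / a` give, after rescaling by `3`, a
member multiplicative at `3` if `Δ ≡ 1` and good supersingular there if `Δ ≡ 2` modulo `3`.
-/

set_option autoImplicit false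

namespace Fermat.Agent.Semistable

open WeierstrassCurve Fermat.Agent.Switch

/-- The value of `fiveD` at the changing parameter at `3`. -/
theorem exists_fiveD_eqThreeGood (e : ℤ) : ∃ G : ℤ,
    fiveD (1 + 27 * e) (-(1 + 27 * e)) 16 1 = 3 ^ 12 * (2 * e + e ^ 4 + 9 * G) := by
  refine ⟨(48828125) + (-301621528) * e ^ 1 + (-823510405) * e ^ 2 + (382030412) * e ^ 3 + (-436453750) * e ^ 4 + (-98628678) * e ^ 5 + (7381125) * e ^ 6, ?_⟩
  simp only [fiveD]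
  ring

/-- The value of `fiveC4` at the changing parameter at `3`. -/
theorem exists_fiveC4_eqThreeGood (e : ℤ) : ∃ G : ℤ,
    fiveC4 (1 + 27 * e) (-(1 + 27 * e)) 16 1 = 3 ^ 20 * (1 + 2 * e ^ 3 + e ^ 6 + 3 * G) := by
  refine ⟨(31789143880208) + (2431976318359375) * e ^ 1 + (41152502080078125) * e ^ 2 + (-25322278433242709) * e ^ 3 + (280801630146162062) * e ^ 4 + (-277536212717178378) * e ^ 5 + (-313070441502300849) * e ^ 6 + (-166816323416604158) * e ^ 7 + (82215937096587783) * e ^ 8 + (-3783665086781301) * e ^ 9 + (3736324449023625) * e ^ 10 + (98065811278125) * e ^ 11, ?_⟩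
  simp only [fiveC4, fiveC4Part0, fiveC4Part1, fiveC4Part2, fiveC4Part3]
  ring

/-- The value of `fiveC6` at the changing parameter at `3`. -/
theorem exists_fiveC6_eqThreeGood (e : ℤ) : ∃ G : ℤ,
    fiveC6 (1 + 27 * e) (-(1 + 27 * e)) 16 1 = 3 ^ 30 *
      (17 + 9 * e ^ 1 + 24 * e ^ 3 + 6 * e ^ 6 + 26 * e ^ 9 + 9 * e ^ 10 + 27 * G) := by
  refine ⟨(-34493428689462167246) + (4840691884358723958333) * e ^ 1 + (173239768981933593750000) * e ^ 2 + (737008414798312717013888) * e ^ 3 + (6649723277707952539062500) * e ^ 4 + (-14629823407795941506675000) * e ^ 5 + (19574912393094286998386414) * e ^ 6 + (10932462912366549809074728) * e ^ 7 + (69957290118889750433885174) * e ^ 8 + (3236515288110207833216074) * e ^ 9 + (-38051110604245337702722427) * e ^ 10 + (-4086614549114000123306408) * e ^ 11 + (-3503336191043481822720492) * e ^ 12 + (1327959145474798946073624) * e ^ 13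 + (-320959560434040659351808) * e ^ 14 + (-19128378598579647405000) * e ^ 15 + (-2514659920635166171875) * e ^ 16, ?_⟩
  simp only [fiveC6, fiveC6Part0, fiveC6Part1, fiveC6Part2, fiveC6Part3, fiveC6Part4, fiveC6Part5]
  ring

/-- Residues prime to `3` modulo `9`. -/
theorem pow_six_eq_one_zmod_nine {z : ℤ} (h : ¬ (3 : ℤ) ∣ z) : (z : ZMod 9) ^ 6 = 1 := by
  have h' : ZMod.castHom (show 3 ∣ 9 by norm_num) (ZMod 3) (z : ZMod 9) ≠ 0 := by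
    rw [map_intCast]
    exact fun h' => h ((ZMod.intCast_zmod_eq_zero_iff_dvd z 3).1 h')
  generalize (z : ZMod 9) = u at h' ⊢
  revert u
  decide

/-- Residues prime to `3` modulo `3`. -/
theorem sq_eq_one_zmod_three {z : ℤ} (h : ¬ (3 : ℤ) ∣ z) : (z : ZMod 3) ^ 2 = 1 := by
  have h' : (z : ZMod 3) ≠ 0 := fun h' => h ((ZMod.intCast_zmod_eq_zero_iff_dvd z 3).1 h')
  generalize (z : ZMod 3) = u at h' ⊢
  revert u
  decide

/-- The forms at the changing parameter at `3` of a curve good ordinary there. -/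
theorem exists_forms_three_good {a b x y Δ : ℤ} (hrel : a ^ 3 - b ^ 2 = 1728 * Δ)
    (ha : ¬ (3 : ℤ) ∣ a) (hΔ : ¬ (3 : ℤ) ∣ Δ) (hy : ¬ (3 : ℤ) ∣ y)
    (hx : (3 : ℤ) ^ 34 ∣ x * a + 16 * b * y) :
    ∃ D A B : ℤ, fiveD a b x y = 3 ^ 12 * D ∧ fiveC4 a b x y = 3 ^ 20 * A ∧
      fiveC6 a b x y = 3 ^ 30 * B ∧ D ≠ 0 ∧ (¬ (3 : ℤ) ∣ A ∨ (27 : ℤ) ∣ B) ∧
      ((3 : ℤ) ∣ D ∧ ¬ (9 : ℤ) ∣ D ∧ ¬ (3 : ℤ) ∣ A ∨
        ¬ (3 : ℤ) ∣ D ∧ (3 : ℤ) ∣ A ∧ (27 : ℤ) ∣ B) := by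
  have h3 := Int.prime_three
  have hb : ¬ (3 : ℤ) ∣ b := fun h => ha (h3.dvd_of_dvd_pow (n := 3) (by
    rw [show a ^ 3 = 1728 * Δ + b ^ 2 by linear_combination hrel]
    exact (dvd_mul_of_dvd_left (by norm_num) _).add (dvd_pow h two_ne_zero)))
  obtain ⟨A, u, hA⟩ := ((h3.coprime_iff_not_dvd.2 ha).symm.pow_right (n := 34))
  obtain ⟨Bi, u', hB⟩ := ((h3.coprime_iff_not_dvd.2 hb).symm.pow_right (n := 34))
  obtain ⟨⟨kD, hkD⟩, ⟨k4, hk4⟩, k6, hk6⟩ := forms_congr_degenerate (n := (3 : ℤ) ^ 34) (A := A)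
    (Bi := Bi) (c := 27) (T := 64 * Δ) (x₀ := 16) ⟨-u, by linear_combination hA⟩
    ⟨-u', by linear_combination hB⟩ (by rw [hrel]; ring) hx
  set l := -(b * A) with hl
  set e := 64 * Δ * Bi ^ 2 with he
  obtain ⟨GD, hGD⟩ := exists_fiveD_eqThreeGood e
  obtain ⟨G4, hG4⟩ := exists_fiveC4_eqThreeGood e
  obtain ⟨G6, hG6⟩ := exists_fiveC6_eqThreeGood e
  rw [hGD] at hkD
  rw [hG4] at hk4
  rw [hG6] at hk6
  have unit : ∀ {m i j : ℤ}, i * m + j * (3 : ℤ) ^ 34 = 1 → ¬ (3 : ℤ) ∣ i := by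
    intro m i j h hi
    have h1 : (3 : ℤ) ∣ 1 := h ▸ (hi.mul_right m).add ((dvd_pow_self 3 (by norm_num)).mul_left j)
    norm_num at h1
  have hl3 : ¬ (3 : ℤ) ∣ l := fun h => (h3.dvd_or_dvd (dvd_neg.1 h)).elim hb (unit hA)
  have hBi3 : ¬ (3 : ℤ) ∣ Bi := unit hB
  set p4 := 1 + 2 * e ^ 3 + e ^ 6
  set p6 := 17 + 9 * e ^ 1 + 24 * e ^ 3 + 6 * e ^ 6 + 26 * e ^ 9 + 9 * e ^ 10
  set D' := l ^ 12 * y ^ 12 * (2 * e + e ^ 4 + 9 * GD) + 9 * (3 ^ 20 * kD)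
  set A' := l ^ 22 * y ^ 20 * (p4 + 3 * G4) + 3 * (3 ^ 13 * k4)
  set B' := l ^ 33 * y ^ 30 * (p6 + 27 * G6) + 27 * (3 * k6)
  have hD9 : (D' : ZMod 9) = 2 * (e : ZMod 9) + (e : ZMod 9) ^ 4 := by
    simp only [D']
    push_cast
    rw [show (l : ZMod 9) ^ 12 = ((l : ZMod 9) ^ 6) ^ 2 by ring, pow_six_eq_one_zmod_nine hl3,
      show (y : ZMod 9) ^ 12 = ((y : ZMod 9) ^ 6) ^ 2 by ring, pow_six_eq_one_zmod_nine hy,
      show (9 : ZMod 9) = 0 by decide]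
    ring
  have hA3 : (A' : ZMod 3) = 1 + 2 * (e : ZMod 3) ^ 3 + (e : ZMod 3) ^ 6 := by
    simp only [A', p4]
    push_cast
    rw [show (l : ZMod 3) ^ 22 = ((l : ZMod 3) ^ 2) ^ 11 by ring, sq_eq_one_zmod_three hl3,
      show (y : ZMod 3) ^ 20 = ((y : ZMod 3) ^ 2) ^ 10 by ring, sq_eq_one_zmod_three hy,
      show (3 : ZMod 3) = 0 by decide]
    ring
  have he3 : (e : ZMod 3) = (Δ : ZMod 3) := by
    rw [he]
    push_cast
    rw [sq_eq_one_zmod_three hBi3, show (64 : ZMod 3) = 1 by decide]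
    ring
  have hd : ∀ {m : ℤ}, (3 : ℤ) ∣ m ↔ (m : ZMod 3) = 0 := fun {m} =>
    (ZMod.intCast_zmod_eq_zero_iff_dvd m 3).symm
  have hd9 : ∀ {m : ℤ}, (9 : ℤ) ∣ m ↔ (m : ZMod 9) = 0 := fun {m} =>
    (ZMod.intCast_zmod_eq_zero_iff_dvd m 9).symm
  have red : ∀ m : ℤ, ZMod.castHom (show 3 ∣ 9 by norm_num) (ZMod 3) (m : ZMod 9) = (m : ZMod 3) :=
    fun m => map_intCast _ m
  have hD3 : (D' : ZMod 3) = 2 * (e : ZMod 3) + (e : ZMod 3) ^ 4 := by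
    rw [← red, hD9, map_add, map_mul, map_pow, red, map_ofNat]
  have hcase : (Δ : ZMod 3) = 1 ∨ (Δ : ZMod 3) = 2 := by
    have h : (Δ : ZMod 3) ≠ 0 := fun h => hΔ (hd.2 h)
    generalize (Δ : ZMod 3) = z at h ⊢
    revert z
    decide
  refine ⟨D', A', B', by linear_combination hkD, by linear_combination hk4,
    by linear_combination hk6, ?_⟩
  rcases hcase with h | h
  · have hA' : ¬ (3 : ℤ) ∣ A' := by rw [hd, hA3, he3, h]; decide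
    have hD9' : ¬ (9 : ℤ) ∣ D' := by
      rw [hd9, hD9]
      have hz := red e
      rw [he3, h] at hz
      generalize (e : ZMod 9) = z at hz ⊢
      revert z
      decide
    exact ⟨fun h0 => hD9' (by rw [h0]; exact dvd_zero _), Or.inl hA',
      Or.inl ⟨by rw [hd, hD3, he3, h]; decide, hD9', hA'⟩⟩
  · have hD' : ¬ (3 : ℤ) ∣ D' := by rw [hd, hD3, he3, h]; decide
    have hB' : (27 : ℤ) ∣ B' := by
      refine ((dvd_mul_of_dvd_right (Dvd.dvd.add ?_ (dvd_mul_right 27 G6)) _)).add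
        (dvd_mul_right 27 _)
      refine (ZMod.intCast_zmod_eq_zero_iff_dvd p6 27).1 ?_
      simp only [p6]
      push_cast
      have hz : ZMod.castHom (show 3 ∣ 27 by norm_num) (ZMod 3) (e : ZMod 27) = 2 := by
        rw [map_intCast, he3, h]
      generalize (e : ZMod 27) = z at hz ⊢
      revert z
      decide
    exact ⟨fun h0 => hD' (by rw [h0]; exact dvd_zero _), Or.inr hB',
      Or.inr ⟨hD', by rw [hd, hA3, he3, h]; decide, hB'⟩⟩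

/-- The local choice at `3` changing ordinary reduction. -/
theorem exists_local_three_change (W : WeierstrassCurve ℤ) (h : ¬ (3 : ℤ) ∣ W.Δ)
    (hc : ¬ (3 : ℤ) ∣ W.c₄) (z : ℤ) (hz : ¬ (3 : ℤ) ∣ z) :
    ∃ r : ℤ, ∀ x : ℤ, (3 : ℤ) ^ 34 ∣ x - r → ∃ D A B : ℤ,
      fiveD W.c₄ W.c₆ x z = ((3 : ℤ) ^ 1) ^ 12 * D ∧
      fiveC4 W.c₄ W.c₆ x z = ((3 : ℤ) ^ 1) ^ 20 * A ∧
      fiveC6 W.c₄ W.c₆ x z = ((3 : ℤ) ^ 1) ^ 30 * B ∧ D ≠ 0 ∧
      (¬ (3 : ℤ) ∣ A ∨ (27 : ℤ) ∣ B) ∧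
      ((3 : ℤ) ∣ D ∧ ¬ (9 : ℤ) ∣ D ∧ ¬ (3 : ℤ) ∣ A ∨
        ¬ (3 : ℤ) ∣ D ∧ (3 : ℤ) ∣ A ∧ (27 : ℤ) ∣ B) := by
  obtain ⟨A, u, hA⟩ := ((Int.prime_three.coprime_iff_not_dvd.2 hc).symm.pow_right (n := 34))
  refine ⟨-16 * W.c₆ * z * A, fun x hx => ?_⟩
  obtain ⟨D, A', B, hD, h4, h6, hrest⟩ :=
    exists_forms_three_good (x := x) W.c_relation.symm hc h hz (by
      obtain ⟨m, hm⟩ := hx
      exact ⟨m * W.c₄ + 16 * W.c₆ * z * u, by
        linear_combination W.c₄ * hm - 16 * W.c₆ * z * hA⟩)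
  exact ⟨D, A', B, by rw [hD, pow_one], by rw [h4, pow_one], by rw [h6, pow_one], hrest⟩

/-- The local choice at `3` of a curve good there: supersingular reduction is kept, ordinary
reduction becomes multiplicative or supersingular. -/
theorem exists_local_three_adjust (W : WeierstrassCurve ℤ) (h : ¬ (3 : ℤ) ∣ W.Δ) :
    ∃ e : ℤ, e ≠ 0 ∧ (∀ q : ℕ, q.Prime → (q : ℤ) ∣ e → q = 3) ∧
      ∀ z : ℤ, ¬ (3 : ℤ) ∣ z → ∃ r : ℤ, ∀ x : ℤ, (3 : ℤ) ^ 34 ∣ x - r → ∃ (k : ℕ) (D A B : ℤ),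
        fiveD W.c₄ W.c₆ x (e * z) = ((3 : ℤ) ^ k) ^ 12 * D ∧
        fiveC4 W.c₄ W.c₆ x (e * z) = ((3 : ℤ) ^ k) ^ 20 * A ∧
        fiveC6 W.c₄ W.c₆ x (e * z) = ((3 : ℤ) ^ k) ^ 30 * B ∧
        (¬ (3 : ℤ) ∣ A ∨ (27 : ℤ) ∣ B) ∧ D ≠ 0 ∧
        ((3 : ℤ) ∣ D ∧ ¬ (3 : ℤ) ∣ A ∨ ¬ (3 : ℤ) ∣ D ∧ (3 : ℤ) ∣ A) := by
  by_cases hc : (3 : ℤ) ∣ W.c₄
  · refine ⟨3 ^ 34, by norm_num, fun q hq h => (Nat.prime_dvd_prime_iff_eq hq Nat.prime_three).1
      (hq.dvd_of_dvd_pow (n := 34) (by exact_mod_cast h)), fun z _ => ⟨1, fun x hx => ?_⟩⟩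
    have hy : (3 : ℤ) ^ 34 ∣ 3 ^ 34 * z := dvd_mul_right _ _
    have hD := dvd_fiveD_sub_one W.c₄ W.c₆ hx hy
    have h4 := dvd_fiveC4_sub W.c₄ W.c₆ hx hy
    have h6 := dvd_fiveC6_sub W.c₄ W.c₆ hx hy
    have hD3 : ¬ (3 : ℤ) ∣ fiveD W.c₄ W.c₆ x (3 ^ 34 * z) := fun h' => by
      have h1 : (3 : ℤ) ∣ 1 :=
        (dvd_sub_right h').1 ((dvd_pow_self (3 : ℤ) (n := 34) (by norm_num)).trans hD)
      norm_num at h1
    exact ⟨0, _, _, _, by rw [pow_zero, one_pow, one_mul], by rw [pow_zero, one_pow, one_mul],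
      by rw [pow_zero, one_pow, one_mul],
      Or.inr ((dvd_sub_left (twentySeven_dvd_c₆ W hc)).1
        ((show (27 : ℤ) ∣ (3 : ℤ) ^ 34 by norm_num).trans h6)),
      fun h' => hD3 (by rw [h']; exact dvd_zero _),
      Or.inr ⟨hD3, (dvd_sub_left hc).1 ((dvd_pow_self (3 : ℤ) (n := 34) (by norm_num)).trans h4)⟩⟩
  · refine ⟨1, one_ne_zero, fun q hq h => absurd (Int.natCast_dvd.1 h) (by simpa using hq.ne_one),
      fun z hz => ?_⟩
    obtain ⟨r, hr⟩ := exists_local_three_change W h hc z hz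
    refine ⟨r, fun x hx => ?_⟩
    obtain ⟨D, A, B, hD, hA, hB, hD0, h27, hcase⟩ := hr x hx
    rw [one_mul]
    exact ⟨1, D, A, B, hD, hA, hB, h27, hD0,
      hcase.imp (fun h => ⟨h.1, h.2.2⟩) fun h => ⟨h.1, h.2.1⟩⟩

end Fermat.Agent.Semistable
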