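import Fermat.Agent.TwoAdic.Switch.KrausModel
import Fermat.Prelude.Def_FLTPrelim_Modularity

/-!
# Integral models that agree with a given one at `2`

Invariants `C4`, `C6` that agree modulo `128` with those of an integral model and satisfy Kraus'
condition at `3` are the invariants of an integral model with the same reduction modulo `2`.
-/

set_option autoImplicit false

namespace Fermat.Agent.Semistable

open WeierstrassCurve

/-- An integral model with prescribed invariants, equal to `W` modulo `2`. -/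
theorem exists_model_of_congr_two (W : WeierstrassCurve ℤ) {C4 C6 D : ℤ}
    (hrel : C4 ^ 3 - C6 ^ 2 = 1728 * D) (h4 : (128 : ℤ) ∣ C4 - W.c₄)
    (h6 : (128 : ℤ) ∣ C6 - W.c₆) (h3 : ¬ (3 : ℤ) ∣ C4 ∨ (27 : ℤ) ∣ C6) :
    ∃ V : WeierstrassCurve ℤ, V.c₄ = C4 ∧ V.c₆ = C6 ∧ V.Δ = D ∧
      V.reductionMod 2 = W.reductionMod 2 := by
  obtain ⟨e, he4, he9, he6⟩ := TwoAdic.exists_b2 hrel
  set B₀ : ℤ := 1 + 4 * e with hB₀
  obtain ⟨u, hu⟩ := h4
  obtain ⟨v, hv⟩ := h6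
  set B : ℤ := W.b₂ + 256 * (B₀ - W.b₂) with hB
  have hB3 : (3 : ℤ) ∣ B - B₀ := ⟨85 * (B₀ - W.b₂), by rw [hB]; ring⟩
  have hsq : (3 : ℤ) ∣ B ^ 2 - B₀ ^ 2 := hB3.trans (sub_dvd_pow_sub_pow _ _ 2)
  have hcube : (3 : ℤ) ∣ B ^ 3 - B₀ ^ 3 := hB3.trans (sub_dvd_pow_sub_pow _ _ 3)
  set δ : ℤ := B₀ - W.b₂
  have hBsq : B ^ 2 - W.b₂ ^ 2 = 512 * W.b₂ * δ + 65536 * δ ^ 2 := by rw [hB]; ring
  have hW4 : W.b₂ ^ 2 - W.c₄ = 24 * W.b₄ := by simp only [WeierstrassCurve.c₄]; ring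
  -- the new `b₄`
  obtain ⟨b4, hb4⟩ : (24 : ℤ) ∣ B ^ 2 - C4 := by
    have h8 : (8 : ℤ) ∣ B ^ 2 - C4 :=
      ⟨3 * W.b₄ + 64 * W.b₂ * δ + 8192 * δ ^ 2 - 16 * u, by
        linear_combination -hu + hBsq + hW4⟩
    have h3' : (3 : ℤ) ∣ B ^ 2 - C4 := by
      have := hsq.sub he4
      rwa [show B ^ 2 - B₀ ^ 2 - (C4 - B₀ ^ 2) = B ^ 2 - C4 by ring] at this
    simpa using (show IsCoprime (8 : ℤ) 3 from ⟨-1, 3, by norm_num⟩).mul_dvd h8 h3'
  obtain ⟨s, hs⟩ : (16 : ℤ) ∣ b4 - W.b₄ := by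
    have h : (16 : ℤ) * 8 ∣ (b4 - W.b₄) * 3 * 8 :=
      ⟨4 * W.b₂ * δ + 512 * δ ^ 2 - u, by
        linear_combination -hb4 - hu + hBsq + hW4⟩
    exact (show IsCoprime (16 : ℤ) 3 from ⟨1, -5, by norm_num⟩).dvd_of_dvd_mul_right
      ((Int.mul_dvd_mul_iff_right (by norm_num)).1 h)
  set P : ℤ := B ^ 3 - 36 * B * b4 with hP
  have hC4 : C4 = B ^ 2 - 24 * b4 := by linear_combination -hb4
  have h27 : (27 : ℤ) ∣ C6 + P := by
    by_cases h3' : (3 : ℤ) ∣ C4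
    · have hB' : (3 : ℤ) ∣ B := by
        have := hB3.add (show (3 : ℤ) ∣ B₀ by rw [he9 h3']; norm_num)
        rwa [sub_add_cancel] at this
      obtain ⟨k, hk⟩ := hB'
      rw [hP, hk]
      exact (h3.resolve_left (not_not.2 h3')).add ⟨k ^ 3 - 4 * k * b4, by ring⟩
    · have hsum : (3 : ℤ) ∣ C6 + B ^ 3 := by
        have := (he6 h3').add hcube
        rwa [show C6 + B₀ ^ 3 + (B ^ 3 - B₀ ^ 3) = C6 + B ^ 3 by ring] at this
      have hnd : ¬ (3 : ℤ) ∣ C6 - P := fun hd => by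
        have h2 : (3 : ℤ) ∣ (C6 + B ^ 3) - (C6 - P) + 3 * (12 * B * b4) :=
          (hsum.sub hd).add (dvd_mul_right _ _)
        rw [show C6 + B ^ 3 - (C6 - P) + 3 * (12 * B * b4) = 2 * B ^ 3 by rw [hP]; ring] at h2
        have hB' : (3 : ℤ) ∣ B := (Int.prime_three.dvd_or_dvd h2).elim
          (fun h => absurd h (by norm_num)) Int.prime_three.dvd_of_dvd_pow
        exact h3' (hC4 ▸ (dvd_pow hB' two_ne_zero).sub (dvd_mul_of_dvd_left (by norm_num) _))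
      refine ((Int.prime_three.coprime_iff_not_dvd.2 hnd).pow_left (m := 3)).dvd_of_dvd_mul_right
        ⟨16 * B ^ 2 * b4 ^ 2 - 512 * b4 ^ 3 - 64 * D, ?_⟩
      rw [hC4] at hrel
      rw [hP]
      linear_combination -hrel
  -- the new `b₆`
  obtain ⟨t, ht⟩ : (8 : ℤ) * 27 ∣ C6 + P + 216 * W.b₆ := by
    refine (show IsCoprime (8 : ℤ) 27 from ⟨-10, 3, by norm_num⟩).mul_dvd ?_
      (h27.add (dvd_mul_of_dvd_left (by norm_num) _))
    refine (show (8 : ℤ) ∣ 64 by norm_num).trans ⟨2 * v + (12 * W.b₂ ^ 2 * δ +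
      3072 * W.b₂ * δ ^ 2 + 262144 * δ ^ 3) - 9 * (B * s + 16 * δ * W.b₄), ?_⟩
    simp only [hP, hB, WeierstrassCurve.c₆] at hv ⊢
    linear_combination hv - 36 * (W.b₂ + 256 * δ) * hs
  obtain ⟨r, hr⟩ : (8 : ℤ) ∣ t := by
    have h : (8 : ℤ) * 8 ∣ t * 27 * 8 :=
      ⟨2 * v + (12 * W.b₂ ^ 2 * δ + 3072 * W.b₂ * δ ^ 2 + 262144 * δ ^ 3) -
        9 * (B * s + 16 * δ * W.b₄), by
        simp only [hP, hB, WeierstrassCurve.c₆] at hv ht ⊢
        linear_combination hv - ht - 36 * (W.b₂ + 256 * δ) * hs⟩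
    exact (show IsCoprime (8 : ℤ) 27 from ⟨-10, 3, by norm_num⟩).dvd_of_dvd_mul_right
      ((Int.mul_dvd_mul_iff_right (by norm_num)).1 h)
  -- the model
  set V : WeierstrassCurve ℤ :=
    ⟨W.a₁, W.a₂ + 64 * δ, W.a₃, W.a₄ + 8 * s, W.a₆ - 2 * r⟩ with hV
  have e2 : V.b₂ = B := by
    rw [hB, hV]; simp only [WeierstrassCurve.b₂]; ring
  have e4 : V.b₄ = b4 := by
    rw [hV]
    simp only [WeierstrassCurve.b₄] at hs ⊢
    linear_combination -hs
  have e6 : 216 * V.b₆ = -(C6 + P) := by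
    rw [hV]
    simp only [WeierstrassCurve.b₆] at ht ⊢
    linear_combination ht + 216 * hr
  have k4 : V.c₄ = C4 := by
    rw [WeierstrassCurve.c₄, e2, e4, hC4]
  have k6 : V.c₆ = C6 := by
    rw [WeierstrassCurve.c₆, e2, e4]
    linear_combination -e6 + hP
  refine ⟨V, k4, k6, ?_, ?_⟩
  · have h := V.c_relation
    rw [k4, k6, hrel] at h
    exact mul_left_cancel₀ (show (1728 : ℤ) ≠ 0 by norm_num) h
  · have h2 : ∀ k : ℤ, ((2 * k : ℤ) : ZMod 2) = 0 := fun k => by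
      rw [Int.cast_mul, show ((2 : ℤ) : ZMod 2) = 0 from rfl, zero_mul]
    ext <;> simp only [WeierstrassCurve.reductionMod, WeierstrassCurve.map, hV, eq_intCast,
      Int.cast_add, Int.cast_sub, h2,
      show 64 * δ = 2 * (32 * δ) by ring, show 8 * s = 2 * (4 * s) by ring, add_zero, sub_zero]

/-- The model of `W` scaled by `u`. -/
def scaledModel (W : WeierstrassCurve ℤ) (u : ℤ) : WeierstrassCurve ℤ :=
  ⟨u * W.a₁, u ^ 2 * W.a₂, u ^ 3 * W.a₃, u ^ 4 * W.a₄, u ^ 6 * W.a₆⟩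

theorem scaledModel_c₄ (W : WeierstrassCurve ℤ) (u : ℤ) :
    (scaledModel W u).c₄ = u ^ 4 * W.c₄ := by
  simp only [scaledModel, WeierstrassCurve.c₄, WeierstrassCurve.b₂, WeierstrassCurve.b₄]
  ring

theorem scaledModel_c₆ (W : WeierstrassCurve ℤ) (u : ℤ) :
    (scaledModel W u).c₆ = u ^ 6 * W.c₆ := by
  simp only [scaledModel, WeierstrassCurve.c₆, WeierstrassCurve.b₂, WeierstrassCurve.b₄,
    WeierstrassCurve.b₆]
  ring

theorem scaledModel_reductionMod_two (W : WeierstrassCurve ℤ) {u : ℤ} (hu : (2 : ℤ) ∣ u - 1) :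
    (scaledModel W u).reductionMod 2 = W.reductionMod 2 := by
  have h : (u : ZMod 2) = 1 := by
    rw [← sub_eq_zero, ← Int.cast_one, ← Int.cast_sub]
    exact (ZMod.intCast_zmod_eq_zero_iff_dvd _ 2).2 hu
  ext <;> simp only [scaledModel, WeierstrassCurve.reductionMod, WeierstrassCurve.map, eq_intCast,
    Int.cast_mul, Int.cast_pow, h, one_pow, one_mul]

end Fermat.Agent.Semistable
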