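import Fermat.Agent.Semistable.Contracts
import Fermat.Agent.Semistable.FiveSwitchThree
import Fermat.Agent.Semistable.ModelGoodTwo
import Fermat.Agent.Switch.Adjusted

/-!
# The switch at `5` of a curve good at `2`

The member at `x ≡ 1`, `y ≡ 0` modulo a power of `2` keeps the reduction at `2`. When `a₂ = 0` the
class at `3` is moved so that the member is multiplicative or supersingular there.
-/

set_option autoImplicit false

namespace Fermat.Agent.Semistable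

open WeierstrassCurve Fermat.Agent.Switch

/-- The member of the family that is good at `2` and multiplicative or supersingular at `3`. -/
theorem exists_five_model_good_two (W : WeierstrassCurve ℤ) (hΔ : W.Δ ≠ 0)
    (hW : W.IsSemistableModel) (hg2 : ¬ (2 : ℤ) ∣ W.Δ) (h32 : (32 : ℤ) ∣ W.c₄)
    (hg3 : ¬ (3 : ℤ) ∣ W.Δ) :
    ∃ V : WeierstrassCurve ℤ, V.Δ ≠ 0 ∧ V.IsSemistableModel ∧ ¬ (2 : ℤ) ∣ V.Δ ∧ W.Δ ∣ V.Δ ∧
      (32 : ℤ) ∣ V.c₄ ∧ V.apOfModel 2 = W.apOfModel 2 ∧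
      (W.IsGoodPrimeFor 5 → V.IsGoodPrimeFor 5) ∧
      (V.IsGoodPrimeFor 3 → (3 : ℤ) ∣ V.c₄) ∧
      ∀ ℓ : ℕ, ℓ.Prime → W.IsGoodPrimeFor ℓ → V.IsGoodPrimeFor ℓ → ℓ ≠ 5 →
        (5 : ℤ) ∣ (V.apOfModel ℓ - W.apOfModel ℓ) := by
  obtain ⟨y₀, hy₀, hy₀2, hy₀3, hy₀5, hy₀Δ⟩ := exists_outside_six hΔ
  obtain ⟨e, he, he', hloc⟩ := exists_local_three_adjust W hg3
  set z : ℤ := 2 ^ 64 * y₀
  have hz : ¬ (3 : ℤ) ∣ z := fun h => (Int.prime_three.dvd_or_dvd h).elim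
    (fun h => absurd (Int.prime_three.dvd_of_dvd_pow (a := (2 : ℤ)) h) (by norm_num)) hy₀3
  obtain ⟨r, hr⟩ := hloc z hz
  obtain ⟨s, hs₂, hs₃⟩ := exists_crt (m := (2 : ℤ) ^ 64) (n := (3 : ℤ) ^ 34)
    ((show IsCoprime (2 : ℤ) 3 from ⟨-1, 1, by norm_num⟩).pow) 1 r
  obtain ⟨x, hxs, hx1⟩ := exists_crt (m := (2 : ℤ) ^ 64 * 3 ^ 34) (n := y₀)
    (((Int.prime_two.coprime_iff_not_dvd.2 hy₀2).pow_left).mul_left
      ((Int.prime_three.coprime_iff_not_dvd.2 hy₀3).pow_left)) s 1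
  obtain ⟨k, D', A', B', hFD, hFA, hFB, h27, hD'0, hcase⟩ :=
    hr x (by simpa using ((dvd_mul_left _ _).trans hxs).add hs₃)
  set a := W.c₄ with ha
  set b := W.c₆ with hb
  set y := e * z with hy
  set w : ℤ := (3 : ℤ) ^ k with hw
  have hw0 : w ≠ 0 := by positivity
  have hrel : A' ^ 3 - B' ^ 2 = 1728 * (W.Δ * D' ^ 5) := by
    have h := fiveC4_cube_sub_fiveC6_sq a b x y
    rw [hFA, hFB, hFD, ← W.c_relation] at h
    refine mul_left_cancel₀ (pow_ne_zero 60 hw0) ?_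
    linear_combination h
  -- the congruences at `2`
  have hx2 : (2 : ℤ) ^ 64 ∣ x - 1 := by
    simpa using ((dvd_mul_right _ _).trans hxs).add hs₂
  have hy2 : (2 : ℤ) ^ 64 ∣ y := (dvd_mul_right _ y₀).mul_left e
  have h128 : (128 : ℤ) ∣ 2 ^ 64 := by norm_num
  have hD2 : ¬ (2 : ℤ) ∣ D' := fun h => by
    have h1 := dvd_fiveD_sub_one a b hx2 hy2
    rw [hFD] at h1
    have h2 : (2 : ℤ) ∣ 1 :=
      (dvd_sub_right (h.mul_left _)).1 ((dvd_pow_self (2 : ℤ) (n := 64) (by norm_num)).trans h1)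
    norm_num at h2
  set u : ℤ := 43 ^ (5 * k) with hu
  have huw : (128 : ℤ) ∣ (w ^ 5 * u) - 1 := by
    rw [hw, hu, ← pow_mul, mul_comm k 5, ← mul_pow]
    exact (show (128 : ℤ) ∣ 3 * 43 - 1 by norm_num).trans (sub_one_dvd_pow_sub_one _ _)
  have hA128 : (128 : ℤ) ∣ A' - u ^ 4 * a := by
    obtain ⟨m, hm⟩ := h128.trans (dvd_fiveC4_sub a b hx2 hy2)
    obtain ⟨n, hn⟩ := huw.trans (sub_one_dvd_pow_sub_one (w ^ 5 * u) 4)
    rw [hFA] at hm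
    exact ⟨u ^ 4 * m - A' * n, by linear_combination u ^ 4 * hm - A' * hn⟩
  have hB128 : (128 : ℤ) ∣ B' - u ^ 6 * b := by
    obtain ⟨m, hm⟩ := h128.trans (dvd_fiveC6_sub a b hx2 hy2)
    obtain ⟨n, hn⟩ := huw.trans (sub_one_dvd_pow_sub_one (w ^ 5 * u) 6)
    rw [hFB] at hm
    exact ⟨u ^ 6 * m - B' * n, by linear_combination u ^ 6 * hm - B' * hn⟩
  obtain ⟨V, hV4, hV6, hVΔ, hred⟩ := exists_model_of_congr_two (scaledModel W u) hrel
    (by rw [scaledModel_c₄]; exact hA128) (by rw [scaledModel_c₆]; exact hB128) h27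
  have hu2 : (2 : ℤ) ∣ u - 1 :=
    (show (2 : ℤ) ∣ 43 - 1 by norm_num).trans (sub_one_dvd_pow_sub_one _ _)
  have hVΔ0 : V.Δ ≠ 0 := hVΔ ▸ mul_ne_zero hΔ (pow_ne_zero 5 hD'0)
  have hdvdD : D' ∣ fiveD a b x y := Dvd.intro_left _ hFD.symm
  have hdvdA : A' ∣ fiveC4 a b x y := Dvd.intro_left _ hFA.symm
  have hy5 : (5 : ℤ) ∣ y := (hy₀5.mul_left ((2 : ℤ) ^ 64)).mul_left e
  have hgood : ∀ q : ℕ, q.Prime → (q : ℤ) ∣ y₀ → ¬ (q : ℤ) ∣ D' := fun q hq hqy h => by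
    have h1 := dvd_fiveD_sub_one a b (hqy.trans hx1) ((hqy.mul_left ((2 : ℤ) ^ 64)).mul_left e)
    exact (Nat.prime_iff_prime_int.1 hq).not_isUnit
      (isUnit_of_dvd_one ((dvd_sub_right (h.trans hdvdD)).1 h1))
  have hV2 : ¬ (2 : ℤ) ∣ V.Δ := by
    rw [hVΔ]
    exact fun h => (Int.prime_two.dvd_or_dvd h).elim hg2
      fun h => hD2 (Int.prime_two.dvd_of_dvd_pow h)
  refine ⟨V, hVΔ0, fun q hq hqΔ hqc => ?_, hV2, hVΔ ▸ dvd_mul_right _ _, ?_, ?_,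
    fun hg => ?_, fun hg => ?_, fun ℓ hℓ hg hg' hℓ5 => ?_⟩
  · have hq' : Prime (q : ℤ) := Nat.prime_iff_prime_int.mp hq
    rcases eq_or_ne q 2 with rfl | hq2
    · exact hV2 (by exact_mod_cast hqΔ)
    rw [hVΔ] at hqΔ
    rw [hV4] at hqc
    rcases eq_or_ne q 3 with rfl | hq3
    · have h3D : (3 : ℤ) ∣ D' := (hq'.dvd_or_dvd hqΔ).elim
        (fun h' => absurd (by exact_mod_cast h') hg3)
        fun h' => by exact_mod_cast hq'.dvd_of_dvd_pow h'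
      exact hcase.elim (fun h => h.2 (by exact_mod_cast hqc)) fun h => h.1 h3D
    by_cases hqy : (q : ℤ) ∣ y
    · have hqy₀ : (q : ℤ) ∣ y₀ := by
        refine (hq'.dvd_or_dvd ((hq'.dvd_or_dvd hqy).resolve_left
          fun h => hq3 (he' q hq h))).resolve_left fun h => hq2 ?_
        exact (Nat.prime_dvd_prime_iff_eq hq Nat.prime_two).1
          (hq.dvd_of_dvd_pow (n := 64) (by exact_mod_cast h))
      rcases hq'.dvd_or_dvd hqΔ with h | h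
      · exact hW q hq h ((dvd_sub_right (hqc.trans hdvdA)).1
          (dvd_fiveC4_sub a b (hqy₀.trans hx1) hqy))
      · exact hgood q hq hqy₀ (hq'.dvd_of_dvd_pow h)
    · have hqΔ' : ¬ (q : ℤ) ∣ W.Δ := fun h =>
        hqy (((hy₀Δ q hq hq2 hq3 h).mul_left ((2 : ℤ) ^ 64)).mul_left e)
      have key := fiveRes_identity a b x y
      rw [← W.c_relation] at key
      have hd : (q : ℤ) ∣ 2 ^ 26 * 3 ^ 12 * 5 ^ 5 * (1728 * W.Δ) ^ 6 * y ^ 31 :=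
        key ▸ (((hq'.dvd_of_dvd_pow
          ((hq'.dvd_or_dvd hqΔ).resolve_left hqΔ')).trans hdvdD).mul_left _).add
          ((hqc.trans hdvdA).mul_left _)
      have n2 : ¬ (q : ℤ) ∣ 2 := fun h =>
        hq2 ((Nat.prime_dvd_prime_iff_eq hq Nat.prime_two).1 (by exact_mod_cast h))
      have n3 : ¬ (q : ℤ) ∣ 3 := fun h =>
        hq3 ((Nat.prime_dvd_prime_iff_eq hq Nat.prime_three).1 (by exact_mod_cast h))
      have n5 : ¬ (q : ℤ) ∣ 5 := fun h => hqy (h.trans hy5)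
      have n1728 : ¬ (q : ℤ) ∣ 2 ^ 6 * 3 ^ 3 := fun h => (hq'.dvd_or_dvd h).elim
        (fun h => n2 (hq'.dvd_of_dvd_pow h)) fun h => n3 (hq'.dvd_of_dvd_pow h)
      rcases hq'.dvd_or_dvd hd with hd | hd
      · rcases hq'.dvd_or_dvd hd with hd | hd
        · rcases hq'.dvd_or_dvd hd with hd | hd
          · exact (hq'.dvd_or_dvd hd).elim (fun h => n2 (hq'.dvd_of_dvd_pow h))
              fun h => n3 (hq'.dvd_of_dvd_pow h)
          · exact n5 (hq'.dvd_of_dvd_pow hd)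
        · exact (hq'.dvd_or_dvd (hq'.dvd_of_dvd_pow hd)).elim n1728 hqΔ'
      · exact hqy (hq'.dvd_of_dvd_pow hd)
  · rw [hV4]
    have h := ((show (32 : ℤ) ∣ 128 by norm_num).trans hA128).add (h32.mul_left (u ^ 4))
    rwa [sub_add_cancel] at h
  · simp only [WeierstrassCurve.apOfModel, hred, scaledModel_reductionMod_two W hu2]
  · show ¬ ((5 : ℕ) : ℤ) ∣ V.Δ
    rw [hVΔ]
    intro h
    have h5 : Prime ((5 : ℕ) : ℤ) := Nat.prime_iff_prime_int.1 Nat.prime_five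
    exact (h5.dvd_or_dvd h).elim hg fun h => hgood 5 Nat.prime_five hy₀5 (h5.dvd_of_dvd_pow h)
  · rw [hV4]
    refine hcase.elim (fun h => absurd ?_ hg) fun h => h.2
    show ((3 : ℕ) : ℤ) ∣ V.Δ
    rw [hVΔ]
    exact dvd_mul_of_dvd_right (dvd_pow (by exact_mod_cast h.1) (by norm_num)) _
  · set f := Int.castRingHom ℚ
    have hx0 : x ≠ 0 := by
      rintro rfl
      have h : (5 : ℤ) ∣ 0 - 1 := hy₀5.trans hx1
      norm_num at h
    have hwQ : (w : ℚ) ≠ 0 := Int.cast_ne_zero.mpr hw0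
    obtain ⟨φ, hφ⟩ := exists_torsionFive_equiv (W.map f) (V.map f)
      (by rw [WeierstrassCurve.map_Δ]; exact (map_ne_zero_iff f f.injective_int).mpr hΔ)
      (by rw [WeierstrassCurve.map_Δ]; exact (map_ne_zero_iff f f.injective_int).mpr hVΔ0)
      ((x : ℚ) / w) ((y : ℚ) / w) (div_ne_zero (Int.cast_ne_zero.mpr hx0) hwQ)
      (by
        rw [WeierstrassCurve.map_c₆]
        exact (map_ne_zero_iff f f.injective_int).mpr (c₆_ne_zero_of_isSemistableModel W hW))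
      (by
        rw [WeierstrassCurve.map_c₄, WeierstrassCurve.map_c₄, WeierstrassCurve.map_c₆, hV4]
        refine mul_left_cancel₀ (pow_ne_zero 20 hwQ) ?_
        rw [← fiveC4_homog, mul_div_cancel₀ _ hwQ, mul_div_cancel₀ _ hwQ]
        have h := congrArg f hFA
        rw [map_fiveC4, map_mul f (w ^ _) A', map_pow] at h
        exact h.symm)
      (by
        rw [WeierstrassCurve.map_c₄, WeierstrassCurve.map_c₆, WeierstrassCurve.map_c₆, hV6]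
        refine mul_left_cancel₀ (pow_ne_zero 30 hwQ) ?_
        rw [← fiveC6_homog, mul_div_cancel₀ _ hwQ, mul_div_cancel₀ _ hwQ]
        have h := congrArg f hFB
        rw [map_fiveC6, map_mul f (w ^ _) B', map_pow] at h
        exact h.symm)
    exact_mod_cast dvd_apOfModel_sub_of_torsion_equiv (traceIsAp Nat.prime_five) W V φ hφ hℓ hℓ5
      hg hg'

/-- The switch at `5` of a curve good at `2`. -/
theorem fiveSwitchGoodTwo : FiveSwitchGoodTwo := by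
  intro W hΔ hW h2 _
  obtain ⟨V, hVΔ, hV, hV2, hdvd, h32, hap, hg5, hkeep3, hsup3, hcong⟩ :
      ∃ V : WeierstrassCurve ℤ, V.Δ ≠ 0 ∧ V.IsSemistableModel ∧ ¬ (2 : ℤ) ∣ V.Δ ∧ W.Δ ∣ V.Δ ∧
        ((32 : ℤ) ∣ V.c₄ ↔ (32 : ℤ) ∣ W.c₄) ∧ V.apOfModel 2 = W.apOfModel 2 ∧
        (W.IsGoodPrimeFor 5 → V.IsGoodPrimeFor 5) ∧
        (¬ (32 : ℤ) ∣ W.c₄ → W.IsGoodPrimeFor 3 → V.IsGoodPrimeFor 3) ∧
        ((32 : ℤ) ∣ W.c₄ → V.IsGoodPrimeFor 3 → (3 : ℤ) ∣ V.c₄) ∧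
        ∀ ℓ : ℕ, ℓ.Prime → W.IsGoodPrimeFor ℓ → V.IsGoodPrimeFor ℓ → ℓ ≠ 5 →
          (5 : ℤ) ∣ (V.apOfModel ℓ - W.apOfModel ℓ) := by
    by_cases hmove : (32 : ℤ) ∣ W.c₄ ∧ ¬ (3 : ℤ) ∣ W.Δ
    · obtain ⟨V, hVΔ, hV, hV2, hdvd, h32, hap, hg5, hsup3, hcong⟩ :=
        exists_five_model_good_two W hΔ hW h2 hmove.1 hmove.2
      exact ⟨V, hVΔ, hV, hV2, hdvd, iff_of_true h32 hmove.1, hap, hg5,
        fun h => absurd hmove.1 h, fun _ => hsup3, hcong⟩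
    · exact ⟨W, hΔ, hW, h2, dvd_rfl, Iff.rfl, rfl, id, fun _ => id,
        fun h hg => absurd ⟨h, by exact_mod_cast hg⟩ hmove,
        fun ℓ _ _ _ _ => by rw [sub_self]; exact dvd_zero _⟩
  by_cases hroot : ∀ Y : ℚ, qf (V.c₄ : ℚ) (V.c₆ : ℚ) Y ≠ 0
  · exact ⟨V, hVΔ, hV, hV2, modRepIsIrreducible_three_of_forall V hVΔ hroot, hdvd, h32, hap, hg5,
      hkeep3, hsup3, hcong⟩
  push Not at hroot
  obtain ⟨y₁, hy₁⟩ := hroot
  set M : ℤ := 10368 * 5 * V.Δ with hM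
  have h10368 : (10368 : ℤ) ∣ M := ⟨5 * V.Δ, by rw [hM]; ring⟩
  have h5 : (5 : ℤ) ∣ M := ⟨10368 * V.Δ, by rw [hM]; ring⟩
  obtain ⟨x, hxM, hxy, hirr⟩ := exists_fiveModel_irreducible_three V hVΔ hy₁ (M := M)
    (mul_ne_zero (by norm_num) hVΔ) h10368
  have hx : (10368 : ℤ) ∣ x - 1 := h10368.trans hxM
  have hgood : ∀ p : ℕ, p.Prime → (p : ℤ) ∣ M → V.IsGoodPrimeFor p →
      (fiveModel V x M).IsGoodPrimeFor p := fun p hp hpM hg =>
    (fiveModel_isGoodPrimeFor_iff V hp hx h10368).mpr ⟨hg, fun h =>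
      (Nat.prime_iff_prime_int.1 hp).not_isUnit (isUnit_of_dvd_one
        ((dvd_sub_right h).1 (dvd_fiveD_sub_one V.c₄ V.c₆ (hpM.trans hxM) hpM)))⟩
  have h2M : ((2 : ℕ) : ℤ) ∣ M := (show ((2 : ℕ) : ℤ) ∣ 10368 by norm_num).trans h10368
  have h3M : ((3 : ℕ) : ℤ) ∣ M := (show ((3 : ℕ) : ℤ) ∣ 10368 by norm_num).trans h10368
  have hc4 : ∀ n : ℤ, n ∣ 10368 → (n ∣ (fiveModel V x M).c₄ ↔ n ∣ V.c₄) := fun n hn => by
    have h := hn.trans (dvd_fiveC4_sub V.c₄ V.c₆ hx h10368)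
    rw [← fiveModel_c₄ V hx h10368] at h
    exact dvd_iff_dvd_of_dvd_sub h
  have hg2' : (fiveModel V x M).IsGoodPrimeFor 2 :=
    hgood 2 Nat.prime_two h2M (by exact_mod_cast hV2)
  refine ⟨fiveModel V x M, fiveModel_Δ_ne_zero V hVΔ hx h10368,
    fiveModel_isSemistableModel V hV hx h10368 h5 (dvd_mul_left _ _) hxy,
    by exact_mod_cast hg2', hirr, ?_, (hc4 32 (by norm_num)).trans h32,
    (fiveModel_apOfModel V (by norm_num)).trans hap,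
    fun hg => hgood 5 Nat.prime_five (by exact_mod_cast h5) (hg5 hg),
    fun h hg => hgood 3 Nat.prime_three h3M (hkeep3 h hg),
    fun h hg => (hc4 3 (by norm_num)).mpr
      (hsup3 h ((fiveModel_isGoodPrimeFor_iff V Nat.prime_three hx h10368).mp hg).1),
    fun ℓ hℓ hg hg' hℓ5 => ?_⟩
  · rw [fiveModel_Δ V hx h10368]
    exact hdvd.mul_right _
  · have hgV : V.IsGoodPrimeFor ℓ := ((fiveModel_isGoodPrimeFor_iff V hℓ hx h10368).mp hg').1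
    simpa using (fiveModel_dvd_apOfModel_sub V hVΔ hV hx h10368 hℓ hℓ5 hgV hg').add
      (hcong ℓ hℓ hg hgV hℓ5)

end Fermat.Agent.Semistable
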