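import Fermat.Agent.GoodTwo.HesseTwo

/-!
# The Hesse family of a curve multiplicative at `2` with unramified `3`-torsion

When the valuation at `2` of the discriminant is `3m`, the class `(-b : a)` modulo `2 ^ (6 m + 24)`
gives, after scaling by `2 ^ (m + 2)`, members with good supersingular reduction at `2`; for
`0 < m` they satisfy `32 ∣ c₄`.
-/

set_option autoImplicit false

namespace Fermat.Agent.Semistable

open Fermat.Agent.TwoAdic

/-- The class at `2` of the switch from multiplicative to good supersingular reduction. -/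
theorem hesse_class_goodTwo {a b D d : ℤ} {m : ℕ} (hrel : a ^ 3 - b ^ 2 = 1728 * D) (ha : Odd a)
    (hb : b % 4 = 3) (hD : D = 2 ^ (3 * m) * d) (hd : ¬ (2 : ℤ) ∣ d) {s t : ℤ}
    (hs : (2 : ℤ) ^ (6 * m + 24) ∣ s + b) (ht : (2 : ℤ) ^ (6 * m + 24) ∣ t - a) :
    ∃ C4 C6 D' : ℤ, hesseC4 a b s t = ((2 : ℤ) ^ (m + 2)) ^ 4 * C4 ∧
      hesseC6 a b s t = ((2 : ℤ) ^ (m + 2)) ^ 6 * C6 ∧
      D * hesseD a b s t ^ 3 = ((2 : ℤ) ^ (m + 2)) ^ 12 * D' ∧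
      (16 : ℤ) ∣ C4 ∧ (0 < m → (32 : ℤ) ∣ C4) ∧ C6 % 32 = 8 ∧ ¬ (2 : ℤ) ∣ D' := by
  obtain ⟨⟨x, hx⟩, ⟨y, hy⟩, ⟨z, hz⟩⟩ :=
    dvd_hesse_sub (a := a) (b := b) (s := s) (t := t) (s' := -b) (t' := a)
      (n := 2 ^ (6 * m + 24)) (by simpa using hs) ht
  have hpow : (2 : ℤ) ^ (6 * m + 24) = ((2 : ℤ) ^ (3 * m)) ^ 2 * 2 ^ 24 := by
    rw [← pow_mul, ← pow_add]; congr 1; ring
  rw [hpow] at hx hy hz
  set P : ℤ := 2 ^ (3 * m) with hP
  set Q : ℤ := 2 ^ m with hQ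
  have hPQ : P = Q ^ 3 := by rw [hP, hQ, ← pow_mul, mul_comm]
  set v : ℤ := 27 * d with hv
  set w : ℤ := P * v with hw
  have hA : a ^ 3 = b ^ 2 + 64 * w := by
    rw [hw, hv]; linear_combination hrel + 1728 * hD
  have hvodd : Odd v := (by decide : Odd (27 : ℤ)).mul
    (Int.not_even_iff_odd.1 fun h => hd (even_iff_two_dvd.1 h))
  have hbodd : Odd b := Int.odd_iff.2 (by omega)
  have hd0 : hesseD a b (-b) a = 2 ^ 8 * (-(w * (b ^ 2 + 48 * w))) := by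
    rw [show hesseD a b (-b) a = b ^ 4 + 2 * b ^ 2 * a ^ 3 - 3 * (a ^ 3) ^ 2 by
      simp only [hesseD]; ring, hA]
    ring
  have hc0 : hesseC4 a b (-b) a = 4 ^ 4 * (-48 * (a * w ^ 2)) := by
    rw [show hesseC4 a b (-b) a = -3 * a * (a ^ 3 - b ^ 2) ^ 2 by simp only [hesseC4]; ring, hA]
    ring
  have hc0' : hesseC6 a b (-b) a = 4 ^ 6 * (-8 * (b * w ^ 2 * (b ^ 2 + 72 * w))) := by
    rw [show hesseC6 a b (-b) a =
      -b * (a ^ 3 - b ^ 2) ^ 2 * (8 * b ^ 2 + 9 * (a ^ 3 - b ^ 2)) by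
        simp only [hesseC6]; ring, hA]
    ring
  set o : ℤ := -(v * (b ^ 2 + 48 * w)) + 2 ^ 16 * (P * x) with ho
  have hoo : Odd o := by
    rw [ho]
    exact ((hvodd.mul ((hbodd.pow).add_even ⟨24 * w, by ring⟩)).neg).add_even
      ⟨2 ^ 15 * (P * x), by ring⟩
  refine ⟨-48 * (a * v ^ 2) * Q ^ 2 + 2 ^ 16 * Q ^ 2 * y,
    -8 * (b * v ^ 2 * (b ^ 2 + 72 * w)) + 2 ^ 12 * z, d * o ^ 3, ?_, ?_, ?_, ?_, ?_, ?_, ?_⟩
  · rw [show ((2 : ℤ) ^ (m + 2)) = Q * 4 by rw [hQ, pow_add]; norm_num]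
    rw [hc0, hw, hPQ] at hy
    linear_combination hy
  · rw [show ((2 : ℤ) ^ (m + 2)) = Q * 4 by rw [hQ, pow_add]; norm_num]
    rw [hc0', hw, hPQ] at hz
    rw [hw, hPQ]
    linear_combination hz
  · have hh : hesseD a b s t = 2 ^ 8 * (P * o) := by
      rw [hd0, hw] at hx
      rw [ho, hw]
      linear_combination hx
    rw [hh, hD, show ((2 : ℤ) ^ (m + 2)) = Q * 4 by rw [hQ, pow_add]; norm_num, hPQ]
    ring
  · exact ⟨-3 * (a * v ^ 2) * Q ^ 2 + 2 ^ 12 * Q ^ 2 * y, by ring⟩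
  · intro hm
    obtain ⟨r, hr⟩ : (2 : ℤ) ∣ Q := dvd_pow_self 2 hm.ne'
    exact ⟨-6 * (a * v ^ 2) * r ^ 2 + 2 ^ 13 * r ^ 2 * y, by rw [hr]; ring⟩
  · have h : (b * v ^ 2 * (b ^ 2 + 72 * w)) % 4 = 3 := by
      refine (intCast_eq_iff_emod _ 4 3 (by norm_num)).1 ?_
      push_cast
      have hv2 : (v : ZMod 4) = 1 ∨ (v : ZMod 4) = 3 := by
        rw [Int.odd_iff] at hvodd
        rcases (show v % 4 = 1 ∨ v % 4 = 3 by omega) with h | h
        · exact Or.inl ((intCast_eq_iff_emod v 4 1 (by norm_num)).2 h)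
        · exact Or.inr ((intCast_eq_iff_emod v 4 3 (by norm_num)).2 h)
      rw [(intCast_eq_iff_emod b 4 3 (by norm_num)).2 hb]
      generalize (w : ZMod 4) = e
      rcases hv2 with h | h <;> rw [h] <;> revert e <;> decide
    omega
  · intro h
    rcases Int.prime_two.dvd_or_dvd h with h | h
    · exact hd h
    · exact Int.not_even_iff_odd.2 hoo (even_iff_two_dvd.2 (Int.prime_two.dvd_of_dvd_pow h))

end Fermat.Agent.Semistable
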