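/-
The switch at `3` of a curve multiplicative at `2` whose `E[3]` is unramified at `2`, to a curve
good at `2`.
-/
import Fermat.Agent.GoodTwo.ThreeSwitch
import Fermat.Agent.Semistable.HesseTwoMult

set_option autoImplicit false

namespace Fermat.Agent.Semistable

open Fermat.Agent.TwoAdic Fermat.Agent.GoodTwo WeierstrassCurve

/-- An integral model with `c₄` odd has `c₆ ≡ 3 (mod 4)`. -/
theorem c₆_emod_four_of_odd_c₄ (W : WeierstrassCurve ℤ) (h : Odd W.c₄) : W.c₆ % 4 = 3 := by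
  have hb : Odd W.b₂ := by
    rw [WeierstrassCurve.c₄, Int.odd_sub, Int.odd_pow' two_ne_zero] at h
    exact h.2 ⟨12 * W.b₄, by ring⟩
  have ha : Odd W.a₁ := by
    rw [WeierstrassCurve.b₂, Int.odd_add, Int.odd_pow' two_ne_zero] at hb
    exact hb.2 ⟨2 * W.a₂, by ring⟩
  obtain ⟨j, hj⟩ := ha
  have e : W.c₆ = 4 * (-(16 * (j * j + j + W.a₂) ^ 3) - 12 * (j * j + j + W.a₂) ^ 2
      - 3 * (j * j + j + W.a₂) + 9 * W.b₂ * W.b₄ - 54 * W.b₆ - 1) + 3 := by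
    have hb2 : W.b₂ = 4 * (j * j + j + W.a₂) + 1 := by
      rw [WeierstrassCurve.b₂, hj]; ring
    rw [WeierstrassCurve.c₆, hb2]
    ring
  omega

/-- The switch at `3` of a curve multiplicative at `2` with `E[3]` unramified there. -/
theorem threeSwitchTwo (W : WeierstrassCurve ℤ) (hΔ : W.Δ ≠ 0) (hW : W.IsSemistableModel)
    (h3 : W.ModRepIsIrreducible 3) (h2D : (2 : ℤ) ∣ W.Δ) (hv : 3 ∣ padicValInt 2 W.Δ) :
    ∃ V : WeierstrassCurve ℤ, V.Δ ≠ 0 ∧ V.IsSemistableModel ∧ ¬ (2 : ℤ) ∣ V.Δ ∧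
      (32 : ℤ) ∣ V.c₄ ∧ V.ModRepIsIrreducible 3 ∧ V.ModRepIsIrreducible 5 ∧
      (W.IsGoodPrimeFor 3 → V.IsGoodPrimeFor 3) ∧
      ∀ ℓ : ℕ, ℓ.Prime → ℓ ≠ 3 → W.IsGoodPrimeFor ℓ → V.IsGoodPrimeFor ℓ →
        (3 : ℤ) ∣ (V.apOfModel ℓ - W.apOfModel ℓ) := by
  classical
  set a := W.c₄ with hadef
  set b := W.c₆ with hbdef
  set D := W.Δ with hDdef
  have hrel : a ^ 3 - b ^ 2 = 1728 * D := W.c_relation.symm
  have ha0 : a ≠ 0 := c₄_ne_zero_of_isSemistableModel W hΔ hW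
  have hab : a ^ 3 ≠ b ^ 2 := fun h => hΔ (by
    have : (1728 : ℤ) * D = 0 := by rw [← hrel, h, sub_self]
    simpa using this)
  have haodd : Odd a := Int.not_even_iff_odd.1 fun h =>
    hW 2 Nat.prime_two (by exact_mod_cast h2D) (by exact_mod_cast even_iff_two_dvd.1 h)
  obtain ⟨k, hk⟩ := hv
  obtain ⟨d, hd⟩ : ((2 : ℕ) : ℤ) ^ (3 * k) ∣ D := hk ▸ padicValInt_dvd D
  have hd2 : ¬ (2 : ℤ) ∣ d := by
    rintro ⟨e, rfl⟩
    have : Fact (Nat.Prime 2) := ⟨Nat.prime_two⟩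
    have h := (padicValInt_dvd_iff (p := 2) (3 * k + 1) D).1 ⟨e, by rw [hd]; push_cast; ring⟩
    exact h.elim hΔ (fun h => by omega)
  have hk1 : 1 ≤ k := by
    rcases Nat.eq_zero_or_pos k with rfl | h
    · exact absurd (by simpa [hd] using h2D) hd2
    · exact h
  push_cast at hd
  set u : ℤ := 2 ^ (k + 2) with hudef
  set U : ℕ := (2 ^ (k + 2)) ^ 12 with hUdef
  have hU12 : u ^ 12 = (U : ℤ) := by rw [hudef, hUdef]; push_cast; rfl
  set S : Finset ℕ := (6 * D).natAbs.primeFactors with hS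
  have h6D : (6 * D).natAbs ≠ 0 := by simpa using hΔ
  have hmem : ∀ q : ℕ, q.Prime → (q ∈ S ↔ q = 2 ∨ q = 3 ∨ (q : ℤ) ∣ D) := fun q hq => by
    rw [hS, Nat.mem_primeFactors_of_ne_zero h6D, ← Int.natCast_dvd,
      (Nat.prime_iff_prime_int.1 hq).dvd_mul]
    refine ⟨fun h => ?_, fun h => ⟨hq, ?_⟩⟩
    · rcases h.2 with h | h
      · have h6 : q ∣ 2 * 3 := by exact_mod_cast h
        rcases hq.dvd_mul.1 h6 with h | h
        · exact Or.inl ((Nat.prime_dvd_prime_iff_eq hq Nat.prime_two).1 h)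
        · exact Or.inr (Or.inl ((Nat.prime_dvd_prime_iff_eq hq Nat.prime_three).1 h))
      · exact Or.inr (Or.inr h)
    · rcases h with rfl | rfl | h
      · exact Or.inl (by norm_num)
      · exact Or.inl (by norm_num)
      · exact Or.inr h
  set m : ℕ → ℤ := fun q => (q : ℤ) ^ (if q = 2 then 6 * k + 24 else 3) with hmdef
  set cls : ℕ → ℤ × ℤ := fun q => if q = 2 then (-b, a) else switchClassOdd a b D q
    with hclsdef
  have hcop : ∀ p ∈ S, ∀ q ∈ S, p ≠ q → IsCoprime (m p) (m q) := fun p hp q hq hne =>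
    (Int.isCoprime_iff_gcd_eq_one.2 (by
      simpa [Int.gcd_natCast_natCast] using (Nat.coprime_primes (Nat.prime_of_mem_primeFactors hp)
        (Nat.prime_of_mem_primeFactors hq)).2 hne)).pow
  obtain ⟨a₀, ha₀⟩ := exists_forall_dvd_sub_of_coprime S m (fun q => (cls q).1) hcop
  obtain ⟨b₀, hb₀⟩ := exists_forall_dvd_sub_of_coprime S m (fun q => (cls q).2) hcop
  set M : ℤ := ∏ q ∈ S, m q with hMdef
  have hM0 : M ≠ 0 := Finset.prod_ne_zero_iff.2 fun q hq =>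
    pow_ne_zero _ (by exact_mod_cast (Nat.prime_of_mem_primeFactors hq).ne_zero)
  have hMS : ∀ q : ℕ, q.Prime → (q : ℤ) ∣ M → q ∈ S := fun q hq hd => by
    obtain ⟨p, hp, hpd⟩ := (Nat.prime_iff_prime_int.1 hq).exists_mem_finset_dvd hd
    have hqp : q ∣ p :=
      Int.natCast_dvd_natCast.1 ((Nat.prime_iff_prime_int.1 hq).dvd_of_dvd_pow hpd)
    rwa [(Nat.prime_dvd_prime_iff_eq hq (Nat.prime_of_mem_primeFactors hp)).1 hqp]
  have hmS : ∀ q ∈ S, m q ∣ M := fun q hq => Finset.dvd_prod_of_mem m hq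
  have hqm : ∀ q : ℕ, (q : ℤ) ∣ m q := fun q => dvd_pow_self _ (by split_ifs <;> omega)
  have hprim : ∀ q : ℕ, q.Prime → (q : ℤ) ∣ M → ¬ ((q : ℤ) ∣ a₀ ∧ (q : ℤ) ∣ b₀) := by
    intro q hq hd ⟨h1, h2⟩
    have hqS := hMS q hq hd
    have h1' : (q : ℤ) ∣ (cls q).1 := (dvd_sub_right h1).1 ((hqm q).trans (ha₀ q hqS))
    have h2' : (q : ℤ) ∣ (cls q).2 := (dvd_sub_right h2).1 ((hqm q).trans (hb₀ q hqS))
    simp only [hclsdef] at h1' h2'
    split_ifs at h1' h2' with hq2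
    · subst hq2
      exact Int.not_even_iff_odd.2 haodd (even_iff_two_dvd.2 (by exact_mod_cast h2'))
    · unfold switchClassOdd at h1' h2'
      split_ifs at h1' h2' with hev
      · exact (Nat.prime_iff_prime_int.1 hq).not_dvd_one h2'
      · exact (Nat.prime_iff_prime_int.1 hq).not_dvd_one h1'
  obtain ⟨α, β, hαβ, R, hR, hcone⟩ := exists_cone hrel hΔ ha0
  set K4 : ℤ := |a| * R ^ 4 + 4 * |b| * R ^ 3 + 6 * a ^ 2 * R ^ 2 + 4 * |a * b| * R
    + |-3 * a ^ 3 + 4 * b ^ 2| with hK4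
  have hK4pos : 0 ≤ K4 := by rw [hK4]; positivity
  set E : ℕ := D.natAbs with hEdef
  have hE0 : E ≠ 0 := Int.natAbs_ne_zero.2 hΔ
  set X : ℕ := 20 * (E ^ 4) ^ 2 + 125 * E + 64 * K4.natAbs ^ 3 * (E ^ 4) ^ 6 with hX
  obtain ⟨s, t, hsM, htM, hst, hBt, ht0, hsα, hsβ, hD0, hsq⟩ :=
    exists_coprime_quarticForm_sqfreeOutside (c₁ := 0) (c₂ := -6 * a) (c₃ := -8 * b)
      (c₄ := -3 * a ^ 2) (S := S) one_ne_zero (squarefree_hessePoly ha0 hab) hM0 hprim hMS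
      (fun q hq _ => ⟨1, 0, fun h => (Nat.prime_iff_prime_int.1 hq).not_dvd_one h.1, fun h => by
        rw [show quarticForm (1 : ℤ) 0 (-6 * a) (-8 * b) (-3 * a ^ 2) 1 0 = 1 by
          simp [quarticForm]] at h
        exact (Nat.prime_iff_prime_int.1 hq).not_dvd_one
          ((dvd_pow_self _ two_ne_zero).trans h)⟩)
      hαβ ((U : ℤ) ^ 6 * X)
  simp only [← hesseD_eq_quarticForm] at hD0 hsq
  obtain ⟨hs0, hsR, -, hsize⟩ := hcone s t ht0 hsα hsβ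
  have hclass : ∀ q ∈ S, m q ∣ s - (cls q).1 ∧ m q ∣ t - (cls q).2 := fun q hq =>
    ⟨by simpa using ((hmS q hq).trans hsM).add (ha₀ q hq),
      by simpa using ((hmS q hq).trans htM).add (hb₀ q hq)⟩
  have hclass2 := hclass 2 ((hmem 2 Nat.prime_two).2 (Or.inl rfl))
  simp only [hmdef, hclsdef, ↓reduceIte, Nat.cast_ofNat] at hclass2
  obtain ⟨C4, C6, D', h4, h6, hΔ', h16, h32, h832, h2'⟩ :=
    hesse_class_goodTwo hrel haodd (c₆_emod_four_of_odd_c₄ W haodd) hd hd2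
      (s := s) (t := t) (by simpa using hclass2.1) hclass2.2
  have hu0 : u ≠ 0 := pow_ne_zero _ two_ne_zero
  have hqu : ∀ q : ℕ, q.Prime → q ≠ 2 → ¬ (q : ℤ) ∣ u := fun q hq h2 hdu =>
    prime_int_not_dvd hq Nat.prime_two h2
      ((Nat.prime_iff_prime_int.1 hq).dvd_of_dvd_pow (n := k + 2)
        (by rw [hudef] at hdu; exact_mod_cast hdu))
  have hu3 : IsCoprime (3 : ℤ) u := (show IsCoprime (3 : ℤ) 2 from ⟨1, -1, by norm_num⟩).pow_right
  have hD'0 : D' ≠ 0 := fun h => by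
    rw [h, mul_zero] at hΔ'
    exact mul_ne_zero hΔ (pow_ne_zero 3 hD0) hΔ'
  have hrel' : C4 ^ 3 - C6 ^ 2 = 1728 * D' := by
    apply mul_left_cancel₀ (pow_ne_zero 12 hu0)
    have h := hesseC4_cube_sub_hesseC6_sq a b s t
    rw [h4, h6, hrel] at h
    linear_combination h + 1728 * hΔ'
  have hthree : ¬ (3 : ℤ) ∣ D → ¬ (3 : ℤ) ∣ D' ∧ (¬ (3 : ℤ) ∣ C4 ∨ 27 ∣ C6) ∧
      ((3 : ℤ) ∣ C4 ∨ D' % 3 = 2) := by
    intro h3D
    have h := hclass 3 ((hmem 3 Nat.prime_three).2 (Or.inr (Or.inl rfl)))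
    simp only [hmdef, hclsdef, show (3 : ℕ) ≠ 2 by norm_num, ↓reduceIte] at h
    exact switch_three_good h3D hu3 h4 h6 hΔ' (by simpa using h.1) (by simpa using h.2)
  have hloc : ∀ q : ℕ, q.Prime → q ≠ 2 → padicValInt q D' ≤ padicValInt q D + 3 ∧
      ((q : ℤ) ∣ D' → ¬ (q : ℤ) ∣ C4) ∧ ((q : ℤ) ∣ D → ¬ (q : ℤ) ∣ C4) := fun q hq h2 =>
    switch_prime hΔ hW hq h2 hst (hqu q hq h2) h4 hΔ' hD0 hD'0 hu0
      (fun h => by simpa [hmdef, hclsdef, h2] using hclass q ((hmem q hq).2 (Or.inr (Or.inr h))))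
      (fun h3q hD => (hthree (by subst h3q; exact_mod_cast hD)).1)
      (fun h => hsq q hq fun hS => h (((hmem q hq).1 hS).resolve_left h2))
  have hkraus : ¬ (3 : ℤ) ∣ C4 ∨ 27 ∣ C6 := by
    by_cases h3D : (3 : ℤ) ∣ D
    · exact Or.inl ((hloc 3 Nat.prime_three (by norm_num)).2.2 h3D)
    · exact (hthree h3D).2.1
  obtain ⟨V, hV4, hV6, hVΔ⟩ := exists_model_supersingular C4 C6 D' hrel' h16 h832 hkraus
  have hV0 : V.Δ ≠ 0 := by rwa [hVΔ]
  have hss : V.IsSemistableModel := by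
    intro q hq hdq
    rw [hVΔ] at hdq
    rw [hV4]
    by_cases h2 : q = 2
    · subst h2
      exact absurd (by exact_mod_cast hdq) h2'
    · exact (hloc q hq h2).2.1 hdq
  have hc := c₄_ne_zero_of_isSemistableModel W hΔ hW
  have hc' := c₄_ne_zero_of_isSemistableModel V hV0 hss
  rw [← hV4] at h4
  rw [← hV6] at h6
  refine ⟨V, hV0, hss, by rwa [hVΔ], by rw [hV4]; exact h32 hk1,
    modRepIsIrreducible_three_of_member W V hΔ hV0 hc hc' hu0 h4 h6 h3, ?_,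
    fun hg hd => (hthree hg).1 (by rw [← hVΔ]; exact hd),
    fun ℓ hℓ hℓ3 hg hg' =>
      dvd_apOfModel_sub_of_member W V hΔ hV0 hc hc' hu0 h4 h6 hℓ hℓ3 hg hg'⟩
  -- valuations and sizes
  have hfac : ∀ p : ℕ, p.Prime → D'.natAbs.factorization p ≤ E.factorization p + 3 := by
    intro p hp
    rw [hEdef, Nat.factorization_def _ hp, Nat.factorization_def _ hp]
    rcases eq_or_ne p 2 with rfl | hp2
    · rw [padicValNat.eq_zero_of_not_dvd (fun h => h2' (Int.natCast_dvd.2 h))]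
      exact Nat.zero_le _
    · exact (hloc p hp hp2).1
  have hu12' : 0 ≤ u ^ 12 := by positivity
  have hbigD : (t.natAbs ^ 4) ^ 3 ≤ U * D'.natAbs := by
    have h : (t ^ 4) ^ 3 ≤ (U : ℤ) * |D'| :=
      calc (t ^ 4) ^ 3 = 1 * (t ^ 4) ^ 3 := (one_mul _).symm
        _ ≤ |D| * |hesseD a b s t| ^ 3 := by
          gcongr
          exact Int.one_le_abs hΔ
        _ = |u ^ 12 * D'| := by rw [← hΔ', abs_mul, abs_pow]
        _ = u ^ 12 * |D'| := by rw [abs_mul, abs_of_nonneg hu12']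
        _ = (U : ℤ) * |D'| := by rw [hU12]
    zify
    rwa [abs_of_pos ht0]
  have hC4le : V.c₄.natAbs ≤ K4.natAbs * t.natAbs ^ 4 := by
    have h : |V.c₄| ≤ K4 * t ^ 4 := by
      refine le_trans ?_ (abs_hesseC4_le (a := a) (b := b) ht0.le hsR)
      rw [h4, abs_mul]
      refine le_mul_of_one_le_left (abs_nonneg _) ?_
      exact Int.one_le_abs (pow_ne_zero 4 hu0)
    zify
    rwa [abs_of_pos ht0, abs_of_nonneg hK4pos]
  have hB : U ^ 6 * X < t.natAbs := by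
    zify
    rwa [abs_of_pos ht0]
  have ht1 : 1 ≤ t.natAbs := Nat.one_le_iff_ne_zero.2 (Int.natAbs_ne_zero.2 ht0.ne')
  have hsmall : ∀ Y, Y ≤ X → Y < D'.natAbs := fun Y hY => by
    refine lt_of_mul_lt_mul_left (a := U) ?_ (Nat.zero_le _)
    calc U * Y ≤ U ^ 6 * X := Nat.mul_le_mul (Nat.le_self_pow (by norm_num) U) hY
      _ < t.natAbs := hB
      _ ≤ (t.natAbs ^ 4) ^ 3 := by rw [← pow_mul]; exact Nat.le_self_pow (by norm_num) _
      _ ≤ _ := hbigD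
  refine modRepIsIrreducible_five_of_large V hV0 hss (E ^ 4) ?_ ?_ ?_
  · intro w hw
    rw [hVΔ] at hw
    exact pow_five_le_of_factorization (Int.natAbs_ne_zero.2 hD'0) hE0 hfac hw
  · rw [hVΔ]
    exact hsmall _ (by omega)
  · rw [hVΔ]
    refine lt_of_mul_lt_mul_left (a := U ^ 6) ?_ (Nat.zero_le _)
    calc U ^ 6 * (64 * V.c₄.natAbs ^ 3 * (E ^ 4) ^ 6)
        ≤ U ^ 6 * (64 * (K4.natAbs * t.natAbs ^ 4) ^ 3 * (E ^ 4) ^ 6) := by gcongr
      _ = U ^ 6 * (64 * K4.natAbs ^ 3 * (E ^ 4) ^ 6) * (t.natAbs ^ 4) ^ 3 := by ring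
      _ < t.natAbs * (t.natAbs ^ 4) ^ 3 := by
        refine Nat.mul_lt_mul_of_pos_right (lt_of_le_of_lt ?_ hB) (by positivity)
        exact Nat.mul_le_mul_left _ (by omega)
      _ ≤ ((t.natAbs ^ 4) ^ 3) ^ 6 := by
        calc t.natAbs * (t.natAbs ^ 4) ^ 3 ≤ (t.natAbs ^ 4) ^ 3 * (t.natAbs ^ 4) ^ 3 := by
              gcongr
              rw [← pow_mul]; exact Nat.le_self_pow (by norm_num) _
          _ = ((t.natAbs ^ 4) ^ 3) ^ 2 := (sq _).symm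
          _ ≤ _ := Nat.pow_le_pow_right (by positivity) (by norm_num)
      _ ≤ (U * D'.natAbs) ^ 6 := by gcongr
      _ = _ := by rw [mul_pow]

end Fermat.Agent.Semistable
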