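/-
The contract `ThreeSwitchTwo`.
-/
import Fermat.Agent.Semistable.Contracts
import Fermat.Agent.Semistable.ThreeSwitchTwo

set_option autoImplicit false

namespace Fermat.Agent.Semistable

theorem threeSwitchTwo_prop : ThreeSwitchTwo := fun W h0 hW h3 h2 hv =>
  threeSwitchTwo W h0 hW h3 h2 hv

end Fermat.Agent.Semistable
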