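import Fermat.Agent.Semistable.Main
import Fermat.Agent.Semistable.FiveSwitchGood
import Fermat.Agent.Semistable.ThreeSwitchTwoProp
import Fermat.Agent.Switch.Adjusted
import Fermat.Agent.Endgame.Chain

/-!
# The inputs of the modularity of every semistable curve

The switches and the representation facts are discharged; residual modularity at `3`, lifting and
the two removals remain as hypotheses.
-/

set_option autoImplicit false

namespace Fermat.Agent.Semistable

/-- The inputs, from residual modularity at `3`, lifting and the two removals. -/
theorem semistableInputs_of (h3 : GoodTwo.SemistableModularAtThree) (hl3 : LiftAtThreeFull)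
    (hl5 : LiftAtFiveFull) (hr2 : LevelTwoRemovalThree) (hr3 : LevelThreeRemovalFive) :
    SemistableInputs where
  atThree := h3
  liftThree := hl3
  liftFive := hl5
  removeTwo := hr2
  removeThree := hr3
  switchFive := fiveSwitchGoodTwo
  switchThree := threeSwitchTwo_prop
  adjusted := Switch.adjustedSwitch
  residualRep := Endgame.eigenformResidualRep
  multRep := BadPrime.newformMultRep_modular

end Fermat.Agent.Semistable
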