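import Fermat.Agent.Semistable.GenusHyp.Main
import Fermat.Agent.Semistable.AllLevels.Genus
import Fermat.Agent.Semistable.Thickness

/-!
# The local inputs of Mazur's principle at every level

With the genus preserved at every level prime to `q` the side condition on `q ∈ {2, 3}` disappears:
`LocalInputs q p M` for every `p ≥ 5`, and for `(q, p) = (2, 3)` when a prime `≡ 2 (mod 3)` divides
`M` (then the nodes have thickness divisible by `3`).
-/

set_option autoImplicit false
set_option synthInstance.maxHeartbeats 400000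
set_option maxHeartbeats 800000

noncomputable section

open ModularCurve AlgebraicCurve IsLocalRing

namespace Fermat.Agent.Semistable

open Fermat.Agent.Curve Fermat.Agent.Reduction Fermat.Agent.BadPrime Fermat.Agent.LevelP
open Fermat.Agent.BadPrime.Mazur Fermat.Agent.BadPrime.Mazur.Local

local notation "Qb" => AlgebraicClosure ℚ

/-- The genus is preserved at every level prime to `q`. -/
theorem genusBound_all {q M : ℕ} [Fact q.Prime] [NeZero M] (hqM : ¬ q ∣ M) :
    GenusHyp.GenusBound q M := fun A hA => AllLevels.genusFF_le_modL M hqM A hA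

/-- The local inputs for `p ≥ 5`, at every prime. -/
theorem localInputs_all {q p M : ℕ} [NeZero M] [NeZero (M * q)] (hq : q.Prime) (hp : p.Prime)
    (hp5 : 5 ≤ p) (hqp : q ≠ p) (hqM : ¬ q ∣ M) : LocalInputs q p M :=
  have : Fact q.Prime := ⟨hq⟩
  GenusHyp.localInputs_of_genusBound hp hp5 hqp.symm hqM (genusBound_all hqM)

/-- Without elliptic points of order `3` the zeros of `j̄` have multiplicity divisible by `3`, at
every prime. -/
theorem three_dvd_ord_jResM_all {q M : ℕ} [Fact q.Prime] [NeZero M] (A : ValuationSubring Qb)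
    [IsAlgClosed (ResidueField A)] (hA : A.LiesOverPrime q) (hqM : ¬ q ∣ M) (h3 : nuThree M = 0)
    (Q : Place (ResidueField A) (modularFunctionFieldFullC (ResidueField A) M))
    (hQ : 0 ≤ Q.ord (X0.jResM A M)) : (3 : ℤ) ∣ Q.ord (X0.jResM A M) := by
  classical
  set k := ResidueField A
  show (3 : ℤ) ∣ Q.ord (jRes k M)
  replace hQ : 0 ≤ Q.ord (jRes k M) := hQ
  set G := gaussDataX0 M hqM A hA
  obtain ⟨r, hdeg, hr⟩ := G.exists_placeCompat (AllLevels.genusFF_le_modL M hqM A hA)
  have hj := jBar_jRes_mem M A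
  have htr := transcendental_jRes M k
  have hjb0 : jRes k M ≠ 0 := fun h => htr (h ▸ isAlgebraic_zero)
  have hdiv := hr (jBar M) (jRes k M) hj hjb0 (divisorOf (K := Qb) (jBar M)) (fun P => rfl) Q
  have hpole := Sq.mapDomain_poleDivisor G hdeg hr hj htr (finrank_jRes M hqM A hA)
  have hsum : poleDivisor (K := Qb) (jBar M) + divisorOf (K := Qb) (jBar M) =
      poleDivisor (K := Qb) (jBar M)⁻¹ :=
    Finsupp.ext fun P => by
      simp only [Finsupp.add_apply, poleDivisor_apply, divisorOf_apply, Place.ord_inv]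
      omega
  have h := congrArg (fun D : Divisor Qb (modularFunctionFieldBar M) =>
    Finsupp.mapDomain r D Q) hsum
  simp only [Finsupp.mapDomain_add, Finsupp.add_apply, hpole, poleDivisor_apply, hdiv] at h
  rw [max_eq_right (neg_nonpos.2 hQ), zero_add] at h
  rw [h]
  refine Sq.dvd_mapDomain_place r _ 3 Q fun P _ => ?_
  rw [poleDivisor_apply, Place.ord_inv, neg_neg]
  rcases lt_or_ge 0 (P.ord (jBar M)) with hP | hP
  · rw [ord_jBar_eq_three h3 P hP]
    norm_num
  · rw [max_eq_right hP]
    exact dvd_zero _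

/-- The local inputs at `q = 2` for `p = 3`, at a level with a prime `≡ 2 (mod 3)`. -/
theorem localInputs_two_three (L : ℕ) [NeZero L] [NeZero (L * 2)] (h2L : ¬ 2 ∣ L)
    (hr : ∃ r : ℕ, r.Prime ∧ r % 3 = 2 ∧ r ∣ L) : LocalInputs 2 3 L := by
  obtain ⟨r, hr, hr3, hrL⟩ := hr
  have : Fact (Nat.Prime 2) := ⟨Nat.prime_two⟩
  exact (GenusHyp.localInputsMod_ofG (n := 3) (c := 4) (m := 3) (genusBound_all h2L) h2L
    (by decide) rfl fun A hA _ T hT hw hj y hy =>
      three_dvd_r_of_ord A 2 L
        (three_dvd_ord_wSeries_two A hA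
          (three_dvd_ord_jResM_all A hA h2L (Sq.nuThree_eq_zero_of_dvd hr hr3 hrL)))
        T hT.red_iff hw hj y hy).localInputs (by decide)

end Fermat.Agent.Semistable
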