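import Fermat.Agent.Semistable.TraceTwo
import Fermat.Agent.EC.Reducible.CofixedLine
import Fermat.Agent.RT.TorsionFrobenius
import Fermat.Agent.Galois.Frobenius

/-!
# Reducible `E[5]` and the trace at `2`

A stable line gives a root of the characteristic polynomial of Frobenius, so `a₂ ≠ 0` when `E[5]`
is reducible: `X² + 2` has no root modulo `5`.
-/

set_option autoImplicit false

open scoped WeierstrassCurve.Affine
open WeierstrassCurve Polynomial

namespace Fermat.Agent.Semistable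

local notation "ℚ̄" => AlgebraicClosure ℚ

/-- A reducible `E[p]` gives a root mod `p` of `X² - a_ℓ X + ℓ`. -/
theorem exists_root_of_not_irreducible {W : WeierstrassCurve ℤ} {p : ℕ} [hp : Fact p.Prime]
    (hΔ : W.Δ ≠ 0) (hred : ¬ W.ModRepIsIrreducible p) {ℓ : ℕ} (hℓ : ℓ.Prime) (hℓp : ℓ ≠ p)
    (hgood : W.IsGoodPrimeFor ℓ) :
    ∃ x : ZMod p, x ^ 2 - (W.apOfModel ℓ : ZMod p) * x + ℓ = 0 := by
  have : (W.map (Int.castRingHom ℚ)).IsElliptic :=
    ⟨isUnit_iff_ne_zero.2 (by simpa [WeierstrassCurve.map_Δ] using hΔ)⟩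
  obtain ⟨N, hN, hbot, htop⟩ := EC.Reducible.exists_stable_of_not_irreducible hΔ hred
  obtain ⟨A, σ, hA, hσ⟩ := Galois.exists_valuationSubring_isFrobeniusAt hℓ
  have hch := RT.torsionFrobeniusCharpoly W p ℓ hℓ hℓp hgood A hA σ hσ
  set R := EC.torsionRepRat (W.map (Int.castRingHom ℚ)) p with hR
  have hfin : Module.finrank (ZMod p) (EC.Reducible.Tors W p) = 2 :=
    EC.Reducible.finrank_torsion hΔ
  have : FiniteDimensional (ZMod p) (EC.Reducible.Tors W p) :=
    Module.finite_of_finrank_eq_succ hfin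
  have : FiniteDimensional (ZMod p) R.V := Module.finite_of_finrank_eq_succ R.finrank_eq
  have hN1 : Module.finrank (ZMod p) N = 1 := by
    have h0 : Module.finrank (ZMod p) N ≠ 0 := fun h => hbot (Submodule.finrank_eq_zero.1 h)
    have h2 : Module.finrank (ZMod p) N < 2 := hfin ▸ Submodule.finrank_lt htop
    omega
  obtain ⟨x, hx, hx0⟩ := (Submodule.ne_bot_iff N).1 hbot
  obtain ⟨c, hc⟩ := exists_smul_eq_of_finrank_eq_one hN1 (x := (⟨x, hx⟩ : N))
    (fun h => hx0 (congrArg Subtype.val h)) ⟨σ • x, hN σ x hx⟩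
  have hval : Module.End.HasEigenvalue (R.ρ σ) c := by
    refine Module.End.hasEigenvalue_of_hasEigenvector (x := x) ⟨?_, hx0⟩
    exact Module.End.mem_eigenspace_iff.2 (congrArg Subtype.val hc).symm
  have hroot := (Module.End.hasEigenvalue_iff_isRoot_charpoly _ _).1 hval
  rw [hch] at hroot
  exact ⟨c, by simpa [IsRoot] using hroot⟩

/-- `X² + 2` has no root modulo `5`. -/
theorem not_root : ∀ x : ZMod 5, x ^ 2 - 0 * x + 2 ≠ 0 := by
  decide

/-- A curve good at `2` with reducible `E[5]` has `32 ∤ c₄`. -/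
theorem not_thirtyTwo_dvd_of_not_irreducible_five {W : WeierstrassCurve ℤ} (hΔ : W.Δ ≠ 0)
    (h2 : ¬ (2 : ℤ) ∣ W.Δ) (hred : ¬ W.ModRepIsIrreducible 5) : ¬ (32 : ℤ) ∣ W.c₄ := by
  intro h32
  have : Fact (Nat.Prime 5) := ⟨Nat.prime_five⟩
  obtain ⟨x, hx⟩ := exists_root_of_not_irreducible hΔ hred Nat.prime_two (by norm_num)
    (by exact_mod_cast h2)
  rw [apOfModel_two_eq_zero W h2 h32] at hx
  push_cast at hx
  exact not_root x hx

end Fermat.Agent.Semistable
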