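import Fermat.Agent.Semistable.Contracts
import Fermat.Agent.Semistable.TraceTwoReducible
import Fermat.Agent.Lifting.Squarefree.Base
import Fermat.Agent.Lifting.Squarefree.NewformSystem
import Fermat.Agent.Endgame.Final
import Fermat.Agent.S51

/-!
# Modularity of every semistable curve

From residual modularity at `3`, lifting at `3` and at `5`, the switches, and the removal of `2`
and of `3` from residual levels:

* `E[5]` irreducible, multiplicative at `2`: the adjusted switch;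
* `E[5]` irreducible, good at `2`: the switch keeping good reduction at `2`;
* `E[5]` reducible: lifting at `3`, through a switch at `3` to the previous case when `E[3]` is
  unramified at a multiplicative `2`.
-/

set_option autoImplicit false

noncomputable section

open WeierstrassCurve

namespace Fermat.Agent.Semistable

/-- The inputs of the modularity of every semistable curve. -/
structure SemistableInputs : Prop where
  atThree : GoodTwo.SemistableModularAtThree
  liftThree : LiftAtThreeFull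
  liftFive : LiftAtFiveFull
  removeTwo : LevelTwoRemovalThree
  removeThree : LevelThreeRemovalFive
  switchFive : FiveSwitchGoodTwo
  switchThree : ThreeSwitchTwo
  adjusted : Lifting.AdjustedSwitch
  residualRep : RT.EigenformResidualRep
  multRep : BadPrime.NewformMultRep

variable {W U : WeierstrassCurve ℤ} {p : ℕ}

/-- A curve congruent to a modular one has as a residual level the conductor of the latter. -/
theorem exists_residual_level_of_congr (hp : p.Prime)
    (hU : Mlc1IsModularModelOfExactConductorLevel U)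
    (hcong : ∀ ℓ : ℕ, ℓ.Prime → W.IsGoodPrimeFor ℓ → U.IsGoodPrimeFor ℓ → ℓ ≠ p →
      (p : ℤ) ∣ (U.apOfModel ℓ - W.apOfModel ℓ)) :
    ∃ N : ℕ, 0 < N ∧ Squarefree N ∧ (∀ q : ℕ, q.Prime → (q ∣ N ↔ (q : ℤ) ∣ U.Δ)) ∧
      W.IsResiduallyModularOfLevel p N := by
  obtain ⟨N, hN, hsq, hsupp, f, hf, hap⟩ := hU
  obtain ⟨𝔪, hmax, hpm⟩ := FLTPrelim.exists_maximalIdeal_natCast_prime_mem hp
  refine ⟨N, hN, hsq, hsupp, f, 𝔪, hf, hmax, hpm, fun ℓ hℓ hg hℓN hℓp => ?_⟩
  have hg' : U.IsGoodPrimeFor ℓ := fun hd => hℓN ((hsupp ℓ hℓ).2 hd)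
  refine ⟨((U.apOfModel ℓ : ℤ) : integralClosure ℤ ℂ), ?_, ?_⟩
  · rw [hap ℓ hℓ hg' hℓN]
    simp
  · obtain ⟨k, hk⟩ := hcong ℓ hℓ hg hg' hℓp
    rw [← Int.cast_sub, hk, Int.cast_mul, Int.cast_natCast]
    exact 𝔪.mul_mem_right _ hpm

/-- At good `2` with `32 ∤ c₄` some residual level at `3` is odd: `2` is not new. -/
theorem exists_odd_level (hS29 : RT.EigenformResidualRep) (h35 : BadPrime.NewformMultRep)
    (hΔ : W.Δ ≠ 0) (hirr : W.ModRepIsIrreducible 3) (h2 : ¬ (2 : ℤ) ∣ W.Δ)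
    (h32 : ¬ (32 : ℤ) ∣ W.c₄) {M : ℕ} (hM : 0 < M) (hsq : Squarefree M)
    (hres : W.IsResiduallyModularOfLevel 3 M) (hgood : W.IsGoodPrimeFor 3 → ¬ 3 ∣ M) :
    ∃ M' : ℕ, 0 < M' ∧ Squarefree M' ∧ ¬ 2 ∣ M' ∧ W.IsResiduallyModularOfLevel 3 M' ∧
      (W.IsGoodPrimeFor 3 → ¬ 3 ∣ M') := by
  obtain ⟨M₀, hd, h₀⟩ := Lifting.Minimal.exists_minimalResidualLevel hM hsq
    (fun h => by_contra fun hn => hgood (fun hh => hn (by exact_mod_cast hh)) h) hres
  refine ⟨M₀, h₀.pos, h₀.squarefree, fun h2M => ?_, h₀.residual,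
    fun hg h => hgood hg (h.trans hd)⟩
  have hg2 : W.IsGoodPrimeFor 2 := by exact_mod_cast h2
  have h := Lifting.sq_sub_dvd_of_residualNewformAt h35 hΔ Nat.prime_three (by norm_num) hirr
    h₀.pos (h₀.exists_newform hS29 hΔ Nat.prime_three) Nat.prime_two (by norm_num) hg2 h2M
    (h₀.sq_not_dvd Nat.prime_two)
  refine not_three_dvd_apOfModel_two W h2 h32 (Int.prime_three.dvd_of_dvd_pow (n := 2) ?_)
  have h9 : (3 : ℤ) ∣ ((2 : ℕ) : ℤ) + 1 := by norm_num
  have h' := dvd_add h (h9.pow two_ne_zero)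
  rwa [sub_add_cancel] at h'

variable (h : SemistableInputs)
include h

/-- `E[5]` irreducible and multiplicative reduction at `2`. -/
theorem exactConductor_of_two_dvd (hΔ : W.Δ ≠ 0) (hW : W.IsSemistableModel)
    (h2 : (2 : ℤ) ∣ W.Δ) (hirr : W.ModRepIsIrreducible 5) :
    Mlc1IsModularModelOfExactConductorLevel W := by
  obtain ⟨U, hUΔ, hU, hlift, hirr3, hgood3, hgood5, hcong⟩ := h.adjusted W hΔ hW h2 hirr
  have hv : ¬ 3 ∣ padicValInt 2 U.Δ := (hlift.2 rfl).1
  have hU2 : (2 : ℤ) ∣ U.Δ := by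
    by_contra hn
    exact hv (by simp [padicValInt.eq_zero_of_not_dvd (p := 2) (by exact_mod_cast hn)])
  obtain ⟨M, hM, hsq, hres, hgM⟩ := h.atThree U hUΔ hU hirr3
  have hUmod := h.liftThree hUΔ hU hirr3 hM hsq hres hgM fun hu =>
    absurd hu (Lifting.not_residuallyUnramifiedAt_of_mult hUΔ hU Nat.prime_three Nat.prime_two
      (by norm_num) (by exact_mod_cast hU2) hv)
  obtain ⟨N, hN, hsqN, hsupp, hresN⟩ :=
    exists_residual_level_of_congr Nat.prime_five hUmod
      fun ℓ hℓ hg hg' h5 => by exact_mod_cast hcong ℓ hℓ hg hg' h5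
  refine h.liftFive hΔ hW hirr hN hsqN hresN
    (fun hg hd => hgood5 hg ((hsupp 5 Nat.prime_five).1 hd)) fun q hq hqN hg hq5 => ?_
  have hq2 : q ≠ 2 := by rintro rfl; exact hg (by exact_mod_cast h2)
  have hq3 : q ≠ 3 := by rintro rfl; exact hgood3 hg ((hsupp 3 Nat.prime_three).1 hqN)
  have hq4 : q ≠ 4 := by rintro rfl; exact absurd hq (by norm_num)
  have := hq.two_le
  omega

/-- `E[5]` irreducible and good reduction at `2`. -/
theorem exactConductor_of_good_two (hΔ : W.Δ ≠ 0) (hW : W.IsSemistableModel)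
    (h2 : ¬ (2 : ℤ) ∣ W.Δ) (hirr : W.ModRepIsIrreducible 5) :
    Mlc1IsModularModelOfExactConductorLevel W := by
  obtain ⟨U, hUΔ, hU, hU2, hirr3, hdvd, h32, -, hgood5, hkeep, hss3, hcong⟩ :=
    h.switchFive W hΔ hW h2 hirr
  obtain ⟨M, hM, hsq, hres, hgM⟩ := h.atThree U hUΔ hU hirr3
  obtain ⟨M', hM', hsq', hodd, hres', hgM'⟩ : ∃ M' : ℕ, 0 < M' ∧ Squarefree M' ∧ ¬ 2 ∣ M' ∧
      U.IsResiduallyModularOfLevel 3 M' ∧ (U.IsGoodPrimeFor 3 → ¬ 3 ∣ M') := by
    by_cases h32U : (32 : ℤ) ∣ U.c₄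
    · exact h.removeTwo U hUΔ hU hirr3 hU2 (hss3 (h32.1 h32U)) M hM hsq hres hgM
    · exact exists_odd_level h.residualRep h.multRep hUΔ hirr3 hU2 h32U hM hsq hres hgM
  obtain ⟨N, hN, hsqN, hsupp, hresN⟩ :=
    exists_residual_level_of_congr Nat.prime_five
      (h.liftThree hUΔ hU hirr3 hM' hsq' hres' hgM' fun _ => hodd)
      fun ℓ hℓ hg hg' h5 => by exact_mod_cast hcong ℓ hℓ hg hg' h5
  have hg5 : W.IsGoodPrimeFor 5 → ¬ 5 ∣ N :=
    fun hg hd => hgood5 hg ((hsupp 5 Nat.prime_five).1 hd)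
  have h2N : ¬ 2 ∣ N := fun hd => hU2 (by exact_mod_cast (hsupp 2 Nat.prime_two).1 hd)
  by_cases hcase : (32 : ℤ) ∣ W.c₄ ∧ W.IsGoodPrimeFor 3
  · obtain ⟨R, hR, hsqR, hresR, hgR, hextra⟩ := h.removeThree W hΔ hW h2
      (apOfModel_two_eq_zero W h2 hcase.1) hirr N hN hsqN h2N hresN hg5
    exact h.liftFive hΔ hW hirr hR hsqR hresR hgR hextra
  · refine h.liftFive hΔ hW hirr hN hsqN hresN hg5 fun q hq hqN hg hq5 => ?_
    have hq2 : q ≠ 2 := by rintro rfl; exact h2N hqN
    have hq3 : q ≠ 3 := by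
      rintro rfl
      exact hkeep (fun h32 => hcase ⟨h32, hg⟩) hg ((hsupp 3 Nat.prime_three).1 hqN)
    have hq4 : q ≠ 4 := by rintro rfl; exact absurd hq (by norm_num)
    have := hq.two_le
    omega

/-- `E[5]` irreducible. -/
theorem exactConductor_of_irreducible_five (hΔ : W.Δ ≠ 0) (hW : W.IsSemistableModel)
    (hirr : W.ModRepIsIrreducible 5) : Mlc1IsModularModelOfExactConductorLevel W := by
  by_cases h2 : (2 : ℤ) ∣ W.Δ
  · exact exactConductor_of_two_dvd h hΔ hW h2 hirr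
  · exact exactConductor_of_good_two h hΔ hW h2 hirr

/-- `E[3]` irreducible and `E[5]` reducible. -/
theorem exactConductor_of_reducible_five (hΔ : W.Δ ≠ 0) (hW : W.IsSemistableModel)
    (hirr : W.ModRepIsIrreducible 3) (hred : ¬ W.ModRepIsIrreducible 5) :
    Mlc1IsModularModelOfExactConductorLevel W := by
  obtain ⟨M, hM, hsq, hres, hgM⟩ := h.atThree W hΔ hW hirr
  by_cases h2 : (2 : ℤ) ∣ W.Δ
  · by_cases hv : 3 ∣ padicValInt 2 W.Δ
    · obtain ⟨V, hVΔ, hV, hV2, -, -, hV5, hgood3, hcong⟩ := h.switchThree W hΔ hW hirr h2 hv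
      obtain ⟨N, hN, hsqN, hsupp, hresN⟩ := exists_residual_level_of_congr Nat.prime_three
        (exactConductor_of_irreducible_five h hVΔ hV hV5)
        fun ℓ hℓ hg hg' h3 => by exact_mod_cast hcong ℓ hℓ h3 hg hg'
      exact h.liftThree hΔ hW hirr hN hsqN hresN
        (fun hg hd => hgood3 hg ((hsupp 3 Nat.prime_three).1 hd))
        fun _ hd => hV2 (by exact_mod_cast (hsupp 2 Nat.prime_two).1 hd)
    · exact h.liftThree hΔ hW hirr hM hsq hres hgM fun hu =>
        absurd hu (Lifting.not_residuallyUnramifiedAt_of_mult hΔ hW Nat.prime_three Nat.prime_two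
          (by norm_num) (by exact_mod_cast h2) hv)
  · obtain ⟨M', hM', hsq', hodd, hres', hgM'⟩ := exists_odd_level h.residualRep h.multRep hΔ hirr
      h2 (not_thirtyTwo_dvd_of_not_irreducible_five hΔ h2 hred) hM hsq hres hgM
    exact h.liftThree hΔ hW hirr hM' hsq' hres' hgM' fun _ => hodd

/-- **Every semistable curve is modular at its conductor.** -/
theorem semistableExactConductor : SemistableExactConductor := by
  intro W hΔ hW
  by_cases h5 : W.ModRepIsIrreducible 5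
  · exact exactConductor_of_irreducible_five h hΔ hW h5
  · exact exactConductor_of_reducible_five h hΔ hW
      ((Fermat.Agent.S51.result W hΔ hW).resolve_right h5) h5

/-- Every semistable curve is modular. -/
theorem semistable_isModular (W : WeierstrassCurve ℤ) (hΔ : W.Δ ≠ 0)
    (hW : W.IsSemistableModel) : (W.map (Int.castRingHom ℚ)).IsModular :=
  Endgame.isModular_of_exactConductorLevel (semistableExactConductor h W hΔ hW)

end Fermat.Agent.Semistable
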