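import Fermat.Agent.Semistable.UnramifiedRemoval
import Fermat.Agent.Lifting.Squarefree.MazurLocal
import Fermat.Agent.BadPrime.Mazur.Assembly
import Fermat.Agent.EichlerShimura.Inputs

/-!
# Mazur's principle at every prime, `p ≥ 5`

At `q = 2` the level is stabilised by `7` (by `3` if `p = 7`), at `q = 3` by `5` (by `2` if
`p = 5`): then the local inputs exist, and the auxiliary prime, unramified and `≢ 1 (mod p)`,
comes off again.
-/

set_option autoImplicit false

noncomputable section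

open WeierstrassCurve

namespace Fermat.Agent.Semistable

variable {W : WeierstrassCurve ℤ} {p : ℕ} [hp : Fact p.Prime]

/-- Mazur's principle from the local inputs at one level. -/
theorem isResiduallyModularOfLevel_of_localInputs (hp2 : p ≠ 2) (hΔ : W.Δ ≠ 0)
    (hirr : W.ModRepIsIrreducible p) {L q : ℕ} (hq : q.Prime) (hqp : q ≠ p) (hL : 0 < L)
    (hI : ∀ [NeZero L] [NeZero (L * q)], BadPrime.Mazur.LocalInputs q p L)
    (hq1 : (q : ZMod p) ≠ 1) (hu : Lifting.ResiduallyUnramifiedAt W p q)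
    (hres : W.IsResiduallyModularOfLevel p (L * q)) : W.IsResiduallyModularOfLevel p L := by
  have : NeZero L := ⟨hL.ne'⟩
  have : NeZero (L * q) := ⟨(Nat.mul_pos hL hq.pos).ne'⟩
  have : (W.map (Int.castRingHom ℚ)).IsElliptic := EC.isElliptic_map_rat hΔ
  exact BadPrime.Mazur.isResiduallyModularOfLevel_of_inputs
    (fun N _ => EichlerShimura.kummerIso_modular N)
    (fun N _ p _ => EichlerShimura.frobeniusOnTorsion_modular N p) hp2 hΔ
    (EC.natCard_torsion_rat _ hp.out.ne_zero)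
    (EC.galoisRepModuleEnd_factorsThroughFiniteLevel _ hp.out.ne_zero)
    hirr hq hqp hI hq1 (fun A hA σ hσ => LinearMap.ext fun x => hu A hA σ hσ x) hres

/-- `q` comes off with the help of an auxiliary prime `r` which comes off afterwards. -/
theorem isResiduallyModularOfLevel_via_aux (hp2 : p ≠ 2) (hΔ : W.Δ ≠ 0)
    (hirr : W.ModRepIsIrreducible p) {q r : ℕ} (hq : q.Prime) (hr : r.Prime) (hrq : r ≠ q)
    (hqp : q ≠ p) (hrp : r ≠ p) (hq1 : (q : ZMod p) ≠ 1)
    (hI : ∀ (L : ℕ) [NeZero L] [NeZero (L * q)], ¬ q ∣ L → r ∣ L →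
      BadPrime.Mazur.LocalInputs q p L)
    (hrem : ∀ L : ℕ, 0 < L → ¬ r ∣ L → ¬ q ∣ L → Lifting.ResiduallyUnramifiedAt W p r →
      W.IsResiduallyModularOfLevel p (L * r) → W.IsResiduallyModularOfLevel p L)
    {L : ℕ} (hL : 0 < L) (hqL : ¬ q ∣ L) (hu : Lifting.ResiduallyUnramifiedAt W p q)
    (hres : W.IsResiduallyModularOfLevel p (L * q)) : W.IsResiduallyModularOfLevel p L := by
  by_cases hrL : r ∣ L
  · exact isResiduallyModularOfLevel_of_localInputs hp2 hΔ hirr hq hqp hL
      (fun {_ _} => hI L hqL hrL) hq1 hu hres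
  have hur : Lifting.ResiduallyUnramifiedAt W p r := by
    by_contra h
    exact (hr.dvd_mul.1 (dvd_of_ramified (fun hg _ hp _ _ _ φ => S29.result hg hp φ) hΔ hp2 hirr
      (Nat.mul_pos hL hq.pos) hres hr hrp h)).elim hrL
      fun h => hrq ((Nat.prime_dvd_prime_iff_eq hr hq).1 h)
  refine hrem L hL hrL hqL hur ?_
  have hqLr : ¬ q ∣ L * r := fun h =>
    (hq.dvd_mul.1 h).elim hqL fun h' => hrq ((Nat.prime_dvd_prime_iff_eq hq hr).1 h').symm
  refine isResiduallyModularOfLevel_of_localInputs hp2 hΔ hirr hq hqp (Nat.mul_pos hL hr.pos)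
    (fun {_ _} => hI (L * r) hqLr (dvd_mul_left r L)) hq1 hu ?_
  exact GoodTwo.isResiduallyModularOfLevel_of_dvd (Nat.mul_pos (Nat.mul_pos hL hr.pos) hq.pos)
    (Nat.mul_dvd_mul_right (dvd_mul_right L r) q) hres

omit hp in
theorem natCast_ne_one_of_five_le {p : ℕ} (hp5 : 5 ≤ p) (hp : p.Prime) {q : ℕ}
    (hq : q = 2 ∨ q = 3 ∨ q = 5 ∨ q = 7) : (q : ZMod p) ≠ 1 := by
  intro h
  have h' : (p : ℕ) ∣ q - 1 := by
    have h1 : ((q - 1 : ℕ) : ZMod p) = 0 := by
      rw [Nat.cast_sub (by omega), h, Nat.cast_one, sub_self]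
    exact (ZMod.natCast_eq_zero_iff _ _).1 h1
  have hle := Nat.le_of_dvd (by omega) h'
  rcases hq with rfl | rfl | rfl | rfl
  · omega
  · omega
  · omega
  · have : p = 5 ∨ p = 6 := by omega
    rcases this with rfl | rfl
    · norm_num at h'
    · norm_num at hp

/-- **Mazur's principle for `p ≥ 5` at every prime**, from the local inputs at `q = 2` for levels
divisible by `7` and at `q = 3` for levels divisible by `5`. -/
theorem mazurAllFive_of
    (h2 : ∀ (p L : ℕ) [NeZero L] [NeZero (L * 2)], p.Prime → 5 ≤ p → ¬ 2 ∣ L → 7 ∣ L →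
      BadPrime.Mazur.LocalInputs 2 p L)
    (h3 : ∀ (p L : ℕ) [NeZero L] [NeZero (L * 3)], p.Prime → 5 ≤ p → ¬ 3 ∣ L → 5 ∣ L →
      BadPrime.Mazur.LocalInputs 3 p L) : MazurAllFive := by
  intro p hp hp5 W hΔ _ hirr M q hM hq hqp hqM hq2 hq1 hu hres
  have : Fact p.Prime := ⟨hp⟩
  have : Fact (Nat.Prime 2) := ⟨Nat.prime_two⟩
  have : Fact (Nat.Prime 3) := ⟨Nat.prime_three⟩
  have hp2 : p ≠ 2 := by omega
  -- the primes `≥ 5`
  have big : ∀ r : ℕ, r.Prime → 5 ≤ r → r ≠ p → (r : ZMod p) ≠ 1 → ∀ L : ℕ, 0 < L → ¬ r ∣ L →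
      Lifting.ResiduallyUnramifiedAt W p r → W.IsResiduallyModularOfLevel p (L * r) →
      W.IsResiduallyModularOfLevel p L := by
    intro r hr hr5 hrp hr1 L hL hrL hur hres'
    have h := Lifting.mazurLowering p hp hp2 W hΔ hirr (L * r) r (Nat.mul_pos hL hr.pos) hr hr5 hrp
      (dvd_mul_left r L) (fun h => hrL (by
        rw [pow_two] at h
        exact Nat.dvd_of_mul_dvd_mul_right hr.pos h))
      (fun h => absurd h (by omega)) hr1 hur hres'
    rwa [Nat.mul_div_cancel L hr.pos] at h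
  have f2 := natCast_ne_one_of_five_le hp5 hp (q := 2) (by simp)
  have f3 := natCast_ne_one_of_five_le hp5 hp (q := 3) (by simp)
  have f5 := natCast_ne_one_of_five_le hp5 hp (q := 5) (by simp)
  have f7 := natCast_ne_one_of_five_le hp5 hp (q := 7) (by simp)
  have p7 : Nat.Prime 7 := by norm_num
  have p5 : Nat.Prime 5 := by norm_num
  -- `q = 2` by `7`, `q = 3` by `5`
  have two : p ≠ 7 → ∀ L : ℕ, 0 < L → ¬ 2 ∣ L → Lifting.ResiduallyUnramifiedAt W p 2 →
      W.IsResiduallyModularOfLevel p (L * 2) → W.IsResiduallyModularOfLevel p L :=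
    fun hp7 L hL h2L hu' hres' => isResiduallyModularOfLevel_via_aux hp2 hΔ hirr Nat.prime_two p7
      (by omega) (by omega) hp7.symm f2 (fun K _ _ hK hK' => h2 p K hp hp5 hK hK')
      (fun K hK h7 _ hur => big 7 p7 (by omega) hp7.symm f7 K hK h7 hur) hL h2L hu' hres'
  have three : p ≠ 5 → ∀ L : ℕ, 0 < L → ¬ 3 ∣ L → Lifting.ResiduallyUnramifiedAt W p 3 →
      W.IsResiduallyModularOfLevel p (L * 3) → W.IsResiduallyModularOfLevel p L :=
    fun hp' L hL h3L hu' hres' => isResiduallyModularOfLevel_via_aux hp2 hΔ hirr Nat.prime_three p5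
      (by omega) (by omega) hp'.symm f3 (fun K _ _ hK hK' => h3 p K hp hp5 hK hK')
      (fun K hK h5K _ hur => big 5 p5 le_rfl hp'.symm f5 K hK h5K hur) hL h3L hu' hres'
  obtain ⟨L, rfl⟩ : ∃ L, M = L * q := ⟨M / q, (Nat.div_mul_cancel hqM).symm⟩
  rw [Nat.mul_div_cancel L hq.pos]
  have hL : 0 < L := Nat.pos_of_mul_pos_right hM
  have hqL : ¬ q ∣ L := fun h => hq2 (by rw [pow_two]; exact Nat.mul_dvd_mul_right h q)
  rcases eq_or_ne q 2 with rfl | hq2'
  · rcases eq_or_ne p 7 with rfl | hp7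
    · exact isResiduallyModularOfLevel_via_aux hp2 hΔ hirr Nat.prime_two Nat.prime_three
        (by omega) (by omega) (by omega) f2
        (fun K _ _ hK hK3 => BadPrime.Mazur.Local.localInputs hp hp5 (by omega)
          ⟨fun _ => hK3, fun h => absurd h (by omega)⟩ hK)
        (fun K hK h3K _ hur => three (by omega) K hK h3K hur) hL hqL hu hres
    · exact two hp7 L hL hqL hu hres
  rcases eq_or_ne q 3 with rfl | hq3
  · rcases eq_or_ne p 5 with rfl | hp'
    · exact isResiduallyModularOfLevel_via_aux hp2 hΔ hirr Nat.prime_three Nat.prime_two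
        (by omega) (by omega) (by omega) f3
        (fun K _ _ hK hK2 => BadPrime.Mazur.Local.localInputs hp hp5 (by omega)
          ⟨fun h => absurd h (by omega), fun _ => hK2⟩ hK)
        (fun K hK h2K _ hur => two (by omega) K hK h2K hur) hL hqL hu hres
    · exact three hp' L hL hqL hu hres
  have hq5 : 5 ≤ q := by
    have := hq.two_le
    have : q ≠ 4 := by rintro rfl; norm_num at hq
    omega
  exact big q hq hq5 hqp hq1 L hL hqL hu hres

end Fermat.Agent.Semistable
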