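import Fermat.Agent.FiniteFlat.SegreModel

/-!
# Subgroups in the kernel of reduction

If every class of a finite stable subgroup of the Jacobian is represented by a divisor with
principal reduction, the functions of its model take congruent values at all points: the invariants
of the multiplication matrices reduce to proportional ones.
-/

set_option autoImplicit false
set_option linter.unusedSectionVars false

noncomputable section

open MvPolynomial

namespace Fermat.Agent.Semistable.OrdinaryThree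

open AlgebraicCurve Fermat.Agent.FiniteFlat Fermat.Agent.Reduction.Torsion

local notation "ℚ̄" => AlgebraicClosure ℚ
local notation "Γℚ" => (AlgebraicClosure ℚ ≃ₐ[ℚ] AlgebraicClosure ℚ)

variable {k : Type} [Field k] {F : Type} [Field F] [Algebra ℚ̄ F] {Fb : Type} [Field Fb]
  [Algebra k Fb] {A : ValuationSubring ℚ̄} {π : A →+* k} {r : Place ℚ̄ F → Place k Fb}
  {ℓ n m : ℕ} [Fact ℓ.Prime] {G : Divisor ℚ̄ F} {b : Fin m → F} {bb : Fin m → Fb} {c : ℕ} {χ : ℤ}
  {act : Γℚ →* SemilinearAut ℚ̄ F} {G₀ : GaussReduction π r}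
  {T : Type} [AddCommGroup T] [DistribMulAction Γℚ T] [Fintype T]
  {fam : Family G₀ n G b bb T}

local notation "Zℓ" => GaloisRep.ratLocalizedAt ℓ

theorem isPrincipal_map_D (h : CurveInput G₀ ℓ n m G b bb c χ act) {t : T}
    (ht : ∃ D₀ : Divisor.degZero (K := ℚ̄) (F := F), Pic0.mk D₀ = fam.ι t ∧
      Divisor.IsPrincipal (Finsupp.mapDomain r (D₀ : Divisor ℚ̄ F))) :
    Divisor.IsPrincipal (Finsupp.mapDomain r (fam.D t) - Finsupp.mapDomain r G) := by
  have := h.good.gen.principal
  obtain ⟨D₀, hD₀, hred⟩ := ht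
  have h1 := h.good.isPrincipal_map (Family.isPrincipal_sub_D t hD₀)
  rw [Finsupp.mapDomain_sub, Finsupp.mapDomain_add] at h1
  have h2 := (Divisor.principal (K := k) (F := Fb)).sub_mem hred h1
  rwa [sub_sub_eq_add_sub, add_sub_add_left_eq_sub] at h2

/-- The coordinates at a class with principal reduction reduce to those at the origin. -/
theorem res_gen_eq (h : CurveInput G₀ ℓ n m G b bb c χ act)
    (hker : ∀ t : T, ∃ D₀ : Divisor.degZero (K := ℚ̄) (F := F), Pic0.mk D₀ = fam.ι t ∧
      Divisor.IsPrincipal (Finsupp.mapDomain r (D₀ : Divisor ℚ̄ F)))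
    (I J : fam.idx) (t : T) : res π (fam.gen I J t) = res π (fam.gen I J 0) := by
  have hπ := isResidueMap G₀
  have key : ∀ s, res π (fam.gen I J s) =
      genVal fam.idx fam.Φ fam.δ I J (segrePoly (mapV (res π) (fam.M s))) := by
    intro s
    have hco : ∀ d, (fam.P s).coeff d ∈ A ∧ res π ((fam.P s).coeff d) =
        (segrePoly (mapV (res π) (fam.M s))).coeff d := fun d =>
      res_coeff_segrePoly (π := π) (fam.cls s).integral d
    have hvec : (fun I => res π (coordVec fam.idx (fam.P s) I)) =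
        coordVec fam.idx (segrePoly (mapV (res π) (fam.M s))) := funext fun I => (hco I).2
    obtain ⟨hm, hden⟩ := res_aeval (π := π)
      (fun I => (hco I).1 : ∀ I : fam.idx, coordVec fam.idx (fam.P s) I ∈ A) fam.Φ
    have hne : res π (denom fam.idx fam.Φ (fam.P s)) ≠ 0 := hπ.res_ne_zero (fam.denom_unit s)
    have hnum : fam.gen I J s * denom fam.idx fam.Φ (fam.P s) =
        coordVec fam.idx (fam.P s) I * coordVec fam.idx (fam.P s) J ^ (fam.δ - 1) :=
      div_mul_cancel₀ _ (fam.denom_ne_zero s)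
    have hpow : ∀ e : ℕ, coordVec fam.idx (fam.P s) J ^ e ∈ A ∧
        res π (coordVec fam.idx (fam.P s) J ^ e) =
          coordVec fam.idx (segrePoly (mapV (res π) (fam.M s))) J ^ e := by
      intro e
      induction e with
      | zero => rw [pow_zero, pow_zero]; exact ⟨one_mem A, res_one⟩
      | succ e ih =>
        rw [pow_succ, pow_succ]
        refine ⟨mul_mem ih.1 (hco J).1, ?_⟩
        rw [res_mul (π := π) ih.1 (show coordVec fam.idx (fam.P s) J ∈ A from (hco J).1), ih.2]
        exact congrArg _ (hco J).2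
    have h1 := congrArg (res π) hnum
    rw [res_mul (π := π) (fam.gen_mem I J s) (show denom fam.idx fam.Φ (fam.P s) ∈ A from hm),
      res_mul (π := π) (show coordVec fam.idx (fam.P s) I ∈ A from (hco I).1) (hpow _).1,
      (hpow _).2] at h1
    rw [genVal, eq_div_iff]
    · rw [show denom fam.idx fam.Φ (segrePoly (mapV (res π) (fam.M s))) =
          res π (denom fam.idx fam.Φ (fam.P s)) from (hden.trans (congrArg (fun v => MvPolynomial.aeval v fam.Φ) hvec)).symm, h1]
      congr 1
      exact (hco I).2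
    · rw [show denom fam.idx fam.Φ (segrePoly (mapV (res π) (fam.M s))) =
          res π (denom fam.idx fam.Φ (fam.P s)) from (hden.trans (congrArg (fun v => MvPolynomial.aeval v fam.Φ) hvec)).symm]
      exact hne
  have hp : Divisor.IsPrincipal
      (Finsupp.mapDomain r (fam.D t) - Finsupp.mapDomain r (fam.D 0)) := by
    have h2 := (Divisor.principal (K := k) (F := Fb)).sub_mem
      (isPrincipal_map_D h (hker t)) (isPrincipal_map_D h (hker 0))
    rwa [sub_sub_sub_cancel_right] at h2
  obtain ⟨a, ha, he⟩ := Family.exists_scalar_red h (fam.cls t).spec hp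
  rw [key, key, he, genVal_smul fam.hom fam.δ_pos ha]

/-- **Congruent values** of the functions of the model of a subgroup in the kernel of reduction. -/
theorem exists_isModelRing_congr (h : CurveInput G₀ ℓ n m G b bb c χ act) (ι : T →+ Pic0 ℚ̄ F)
    (hinj : Function.Injective ι) (hι : ∀ (σ : Γℚ) (t : T), ι (σ • t) = act σ • ι t)
    (hker : ∀ t : T, ∃ D₀ : Divisor.degZero (K := ℚ̄) (F := F), Pic0.mk D₀ = ι t ∧
      Divisor.IsPrincipal (Finsupp.mapDomain r (D₀ : Divisor ℚ̄ F))) :
    ∃ H : Subalgebra Zℓ (T → ℚ̄), IsModelRing ℓ H ∧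
      ∀ f ∈ H, ∀ t, f t ∈ A ∧ A.valuation (f t - f 0) < 1 := by
  obtain ⟨fam, rfl⟩ := h.exists_family ι hinj
  refine ⟨fam.modelAlg ℓ, Family.isModelRing_modelAlg h hι, fun f hf => ?_⟩
  have key : ∀ t, f t ∈ A ∧ res π (f t) = res π (f 0) := by
    intro t
    suffices hb : (∀ s, f s ∈ A) ∧ res π (f t) = res π (f 0) from ⟨hb.1 t, hb.2⟩
    refine Algebra.adjoin_induction (p := fun g _ => (∀ s, g s ∈ A) ∧ res π (g t) = res π (g 0))
      ?_ ?_ ?_ ?_ hf
    · rintro _ ⟨⟨I, J⟩, rfl⟩
      exact ⟨fun s => fam.gen_mem I J s, res_gen_eq h hker I J t⟩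
    · intro q
      refine ⟨fun s => ?_, rfl⟩
      show algebraMap Zℓ ℚ̄ q ∈ A
      rw [IsScalarTower.algebraMap_apply Zℓ ℚ ℚ̄]
      exact (h.rat_mem _).2 q.2
    · rintro x y _ _ ⟨hx, hx'⟩ ⟨hy, hy'⟩
      exact ⟨fun s => add_mem (hx s) (hy s), by
        rw [Pi.add_apply, Pi.add_apply, res_add (hx t) (hy t), res_add (hx 0) (hy 0), hx', hy']⟩
    · rintro x y _ _ ⟨hx, hx'⟩ ⟨hy, hy'⟩
      exact ⟨fun s => mul_mem (hx s) (hy s), by
        rw [Pi.mul_apply, Pi.mul_apply, res_mul (hx t) (hy t), res_mul (hx 0) (hy 0), hx', hy']⟩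
  intro t
  refine ⟨(key t).1, lt_of_le_of_ne ((A.valuation_le_one_iff _).2
    (sub_mem (key t).1 (key 0).1)) fun h1 => (isResidueMap G₀).res_ne_zero h1 ?_⟩
  rw [sub_eq_add_neg, res_add (key t).1 (neg_mem (key 0).1), res_neg (key 0).1, (key t).2,
    add_neg_cancel]

end Fermat.Agent.Semistable.OrdinaryThree
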