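import Fermat.Agent.Reduction.S37Assembly
import Fermat.Agent.FiniteFlat.ModularInputs

/-!
# Specialisation and model inputs at a prime outside the level

The specialisation of `J₀(M)` at `p ∤ M`, for `2 ∣ M` when `p = 3` (and `3 ∣ M` when `p = 2`), and
the inputs of the finite flat construction for the same reduction of places.
-/

set_option autoImplicit false
set_option synthInstance.maxHeartbeats 400000
set_option maxHeartbeats 1000000
set_option linter.style.haveILetI false

noncomputable section

namespace Fermat.Agent.Semistable.OrdinaryThree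

open AlgebraicCurve ModularCurve IsLocalRing Fermat.Agent.Reduction Fermat.Agent.Reduction.Torsion
  Fermat.Agent.Curve Fermat.Agent.FiniteFlat Fermat.Agent.EichlerShimura

local notation "Qb" => AlgebraicClosure ℚ
local notation "ℚ̄" => AlgebraicClosure ℚ
local notation "Γℚ" => (AlgebraicClosure ℚ ≃ₐ[ℚ] AlgebraicClosure ℚ)

/-- The inputs of the finite flat construction at a given place, for a given place reduction. -/
theorem exists_curveInput_at (A : ValuationSubring ℚ̄) (N : ℕ) [NeZero N] {ℓ : ℕ} [Fact ℓ.Prime]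
    (hℓN : ¬ ℓ ∣ N) (hN : (ℓ = 2 → 3 ∣ N) ∧ (ℓ = 3 → 2 ∣ N)) (hA : A.LiesOverPrime ℓ)
    {r : Place ℚ̄ (modularFunctionFieldBar N) →
      Place (ResidueField A) (modularFunctionFieldFullC (ResidueField A) N)}
    (hr : (gaussDataX0 N hℓN A hA).PlaceCompat r) :
    ∃ (G₀ : GaussReduction (residue A) r) (n m : ℕ) (G : Divisor ℚ̄ (modularFunctionFieldBar N))
      (b : Fin m → modularFunctionFieldBar N)
      (bb : Fin m → modularFunctionFieldFullC (ResidueField A) N) (c : ℕ) (χ : ℤ),
      CurveInput G₀ ℓ n m G b bb c χ (arithmeticGalois (modularFunctionFieldFull N)) := by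
  have hp : ℓ.Prime := Fact.out
  haveI := EC.isAlgClosed_residueField A
  haveI := EC.charP_residueField A hp hA
  set k := IsLocalRing.ResidueField A
  have hle := genusFF_le_modL N hℓN A hA hN
  set Gd := gaussDataX0 N hℓN A hA with hGd
  have hge := Gd.genusFF_le
  set G₀ := Gd.toGaussReduction hr with hG₀
  set γ := genusFF ℚ̄ (modularFunctionFieldBar N) with hγ
  have hgen : genusFF k (modularFunctionFieldFullC k N) = γ := le_antisymm hge hle
  obtain ⟨c₁, hc₁⟩ := minp_exists_largeRR ℚ̄ (modularFunctionFieldBar N)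
  obtain ⟨c₂, hc₂⟩ := minp_exists_largeRR k (modularFunctionFieldFullC k N)
  set c := max c₁ c₂ with hc
  have hgood : GoodReduction G₀ c (1 - (γ : ℤ)) :=
    { gen := hc₁ c (le_max_left _ _)
      spec := hgen ▸ hc₂ c (le_max_right _ _)
      finrank_red := fun W hW => Gd.finrank_redSpace W hW }
  set e := 2 * c + 2 + γ with he
  set P := cuspPlace ℚ̄ (modularFunctionFieldFull N) with hP
  set G : Divisor ℚ̄ (modularFunctionFieldBar N) := Finsupp.single P (e : ℤ) with hG
  have hdegG : Divisor.degree G = e := by
    rw [hG, Divisor.degree_single, hP, (deg_cuspPlace _).1, Nat.cast_one, mul_one]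
  have hfixG : ∀ σ : Γℚ, arithmeticGalois (modularFunctionFieldFull N) σ • G = G := fun σ => by
    rw [hG, SemilinearAut.smul_single, hP, smul_cuspPlace]
  set V := riemannRochSpace (G + G) with hV
  haveI : FiniteDimensional ℚ̄ V := finite_riemannRochSpace _
  obtain ⟨b, bb, hbV, hbfix, hbg, hbli⟩ := satz_exists_saturated hℓN hA hr V
    (fun σ f hf => MordellWeil.smul_mem_riemannRochSpace (by rw [smul_add, hfixG]) hf)
    (Module.finrank ℚ̄ V) le_rfl
  have hspan : Submodule.span ℚ̄ (Set.range b) = V := by
    refine Submodule.eq_of_le_of_finrank_eq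
      (Submodule.span_le.mpr (Set.range_subset_iff.mpr hbV)) ?_
    rw [finrank_span_eq_card (linearIndependent_of_reduced G₀ hbg hbli), Fintype.card_fin]
  refine ⟨G₀, ((e : ℤ) + (1 - γ)).toNat, Module.finrank ℚ̄ V, G, b, bb, c,
    1 - (γ : ℤ), ?_⟩
  exact
    { good := hgood
      baseAut_act := baseAut_arithmeticGalois _
      le_deg := by rw [hdegG]; omega
      n_eq := by rw [hdegG]; omega
      n_pos := by omega
      nonneg := Finsupp.single_nonneg.mpr (by omega)
      smul_G := hfixG
      smul_b := fun σ s => hbfix s σ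
      b_graph := hbg
      bb_li := hbli
      b_span := hspan
      alg := EC.exists_pow_q_pow_eq_self A hp hA
      rat_mem := satz_rat_mem hA
      range_infinite := minp_range_infinite Gd hr (transcendental_jRes N k)
      one_lt := hp.one_lt }


section

variable (A : ValuationSubring Qb) (p M : ℕ) [Fact p.Prime] [NeZero M]

/-- The specialisation of `J₀(M)` at a place over `p ∤ M`, with the facts used at `p`. -/
theorem exists_specialisation (hN : (p = 2 → 3 ∣ M) ∧ (p = 3 → 2 ∣ M)) (hpM : ¬ p ∣ M) (hA : A.LiesOverPrime p) :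
    ∃ (r : Place Qb (modularFunctionFieldBar M) →
        Place (ResidueField A) (modularFunctionFieldFullC (ResidueField A) M))
      (spec : JZero M →+ Pic (ResidueField A) (modularFunctionFieldFullC (ResidueField A) M)),
      (gaussDataX0 M hpM A hA).PlaceCompat r ∧
      (∀ D : Divisor.degZero (K := Qb) (F := modularFunctionFieldBar M),
        spec (Pic0.mk D) = 0 →
          Divisor.IsPrincipal (Finsupp.mapDomain r (D : Divisor Qb (modularFunctionFieldBar M)))) ∧
      (∀ σ ∈ A.inertiaSubgroupIn ℚ, ∀ x, spec (σ • x) = spec x) ∧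
      ∀ σ : Γℚ, A.IsFrobeniusAt σ p → ∀ x, spec (σ • σ • x -
        heckeOperatorBar M (⟨p, Fact.out⟩ : Nat.Primes) (σ • x) + p • x) = 0 := by
  have hp : p.Prime := Fact.out
  have : NeZero p := ⟨hp.ne_zero⟩
  have : IsAlgClosed (ResidueField A) := EC.isAlgClosed_residueField A
  have hg := genusFF_le_modL M hpM A hA hN
  obtain ⟨r, hdeg, hr⟩ := (gaussDataX0 M hpM A hA).exists_placeCompat hg
  have hΨ : IsDivisorSpec A (residue A) M M (reductionDivAlong r) :=
    IsDivisorSpec.of_isPlaceReduction (isPlaceReductionAlong_of_modGraph hdeg hr)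
  have hgen := principalGeneratedByIntegral M hpM A hA
  let τA : A.decompositionSubgroup ℚ → (A →+* A) := fun g => MulSemiringAction.toRingHom _ A g
  let αk : A.decompositionSubgroup ℚ → (ResidueField A ≃+* ResidueField A) :=
    fun g => MulSemiringAction.toRingEquiv _ _ g
  have hαk : ∀ (g : A.decompositionSubgroup ℚ) (a : A),
      residue A (τA g a) = αk g (residue A a) :=
    fun g a => ResidueField.residue_smul _ g a
  refine ⟨r, specPic hΨ hgen, hr, fun D hD => (specPic_mk_eq_zero_iff hΨ hgen D).mp hD, ?_, ?_⟩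
  · rintro σ ⟨g, hg', rfl⟩ x
    have hone : ∀ a : A, residue A (τA g a) =
        (RingEquiv.refl (ResidueField A)) (residue A a) := fun a =>
      (hαk g a).trans (congrArg (fun e : ResidueField A ≃+* _ => e (residue A a)) hg')
    have h := specPic_galois_sub_eq_zero one_le_deg weakRiemann hΨ hgen g.1 1
      (τA g) (RingHom.id A) (fun _ => rfl) (fun _ => rfl) _ hone (fun _ => rfl) x
    rw [map_sub, one_smul, sub_eq_zero] at h
    exact h
  · intro σ hσ x
    let g : A.decompositionSubgroup ℚ := ⟨σ, hσ.mem_decompositionSubgroup⟩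
    have hφ : ∀ a, αk g a = a ^ p := fun a => hσ.smul_residue_eq a
    have e : ∀ y, heckeOperatorBar M (⟨p, Fact.out⟩ : Nat.Primes) y =
        heckeOperatorAlong Qb M p y := fun y => by exact heckeOperatorBar_apply M (⟨p, hp⟩ : Nat.Primes) y
    rw [e]
    exact specPic_frobenius_relation one_le_deg weakRiemann hΨ hgen (heckeInputsAlongBar M p)
      (αk g) (normCongruenceModL M p hp hpM A hA (αk g) hφ) σ (τA g) (fun _ => rfl) (hαk g) x

end

end Fermat.Agent.Semistable.OrdinaryThree
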