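import Fermat.Agent.FlatLocal.Infinitesimal
import Fermat.Agent.FiniteFlat.Model
import Fermat.Agent.TwoAdic.Selmer.Decomposition

/-!
# No unramified quotient in the kernel of reduction

A module killed by `p ≠ 2` with a model in which every function takes congruent values at all
points has no nonzero quotient on which inertia at `p` acts trivially.
-/

set_option autoImplicit false

noncomputable section

open scoped TensorProduct

namespace Fermat.Agent.Semistable.OrdinaryThree

open Fermat.Agent.FlatLocal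

local notation "ℚ̄" => AlgebraicClosure ℚ
local notation "Γℚ" => (AlgebraicClosure ℚ ≃ₐ[ℚ] AlgebraicClosure ℚ)

variable {p : ℕ} [hp : Fact p.Prime]

local notation "C" => PadicAlgCl p

/-- Localisation of a model whose functions take congruent values. -/
theorem exists_localModel_near {M : Type} [AddCommGroup M]
    [DistribMulAction Γℚ M] [DistribMulAction (Gp p) M]
    (hloc : ∀ (σ : Gp p) (m : M), σ • m = localGaloisToGlobal p σ • m)
    {H : Subalgebra (GaloisRep.ratLocalizedAt p) (M → ℚ̄)}
    (hH : FiniteFlat.IsFunctionModel ℚ H)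
    (hnear : ∀ f ∈ H, ∀ m, ‖padicEmbedding p (f m - f 0)‖ < 1) :
    ∃ H' : Subalgebra ℤ_[p] (M → C), FiniteFlat.IsFunctionModel ℚ_[p] H' ∧
      ∀ m, IsNearZero H' m := by
  classical
  obtain ⟨hfin, hequiv, hsep, hadd, hneg⟩ := hH
  let push : (M → ℚ̄) → (M → C) := fun f m => padicEmbedding p (f m)
  have hint : ∀ f ∈ H, IsIntegral ℤ_[p] (push f) := by
    intro f hf
    have h1 : IsIntegral (GaloisRep.ratLocalizedAt p) f :=
      (Algebra.IsIntegral.isIntegral (⟨f, hf⟩ : H)).map H.val
    obtain ⟨P, hP, hP0⟩ := h1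
    let ψ : GaloisRep.ratLocalizedAt p →+* ℤ_[p] :=
      { toFun := ratLocalToInt
        map_one' := Subtype.ext (by simp [ratLocalToInt])
        map_mul' := fun x y => Subtype.ext ((congrArg _ (Subring.coe_mul _ x y)).trans (Rat.cast_mul _ _))
        map_zero' := Subtype.ext (by simp [ratLocalToInt])
        map_add' := fun x y => Subtype.ext ((congrArg _ (Subring.coe_add _ x y)).trans (Rat.cast_add _ _)) }
    let Φ : (M → ℚ̄) →+* (M → C) := (padicEmbedding p).toRingHom.compLeft M
    refine ⟨P.map ψ, hP.map ψ, ?_⟩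
    rw [Polynomial.eval₂_map, show push f = Φ f from rfl,
      show (algebraMap ℤ_[p] (M → C)).comp ψ = Φ.comp (algebraMap _ (M → ℚ̄)) from
        RingHom.ext fun r => funext fun m => ?_,
      ← Polynomial.hom_eval₂, hP0, map_zero]
    show algebraMap ℤ_[p] C (ψ r) = padicEmbedding p (algebraMap _ ℚ̄ r)
    rw [← cst_eq_algebraMap, ← cst_ratLocalToInt]
    rfl
  obtain ⟨s, hs⟩ := hfin.fg_top
  let S : Set (M → C) := (fun f : H => push f) '' (s : Set H)
  have hmemS : ∀ f ∈ H, push f ∈ Algebra.adjoin ℤ_[p] S := by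
    intro f hf
    have hmem : (⟨f, hf⟩ : H) ∈ Submodule.span (GaloisRep.ratLocalizedAt p) (s : Set H) :=
      hs ▸ Submodule.mem_top
    suffices hgen : ∀ g : H, g ∈ Submodule.span (GaloisRep.ratLocalizedAt p) (s : Set H) →
        push g ∈ Algebra.adjoin ℤ_[p] S from hgen _ hmem
    intro g hg
    induction hg using Submodule.span_induction with
    | mem x hx => exact Algebra.subset_adjoin ⟨x, hx, rfl⟩
    | zero =>
      rw [show push ((0 : H) : M → ℚ̄) = 0 from funext fun m => by simp [push]]
      exact zero_mem _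
    | add x y _ _ hx hy =>
      rw [show push ((x + y : H) : M → ℚ̄) = push x + push y from funext fun m => by simp [push]]
      exact add_mem hx hy
    | smul r x _ hx =>
      rw [show push ((r • x : H) : M → ℚ̄) = ratLocalToInt r • push x from funext fun m => by
        show padicEmbedding p (r • (x : M → ℚ̄) m) = ratLocalToInt r • padicEmbedding p ((x : M → ℚ̄) m)
        rw [Algebra.smul_def, Algebra.smul_def, map_mul, ← cst_eq_algebraMap, cst_ratLocalToInt]]
      exact Subalgebra.smul_mem _ hx _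
  refine ⟨Algebra.adjoin ℤ_[p] S, ⟨?_, ?_, ?_, ?_, ?_⟩, ?_⟩
  · show Module.Finite ℤ_[p] ↥(Algebra.adjoin ℤ_[p] S).toSubmodule
    refine Module.Finite.iff_fg.2 ?_
    exact fg_adjoin_of_finite (s.finite_toSet.image _) (by
      rintro _ ⟨g, -, rfl⟩
      exact hint _ g.2)
  · intro f hf σ m
    induction hf using Algebra.adjoin_induction with
    | mem x hx =>
      obtain ⟨g, -, rfl⟩ := hx
      show padicEmbedding p _ = σ (padicEmbedding p _)
      rw [hloc, hequiv _ g.2]
      exact padicEmbedding_localGaloisToGlobal p σ _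
    | algebraMap r =>
      show algebraMap ℤ_[p] C r = σ (algebraMap ℤ_[p] C r)
      rw [IsScalarTower.algebraMap_apply ℤ_[p] ℚ_[p] C, AlgEquiv.commutes]
    | add x y _ _ hx hy => simp [hx, hy]
    | mul x y _ _ hx hy => simp [hx, hy]
  · intro m m' hne
    obtain ⟨f, hf, hfne⟩ := hsep m m' hne
    exact ⟨push f, hmemS f hf, fun h => hfne ((padicEmbedding p).injective h)⟩
  · intro f hf
    let P : Subalgebra ℤ_[p] (M × M → C) :=
      (Algebra.adjoin ℤ_[p] S).map (FiniteFlat.funPullback ℤ_[p] Prod.fst) ⊔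
        (Algebra.adjoin ℤ_[p] S).map (FiniteFlat.funPullback ℤ_[p] Prod.snd)
    suffices hle : Algebra.adjoin ℤ_[p] S ≤
        P.comap (FiniteFlat.funPullback ℤ_[p] fun q : M × M => q.1 + q.2) from hle hf
    refine Algebra.adjoin_le ?_
    rintro _ ⟨g, -, rfl⟩
    have h1 := hadd _ g.2
    rw [← FiniteFlat.range_tensorEval_eq_sup] at h1
    obtain ⟨z, hz⟩ := h1
    change FiniteFlat.funPullback ℤ_[p] (fun q : M × M => q.1 + q.2) (push g) ∈ P
    have h2 : FiniteFlat.funPullback ℤ_[p] (fun q : M × M => q.1 + q.2) (push g) =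
        fun q => padicEmbedding p (FiniteFlat.tensorEval H.val H.val z q) := funext fun q =>
      congrArg (padicEmbedding p) (congrFun hz q).symm
    rw [h2]
    clear hz h2
    induction z using TensorProduct.induction_on with
    | zero => convert zero_mem P using 1; funext q; simp
    | tmul u v =>
      convert mul_mem
        ((le_sup_left : _ ≤ P) ⟨push u, hmemS _ u.2, rfl⟩)
        ((le_sup_right : _ ≤ P) ⟨push v, hmemS _ v.2, rfl⟩) using 1
      funext q
      simp [push]
    | add u v hu hv => convert add_mem hu hv using 1; funext q; simp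
  · intro f hf
    suffices hle : Algebra.adjoin ℤ_[p] S ≤ (Algebra.adjoin ℤ_[p] S).comap
        (FiniteFlat.funPullback ℤ_[p] fun m : M => -m) from hle hf
    refine Algebra.adjoin_le ?_
    rintro _ ⟨g, -, rfl⟩
    exact hmemS _ (hneg _ g.2)
  · intro m f hf
    suffices hb : (∀ x, ‖f x‖ ≤ 1) ∧ ‖f m - f 0‖ < 1 from hb.2
    induction hf using Algebra.adjoin_induction with
    | mem x hx =>
      obtain ⟨g, -, rfl⟩ := hx
      refine ⟨fun x => norm_le_one_of_isIntegral_padicInt
        ((hint _ g.2).map (Pi.evalAlgHom ℤ_[p] (fun _ : M => C) x)), ?_⟩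
      show ‖padicEmbedding p ((g : M → ℚ̄) m) - padicEmbedding p ((g : M → ℚ̄) 0)‖ < 1
      rw [← map_sub]
      exact hnear _ g.2 m
    | algebraMap r =>
      refine ⟨fun x => ?_, ?_⟩
      · show ‖algebraMap ℤ_[p] C r‖ ≤ 1
        rw [← cst_eq_algebraMap]
        exact norm_cst_le r
      · rw [Pi.algebraMap_apply, Pi.algebraMap_apply, sub_self, norm_zero]
        exact one_pos
    | add x y _ _ hx hy =>
      refine ⟨fun z => (IsUltrametricDist.norm_add_le_max _ _).trans (max_le (hx.1 z) (hy.1 z)), ?_⟩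
      rw [Pi.add_apply, Pi.add_apply, add_sub_add_comm]
      exact (IsUltrametricDist.norm_add_le_max _ _).trans_lt (max_lt hx.2 hy.2)
    | mul x y _ _ hx hy =>
      refine ⟨fun z => ?_, norm_mul_sub_mul_lt hx.2 hy.2 (hy.1 m) (hx.1 0)⟩
      rw [Pi.mul_apply, norm_mul]
      exact mul_le_one₀ (hx.1 z) (norm_nonneg _) (hy.1 z)

omit hp in
/-- The model ring as a model by functions. -/
theorem isFunctionModel_of_isModelRing {T : Type} [AddCommGroup T] [DistribMulAction Γℚ T]
    {H : Subalgebra (GaloisRep.ratLocalizedAt p) (T → ℚ̄)} (hH : FiniteFlat.IsModelRing p H) :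
    FiniteFlat.IsFunctionModel ℚ H := by
  have e : ∀ {X Y : Type} (u : X → Y),
      FiniteFlat.pullback (GaloisRep.ratLocalizedAt p) u =
        FiniteFlat.funPullback (GaloisRep.ratLocalizedAt p) u := fun u =>
    AlgHom.ext fun f => funext fun x => rfl
  refine ⟨hH.finite, hH.equivariant, fun m m' hne => ?_, fun f hf => ?_, fun f hf => hH.neg_mem f hf⟩
  · by_contra! hall
    exact hne (hH.separating m m' hall)
  · rw [← e, ← e]
    exact hH.add_mem f hf

/-- **No nonzero unramified quotient.** -/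
theorem mem_of_congr_of_unramified (hp2 : p ≠ 2) {T : Type} [AddCommGroup T] [Finite T]
    [DistribMulAction Γℚ T] (hexp : ∀ x : T, p • x = 0)
    {H : Subalgebra (GaloisRep.ratLocalizedAt p) (T → ℚ̄)} (hH : FiniteFlat.IsModelRing p H)
    (hcong : ∀ f ∈ H, ∀ t, f t ∈ padicPlace p ∧ (padicPlace p).valuation (f t - f 0) < 1)
    (L : AddSubgroup T)
    (hLD : ∀ σ ∈ (padicPlace p).decompositionSubgroup ℚ, ∀ x ∈ L, σ • x ∈ L)
    (hI : ∀ σ ∈ (padicPlace p).inertiaSubgroupIn ℚ, ∀ x, σ • x - x ∈ L) (x : T) : x ∈ L := by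
  let _ : DistribMulAction (Gp p) T := DistribMulAction.compHom _ (localGaloisToGlobal p)
  have hnear : ∀ f ∈ H, ∀ m, ‖padicEmbedding p (f m - f 0)‖ < 1 := fun f hf m => by
    have h1 := (hcong f hf m).2
    rw [← ValuationSubring.mem_nonunits_iff] at h1
    exact (ClassField.Idele.mem_nonunits_placeOfEmb (ℓ := ⟨p, hp.out⟩)
      (ι := (padicEmbedding p : ClassField.Idele.Emb ⟨p, hp.out⟩))).mp h1
  obtain ⟨H', hH', hnz⟩ := exists_localModel_near (fun _ _ => rfl)
    (isFunctionModel_of_isModelRing hH) hnear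
  have hL : ∀ σ : Gp p, L ≤ L.comap (DistribSMul.toAddMonoidHom T σ) := fun σ x hx =>
    hLD _ (localGaloisToGlobal_mem_decompositionSubgroup p σ) x hx
  let _ : DistribMulAction (Gp p) (T ⧸ L) :=
    { smul := fun σ => QuotientAddGroup.map L L (DistribSMul.toAddMonoidHom T σ) (hL σ)
      one_smul := fun y => QuotientAddGroup.induction_on y fun a => by
        show ((( 1 : Gp p) • a : T) : T ⧸ L) = _
        rw [one_smul]
      mul_smul := fun σ τ y => QuotientAddGroup.induction_on y fun a => by
        show (((σ * τ) • a : T) : T ⧸ L) = ((σ • τ • a : T) : T ⧸ L)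
        rw [mul_smul]
      smul_zero := fun σ => map_zero _
      smul_add := fun σ y z => map_add _ y z }
  have hq : ∀ (σ : Gp p) (a : T),
      QuotientAddGroup.mk' L (σ • a) = σ • QuotientAddGroup.mk' L a := fun _ _ => rfl
  have hQ := FiniteFlat.IsFunctionModel.comap_pullback hH' (QuotientAddGroup.mk' L)
    (QuotientAddGroup.mk'_surjective L) hq
  have hexp' : ∀ y : T ⧸ L, p • y = 0 := fun y => by
    obtain ⟨a, rfl⟩ := QuotientAddGroup.mk'_surjective L y
    rw [← map_nsmul, hexp, map_zero]
  have htriv : ∀ σ : Gp p, IsInertia σ → ∀ y : T ⧸ L, σ • y = y := fun σ hσ y => by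
    obtain ⟨a, rfl⟩ := QuotientAddGroup.mk'_surjective L y
    have hmem : localGaloisToGlobal p σ ∈ (padicPlace p).inertiaSubgroupIn ℚ :=
      TwoAdic.Selmer.toGlobal_mem_inertia (q := ⟨p, hp.out⟩) hσ
    rw [← hq]
    exact (QuotientAddGroup.eq_iff_sub_mem).2 (hI _ hmem a)
  have hnearQ : IsNearZero (H'.comap (FiniteFlat.funPullback ℤ_[p] (QuotientAddGroup.mk' L)))
      (QuotientAddGroup.mk' L x) := fun g hg => by
    have h := hnz x (FiniteFlat.funPullback ℤ_[p] (QuotientAddGroup.mk' L) g) hg
    rw [FiniteFlat.funPullback_apply, FiniteFlat.funPullback_apply, map_zero] at h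
    exact h
  exact (QuotientAddGroup.eq_zero_iff x).1 (IsNearZero.eq_zero hp2 hQ hexp' htriv hnearQ)

end Fermat.Agent.Semistable.OrdinaryThree
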