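import Fermat.Agent.Lifting.Squarefree.OrdinaryTp
import Fermat.Agent.Semistable.ModelCongruence
import Fermat.Agent.Semistable.SpecialisationThree
import Fermat.Agent.Semistable.UnramifiedQuotient

/-!
# `a_p ≡ ±1` at a multiplicative `p ≥ 3` outside an allowed level

`E[p]` embeds in `J₀(M)[p]`, `p ∤ M`. Specialisation at `p` kills the cyclotomic line `L`. If it
killed all of `E[p]`, the functions of the finite flat model of `E[p]` would take congruent values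
at all points, so its quotient by `L`, on which inertia is trivial, would vanish. Frobenius then
gives a sign at which the polynomial in `T_p` vanishes modulo `p`.
-/

set_option autoImplicit false
set_option synthInstance.maxHeartbeats 400000
set_option maxHeartbeats 2000000

noncomputable section

open scoped WeierstrassCurve.Affine Polynomial
open WeierstrassCurve AlgebraicCurve ModularCurve

namespace Fermat.Agent.Semistable.OrdinaryThree

open Fermat.Agent.Lifting.OrdinaryFive (exists_ordinary_line)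

local notation "Qb" => AlgebraicClosure ℚ
local notation "Γℚ" => (AlgebraicClosure ℚ ≃ₐ[ℚ] AlgebraicClosure ℚ)

variable {W : WeierstrassCurve ℤ} {p M : ℕ} [Fact p.Prime] [NeZero M]

/-- A cyclotomic line and a point off it fill `E[p]`. -/
theorem eq_top_of_line (hΔ : W.Δ ≠ 0) {ζ : Qb} (hζ : IsPrimitiveRoot ζ p) {σ₀ : Γℚ}
    (hσ₀ζ : σ₀ ζ ≠ ζ) (L S : AddSubgroup (Submodule.torsionBy ℤ ((W.map (Int.castRingHom ℚ))⁄Qb).Point (p : ℤ))) (hI₀ : ∀ x : (Submodule.torsionBy ℤ ((W.map (Int.castRingHom ℚ))⁄Qb).Point (p : ℤ)), σ₀ • x - x ∈ L) (hLS : L ≤ S)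
    {P₀ : (Submodule.torsionBy ℤ ((W.map (Int.castRingHom ℚ))⁄Qb).Point (p : ℤ))} (hP₀ : P₀ ∉ L) (hP₀S : P₀ ∈ S) (x : (Submodule.torsionBy ℤ ((W.map (Int.castRingHom ℚ))⁄Qb).Point (p : ℤ))) : x ∈ S := by
  have hp : p.Prime := Fact.out
  have : NeZero p := ⟨hp.ne_zero⟩
  have := EC.isElliptic_map_rat hΔ
  obtain ⟨u, hu⟩ : ∃ u : (Submodule.torsionBy ℤ ((W.map (Int.castRingHom ℚ))⁄Qb).Point (p : ℤ)), σ₀ • u ≠ u := by
    by_contra! hall
    refine hσ₀ζ ?_
    have hE : Affine.Point.galoisRepModuleEnd (K := Qb) ℚ (W.map (Int.castRingHom ℚ)) p σ₀ = 1 :=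
      LinearMap.ext hall
    have hdet := EC.det_galoisRepModuleEnd_eq_cycloChar_of_isElliptic
      (W.map (Int.castRingHom ℚ)) p σ₀
    rw [hE, map_one] at hdet
    have h1 := EC.apply_eq_pow_cycloChar p σ₀ hζ.pow_eq_one
    rw [← hdet, ZMod.val_one, pow_one] at h1
    exact h1
  set e₁ := σ₀ • u - u
  have he₁ : e₁ ≠ 0 := sub_ne_zero.2 hu
  have hlin : LinearIndependent (ZMod p) ![e₁, P₀] :=
    LinearIndependent.pair_iff.2 fun s t hst => by
      by_cases ht : t = 0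
      · subst ht
        rw [zero_smul, add_zero] at hst
        exact ⟨(smul_eq_zero.1 hst).resolve_right he₁, rfl⟩
      · refine absurd ?_ hP₀
        rw [show P₀ = (t⁻¹ * -s) • e₁ by
          rw [mul_smul, neg_smul, neg_eq_of_add_eq_zero_right hst, smul_smul, inv_mul_cancel₀ ht,
            one_smul]]
        exact ZMod.smul_mem (K := L) (hI₀ u) _
  have hrk : Module.finrank (ZMod p) (Submodule.torsionBy ℤ ((W.map (Int.castRingHom ℚ))⁄Qb).Point (p : ℤ)) = 2 := EC.finrank_torsion_rat _ p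
  have htop := hlin.span_eq_top_of_card_eq_finrank (by rw [Fintype.card_fin, hrk])
  have hle : Submodule.span (ZMod p) (Set.range ![e₁, P₀]) ≤ AddSubgroup.toZModSubmodule p S := by
    refine Submodule.span_le.2 ?_
    rintro _ ⟨j, rfl⟩
    fin_cases j
    · exact hLS (hI₀ u)
    · exact hP₀S
  exact hle (htop ▸ Submodule.mem_top)

/-- **The class of a point off the line does not specialise to zero.** -/
theorem spec_ne_zero (hp3 : 3 ≤ p) (hN : (p = 2 → 3 ∣ M) ∧ (p = 3 → 2 ∣ M)) (hpM : ¬ p ∣ M)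
    (hA : (padicPlace p).LiesOverPrime p) (hΔ : W.Δ ≠ 0) (i : (Submodule.torsionBy ℤ ((W.map (Int.castRingHom ℚ))⁄Qb).Point (p : ℤ)) →+ JZero M)
    (hi : Function.Injective i) (hiσ : ∀ (σ : Γℚ) P, σ • i P = i (σ • P))
    [IsAlgClosed (IsLocalRing.ResidueField (padicPlace p))]
    {r : Place Qb (modularFunctionFieldBar M) →
      Place (IsLocalRing.ResidueField (padicPlace p))
        (modularFunctionFieldFullC (IsLocalRing.ResidueField (padicPlace p)) M)}
    (hr : (Reduction.gaussDataX0 M hpM (padicPlace p) hA).PlaceCompat r) {Y : Type*} [AddCommGroup Y]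
    (spec : JZero M →+ Y)
    (hprin : ∀ D : Divisor.degZero (K := Qb) (F := modularFunctionFieldBar M),
      spec (Pic0.mk D) = 0 →
        Divisor.IsPrincipal (Finsupp.mapDomain r (D : Divisor Qb (modularFunctionFieldBar M))))
    (L : AddSubgroup (Submodule.torsionBy ℤ ((W.map (Int.castRingHom ℚ))⁄Qb).Point (p : ℤ))) {P₀ : (Submodule.torsionBy ℤ ((W.map (Int.castRingHom ℚ))⁄Qb).Point (p : ℤ))} (hP₀ : P₀ ∉ L) {σ₀ : Γℚ}
    (hσ₀ : σ₀ ∈ (padicPlace p).inertiaSubgroupIn ℚ) {ζ : Qb} (hσ₀ζ : σ₀ ζ ≠ ζ)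
    (hζ : IsPrimitiveRoot ζ p)
    (hI : ∀ σ ∈ (padicPlace p).inertiaSubgroupIn ℚ, ∀ x : (Submodule.torsionBy ℤ ((W.map (Int.castRingHom ℚ))⁄Qb).Point (p : ℤ)), σ • x - x ∈ L)
    (hLD : ∀ σ ∈ (padicPlace p).decompositionSubgroup ℚ, ∀ x ∈ L, σ • x ∈ L)
    (hL : ∀ x ∈ L, spec (i x) = 0) : spec (i P₀) ≠ 0 := by
  intro h0
  have hp : p.Prime := Fact.out
  have : NeZero p := ⟨hp.ne_zero⟩
  have := EC.isElliptic_map_rat hΔ
  have : Finite (Submodule.torsionBy ℤ ((W.map (Int.castRingHom ℚ))⁄Qb).Point (p : ℤ)) := Nat.finite_of_card_ne_zero (by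
    rw [show Nat.card (Submodule.torsionBy ℤ ((W.map (Int.castRingHom ℚ))⁄Qb).Point (p : ℤ)) = p ^ 2 from EC.natCard_torsion_rat _ hp.ne_zero]
    exact pow_ne_zero _ hp.ne_zero)
  have := Fintype.ofFinite (Submodule.torsionBy ℤ ((W.map (Int.castRingHom ℚ))⁄Qb).Point (p : ℤ))
  have hall : ∀ x : (Submodule.torsionBy ℤ ((W.map (Int.castRingHom ℚ))⁄Qb).Point (p : ℤ)), spec (i x) = 0 :=
    eq_top_of_line hΔ hζ hσ₀ζ L (spec.comp i).ker (hI σ₀ hσ₀) hL hP₀ h0
  obtain ⟨G₀, n, m, G, b, bb, c, χ, hin⟩ := exists_curveInput_at (padicPlace p) M hpM hN hA hr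
  obtain ⟨H, hH, hcong⟩ := exists_isModelRing_congr hin i hi
    (fun σ t => by rw [← hiσ, galois_smul_pic0_def]) fun t => by
      obtain ⟨D, hD⟩ := Pic0.mk_surjective (i t)
      exact ⟨D, hD, hprin D (by rw [hD, hall])⟩
  exact hP₀ (mem_of_congr_of_unramified (by omega)
    (fun x => Subtype.ext (by
      rw [Submodule.coe_smul_of_tower, ← natCast_zsmul]
      exact (Submodule.mem_torsionBy_iff _ _).1 x.2))
    hH hcong L hLD hI P₀)

/-- The core: a sign at which the polynomial vanishes modulo `p`. -/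
theorem exists_sign_root (hp3 : 3 ≤ p) (hN : (p = 2 → 3 ∣ M) ∧ (p = 3 → 2 ∣ M)) (hpM : ¬ p ∣ M) (hΔ : W.Δ ≠ 0) (hbad : (p : ℤ) ∣ W.Δ)
    (hc4 : ¬ (p : ℤ) ∣ W.c₄)
    (i : Submodule.torsionBy ℤ ((W.map (Int.castRingHom ℚ))⁄Qb).Point (p : ℤ) →+ JZero M)
    (hi : Function.Injective i) (hiσ : ∀ (σ : Γℚ) P, σ • i P = i (σ • P))
    (h : ℤ[X])
    (hker : ∀ P, Polynomial.aeval (heckeOperatorBar M (⟨p, Fact.out⟩ : Nat.Primes)) h (i P) = 0) :
    ∃ z : ℤ, z * z = 1 ∧ (p : ℤ) ∣ h.eval z := by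
  have hp : p.Prime := Fact.out
  have : NeZero p := ⟨hp.ne_zero⟩
  set A := padicPlace p with hAdef
  have hA : A.LiesOverPrime p := TwoAdic.Selmer.liesOverPrime_padicPlace (q := ⟨p, hp⟩)
  obtain ⟨σF, hσF⟩ := Galois.exists_isFrobeniusAt A hp hA
  have : IsAlgClosed (IsLocalRing.ResidueField A) := EC.isAlgClosed_residueField A
  have : Curve.IsFunctionField1 Qb (modularFunctionFieldBar M) :=
    EichlerShimura.isFunctionField1_level (complexEmbedding : Qb →+* ℂ) M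
  obtain ⟨ζ, hζ⟩ := HasEnoughRootsOfUnity.exists_primitiveRoot Qb p
  obtain ⟨L, P₀, σ₀, hσ₀, hσ₀ζ, hσ₀P, hP₀, hI, hLa, hcyc, hD⟩ :=
    exists_ordinary_line (W := W) hp3 hΔ hbad hc4 hA hζ
  obtain ⟨hDL, z, hz, hzP⟩ := hD σF hσF.mem_decompositionSubgroup
  have hpV : ∀ x : Submodule.torsionBy ℤ ((W.map (Int.castRingHom ℚ))⁄Qb).Point (p : ℤ),
      (p : ℤ) • x = 0 := fun x => Subtype.ext ((Submodule.mem_torsionBy_iff _ _).1 x.2)
  obtain ⟨a, -, ha⟩ := hζ.eq_pow_of_pow_eq_one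
    (show (σ₀ ζ) ^ p = 1 by rw [← map_pow, hζ.pow_eq_one, map_one])
  have ha1 : ¬ (p : ℤ) ∣ (a : ℤ) - 1 := fun hd => hσ₀ζ (by
    obtain ⟨l, hl⟩ := hd
    rw [← ha, ← zpow_natCast, show (a : ℤ) = p * l + 1 by omega, zpow_add_one₀
      (hζ.ne_zero hp.ne_zero), zpow_mul, zpow_natCast, hζ.pow_eq_one, one_zpow, one_mul])
  obtain ⟨r, spec, hr, hprin, hspecI, hspecF⟩ := exists_specialisation A p M hN hpM hA
  refine ⟨z, hz, ?_⟩
  -- the class of `P₀` does not specialise to zero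
  have hv : spec (i P₀) ≠ 0 := spec_ne_zero hp3 hN hpM hA hΔ i hi hiσ hr spec hprin L hP₀ hσ₀ hσ₀ζ hζ
    hI (fun σ hσ => (hD σ hσ).1) fun x hx => by
      have h := hspecI σ₀ hσ₀ (i x)
      rw [hiσ, hLa σ₀ hσ₀ a ha.symm x hx, map_nsmul, map_nsmul] at h
      refine LevelP.eq_zero_of_zsmul hp ha1 ?_ ?_
      · rw [← map_zsmul, ← map_zsmul, hpV, map_zero, map_zero]
      · rw [sub_smul, natCast_zsmul, h, one_smul, sub_self]
  -- `T_p` acts on it by the sign
  set Tp := heckeOperatorBar M (⟨p, Fact.out⟩ : Nat.Primes) with hTp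
  have hTσ : ∀ (σ : Γℚ) (x : JZero M), σ • Tp x = Tp (σ • x) :=
    EichlerShimura.galois_smul_heckeOperatorBar ⟨p, hp⟩
  have hrel : ∀ j : Submodule.torsionBy ℤ ((W.map (Int.castRingHom ℚ))⁄Qb).Point (p : ℤ) →+
      JZero M, (∀ (σ : Γℚ) P, σ • j P = j (σ • P)) →
      spec (Tp (j P₀)) = z • spec (j P₀) := by
    intro j hj
    have hj' : ∀ (σ : Γℚ) P, σ • (Tp.toAddMonoidHom.comp j) P =
        (Tp.toAddMonoidHom.comp j) (σ • P) := fun σ P => by
      show σ • Tp (j P) = Tp (j (σ • P))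
      rw [hTσ, hj]
    obtain ⟨-, h2⟩ := Lifting.OrdinaryFive.spec_translates spec j hj hp hpV (hspecI σ₀ hσ₀) ha1 L
      (hLa σ₀ hσ₀ a ha.symm) hDL hz hzP
    obtain ⟨h3, -⟩ := Lifting.OrdinaryFive.spec_translates spec _ hj' hp hpV (hspecI σ₀ hσ₀) ha1 L
      (hLa σ₀ hσ₀ a ha.symm) hDL hz hzP
    have h4 := hspecF σF hσF (j P₀)
    have hp0 : spec (p • j P₀) = 0 := by
      rw [← natCast_zsmul, ← map_zsmul j, hpV, map_zero, map_zero]
    rw [map_add, map_sub, h2, hp0, add_zero, sub_eq_zero,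
      ← hTσ] at h4
    have h5 : spec (j P₀) = z • spec (Tp (j P₀)) := h4.trans h3
    rw [h5, smul_smul, hz, one_smul]
  have hpow : ∀ n : ℕ, spec ((Tp ^ n) (i P₀)) = z ^ n • spec (i P₀) := by
    intro n
    induction n with
    | zero => rw [pow_zero, pow_zero, one_smul]; rfl
    | succ n ih =>
      have hn : ∀ (n : ℕ) (σ : Γℚ) P, σ • (Tp ^ n) (i P) = (Tp ^ n) (i (σ • P)) := by
        intro n σ
        induction n with
        | zero => exact hiσ σ
        | succ n ih2 =>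
          intro P
          rw [pow_succ', Module.End.mul_apply, Module.End.mul_apply, hTσ, ih2]
      have h1 := hrel ((Tp ^ n).toAddMonoidHom.comp i) (hn n)
      rw [pow_succ', Module.End.mul_apply, pow_succ', mul_smul, ← ih]
      exact h1
  have heval : ∀ q : ℤ[X], spec (Polynomial.aeval Tp q (i P₀)) = q.eval z • spec (i P₀) := by
    intro q
    induction q using Polynomial.induction_on' with
    | add u v hu hv => rw [map_add, LinearMap.add_apply, map_add, hu, hv, Polynomial.eval_add,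
        add_zsmul]
    | monomial n c =>
      rw [Polynomial.aeval_monomial, Module.End.mul_apply, Module.algebraMap_end_apply, map_zsmul,
        hpow, Polynomial.eval_monomial, mul_smul]
  have hzero : h.eval z • spec (i P₀) = 0 := by rw [← heval, hker, map_zero]
  by_contra hdvd
  exact hv (LevelP.eq_zero_of_zsmul hp hdvd
    (by rw [← map_zsmul, ← map_zsmul, hpV, map_zero, map_zero]) hzero)

/-- **`a_p ≡ ±1`** for an eigenform of level prime to `p` congruent to a curve multiplicative at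
`p ≥ 3`, the level even if `p = 3`. -/
theorem exists_sq_sub_one_mem (hp3 : 3 ≤ p) (hN : (p = 2 → 3 ∣ M) ∧ (p = 3 → 2 ∣ M)) (hpM : ¬ p ∣ M) (hΔ : W.Δ ≠ 0)
    (hss : W.IsSemistableModel) (hbad : (p : ℤ) ∣ W.Δ) (hirr : W.ModRepIsIrreducible p)
    {f : CuspForm (CongruenceSubgroup.Gamma0 M) 2} (hf : f.IsNormalizedEigenform)
    {𝔪 : Ideal (integralClosure ℤ ℂ)} (hmax : 𝔪.IsMaximal) (hpm : (p : integralClosure ℤ ℂ) ∈ 𝔪)
    (hcong : ∀ ℓ : ℕ, ℓ.Prime → W.IsGoodPrimeFor ℓ → ¬ ℓ ∣ M → ℓ ≠ p →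
      ∃ a : integralClosure ℤ ℂ, (a : ℂ) = ModularFormClass.qCoeff f ℓ ∧
        a - ((W.apOfModel ℓ : ℤ) : integralClosure ℤ ℂ) ∈ 𝔪) :
    ∃ a : integralClosure ℤ ℂ, (a : ℂ) = ModularFormClass.qCoeff f p ∧ a ^ 2 - 1 ∈ 𝔪 := by
  have hp : p.Prime := Fact.out
  obtain ⟨i, a, h, ha, hroot, hi, hiσ, hker⟩ :=
    Lifting.OrdinaryFive.exists_embedding_aeval hΔ (by omega) hirr hpM hf hmax hpm hcong
  obtain ⟨z, hz, hdvd⟩ := exists_sign_root hp3 hN hpM hΔ hbad (hss p hp hbad) i hi hiσ h hker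
  refine ⟨a, ha, ?_⟩
  rw [show a ^ 2 - 1 = (a + (z : integralClosure ℤ ℂ)) * (a - (z : integralClosure ℤ ℂ)) by
    have hzz : (z : integralClosure ℤ ℂ) * z = 1 := by rw [← Int.cast_mul, hz, Int.cast_one]
    linear_combination hzz]
  exact 𝔪.mul_mem_left _ (hroot z hdvd)

end Fermat.Agent.Semistable.OrdinaryThree
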