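import Fermat.Agent.Semistable.Contracts
import Fermat.Agent.GoodTwo.Stabilise
import Fermat.Agent.Lifting.Minimal.Newform
import Fermat.Agent.S29
import Fermat.Prelude.Def_GaloisRep_Residual

/-!
# Removal of an unramified prime from a residual level

* `dvd_of_ramified`: a prime `q ≠ p` where `E[p]` is ramified divides every residual level;
* `UnramifiedRemoved`: a minimal residual level carries no residually unramified prime `≠ p`;
* `s38_of`: `q` comes off any squarefree residual level, from `UnramifiedRemoved` and exact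
  conductor-level modularity.
-/

set_option autoImplicit false
set_option linter.style.haveILetI false

noncomputable section

open scoped WeierstrassCurve.Affine TensorProduct
open WeierstrassCurve WeierstrassCurve.Affine WeierstrassCurve.Affine.Point
open Polynomial ModularFormClass

namespace Fermat.Agent.Semistable

/-- A minimal residual level carries no residually unramified prime other than `p`. -/
def UnramifiedRemoved : Prop :=
  ∀ (p : ℕ), p.Prime → p ≠ 2 → ∀ W : WeierstrassCurve ℤ, W.Δ ≠ 0 → W.IsSemistableModel →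
    W.ModRepIsIrreducible p → ∀ M : ℕ, Lifting.Minimal.IsMinimalResidualLevel W p M →
    ∀ q : ℕ, q.Prime → q ≠ p → q ∣ M → ¬ Lifting.ResiduallyUnramifiedAt W p q

variable {W : WeierstrassCurve ℤ} {p M : ℕ}

/-- A prime `q ≠ p` where `W[p]` is ramified divides every residual level, minimal or not. -/
theorem dvd_of_ramified [Fact p.Prime] (hS29 : RT.EigenformResidualRep) (hΔ : W.Δ ≠ 0)
    (hp2 : p ≠ 2) (hirr : W.ModRepIsIrreducible p) (hM0 : 0 < M)
    (h : W.IsResiduallyModularOfLevel p M) {q : ℕ} (hq : q.Prime) (hqp : q ≠ p)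
    (hram : ¬ Lifting.ResiduallyUnramifiedAt W p q) : q ∣ M := by
  have hp : p.Prime := Fact.out
  by_contra hqM
  refine hram ((Lifting.Minimal.torsRep_isUnramifiedAt_iff_residual hΔ q).1 fun A hA σ hσ => ?_)
  obtain ⟨g, 𝔪, hg, hmax, hpm, hcong⟩ := h
  letI : Field (integralClosure ℤ ℂ ⧸ 𝔪) := Ideal.Quotient.field 𝔪
  set φ : integralClosure ℤ ℂ →+* integralClosure ℤ ℂ ⧸ 𝔪 := Ideal.Quotient.mk 𝔪
  have hp0 : (p : integralClosure ℤ ℂ ⧸ 𝔪) = 0 := by
    rw [← map_natCast φ]
    exact Ideal.Quotient.eq_zero_iff_mem.2 hpm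
  haveI : CharP (integralClosure ℤ ℂ ⧸ 𝔪) p := (CharP.charP_iff_prime_eq_zero hp).2 hp0
  obtain ⟨ρ, hρ, hunr⟩ := hS29 hg hp φ
  set ι : ZMod p →+* integralClosure ℤ ℂ ⧸ 𝔪 := ZMod.castHom dvd_rfl _
  obtain ⟨e⟩ := Lifting.Minimal.torsRep_isEquiv_attached hΔ hp2 hirr hM0 φ ι
    (fun ℓ hℓ hgood hℓM hℓp => by
      obtain ⟨a, ha, ham⟩ := hcong ℓ hℓ hgood hℓM hℓp
      exact ⟨a, ha, Ideal.Quotient.eq.2 ham⟩) ρ hρ
  have hq' : ¬ q ∣ M * p := fun hd => (hq.dvd_mul.1 hd).elim hqM fun h =>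
    hqp ((Nat.prime_dvd_prime_iff_eq hq hp).1 h)
  have h1 : ((Lifting.Residual.torsRep W p hΔ).baseChangeAlong ι).ρ σ = 1 := by
    refine LinearMap.ext fun v => e.toLinearEquiv.injective ?_
    rw [e.map_apply, hunr q hq hq' A hA σ hσ, Module.End.one_apply, Module.End.one_apply]
  refine LinearMap.ext fun v => ?_
  letI : Algebra (ZMod p) (integralClosure ℤ ℂ ⧸ 𝔪) := ι.toAlgebra
  have h' := LinearMap.congr_fun
    (show ((Lifting.Residual.torsRep W p hΔ).ρ σ).baseChange (integralClosure ℤ ℂ ⧸ 𝔪) = 1 from h1)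
    ((1 : integralClosure ℤ ℂ ⧸ 𝔪) ⊗ₜ[ZMod p] v)
  rw [LinearMap.baseChange_tmul, Module.End.one_apply] at h'
  rw [Module.End.one_apply]
  exact RT.tmul_one_injective h'

/-- A curve modular of a level is residually modular of that level, at every prime. -/
theorem isResiduallyModularOfLevel_of_isModularModelOfLevel (hp : p.Prime)
    (h : W.IsModularModelOfLevel M) : W.IsResiduallyModularOfLevel p M := by
  obtain ⟨f, hf, hap⟩ := h
  obtain ⟨𝔪, hmax, hpm⟩ := FLTPrelim.exists_maximalIdeal_natCast_prime_mem hp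
  exact ⟨f, 𝔪, hf, hmax, hpm, fun ℓ hℓ hg hM _ => ⟨(W.apOfModel ℓ : integralClosure ℤ ℂ),
    by rw [hap ℓ hℓ hg hM]; simp, by rw [sub_self]; exact 𝔪.zero_mem⟩⟩

/-- A residual level `M₀` dividing `M` and prime to `q` gives the residual level `M / q`. -/
theorem isResiduallyModularOfLevel_div {M₀ q : ℕ} (hM : 0 < M) (hq : q.Prime) (hqM : q ∣ M)
    (hq₀ : ¬ q ∣ M₀) (hd : M₀ ∣ M) (h : W.IsResiduallyModularOfLevel p M₀) :
    W.IsResiduallyModularOfLevel p (M / q) :=
  GoodTwo.isResiduallyModularOfLevel_of_dvd (Nat.div_pos (Nat.le_of_dvd hM hqM) hq.pos)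
    ((hq.coprime_iff_not_dvd.2 hq₀).symm.dvd_of_dvd_mul_right (by rwa [Nat.div_mul_cancel hqM])) h

/-- A residually unramified `q ≠ p` comes off every squarefree residual level. -/
theorem isResiduallyModularOfLevel_div_of_unramified (hS29 : RT.EigenformResidualRep)
    (hUR : UnramifiedRemoved) (hEC : SemistableExactConductor) [Fact p.Prime] (hp2 : p ≠ 2)
    (hΔ : W.Δ ≠ 0) (hW : W.IsSemistableModel) (hirr : W.ModRepIsIrreducible p) {q : ℕ}
    (hq : q.Prime) (hqp : q ≠ p) (hqM : q ∣ M) (hM : Squarefree M)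
    (hu : Lifting.ResiduallyUnramifiedAt W p q) (hres : W.IsResiduallyModularOfLevel p M) :
    W.IsResiduallyModularOfLevel p (M / q) := by
  have hp : p.Prime := Fact.out
  have hM0 : 0 < M := Nat.pos_of_ne_zero hM.ne_zero
  have key : ∀ M₀ : ℕ, Lifting.Minimal.IsMinimalResidualLevel W p M₀ → M₀ ∣ M →
      W.IsResiduallyModularOfLevel p (M / q) := fun M₀ hM₀ hd =>
    isResiduallyModularOfLevel_div hM0 hq hqM
      (fun h => hUR p hp hp2 W hΔ hW hirr M₀ hM₀ q hq hqp h hu) hd hM₀.residual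
  by_cases hpM : p ∣ M
  swap
  · obtain ⟨M₀, hd, hM₀⟩ :=
      Lifting.Minimal.exists_minimalResidualLevel hM0 hM (fun h => absurd h hpM) hres
    exact key M₀ hM₀ hd
  -- below the conductor, every prime `≠ p` of a minimal level is ramified, so divides `M`
  obtain ⟨N, hN, hNsf, hNiff, hmod⟩ := hEC W hΔ hW
  obtain ⟨M₀, -, hM₀⟩ := Lifting.Minimal.exists_minimalResidualLevel hN hNsf
    (fun h => (hNiff p hp).1 h) (isResiduallyModularOfLevel_of_isModularModelOfLevel hp hmod)
  refine key M₀ hM₀ ?_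
  rw [← Nat.prod_primeFactors_of_squarefree hM₀.squarefree]
  refine Finset.prod_primes_dvd _ (fun r hr => (Nat.prime_of_mem_primeFactors hr).prime) fun r hr => ?_
  have hr' := Nat.prime_of_mem_primeFactors hr
  rcases eq_or_ne r p with rfl | hrp
  · exact hpM
  · exact dvd_of_ramified hS29 hΔ hp2 hirr hM0 hres hr' hrp
      (hUR p hp hp2 W hΔ hW hirr M₀ hM₀ r hr' hrp (Nat.dvd_of_mem_primeFactors hr))

/-- The level-lowering statement of a squarefree level, from `UnramifiedRemoved` and exact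
conductor-level modularity. -/
theorem s38_of (hUR : UnramifiedRemoved) (hEC : SemistableExactConductor)
    (p : ℕ) [Fact p.Prime] (hp2 : p ≠ 2) (W : WeierstrassCurve ℤ) (hΔ : W.Δ ≠ 0)
    (hW : W.IsSemistableModel)
    (hcard₁ : Nat.card (Submodule.torsionBy ℤ
      ((W.map (Int.castRingHom ℚ))⁄(AlgebraicClosure ℚ)).Point p) = p ^ 2)
    (hker : GaloisFactorsThroughFiniteLevel
      (WeierstrassCurve.Affine.Point.galoisRepModuleEnd (K := AlgebraicClosure ℚ) ℚ
        (W.map (Int.castRingHom ℚ)) p))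
    (hirr : W.ModRepIsIrreducible p) (M q : ℕ) (hq : q.Prime) (hqp : q ≠ p)
    (hqM : q ∣ M) (hM : Squarefree M)
    (hunr : ((W.map (Int.castRingHom ℚ)).residualGaloisRepOf p hcard₁ hker).IsUnramifiedAt q)
    (hres : W.IsResiduallyModularOfLevel p M) :
    W.IsResiduallyModularOfLevel p (M / q) :=
  isResiduallyModularOfLevel_div_of_unramified (fun hg _ hp _ _ _ φ => S29.result hg hp φ) hUR hEC
    hp2 hΔ hW hirr hq hqp hqM hM
    (fun A hA σ hσ x => LinearMap.congr_fun (hunr A hA σ hσ) x) hres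

end Fermat.Agent.Semistable
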