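import Fermat.Agent.EC.Frob.Hasse

/-!
# The trace at `2` of a good reduction

For `W` good at `2`, `a₂ = 0` if `32 ∣ c₄`, and `3 ∤ a₂` otherwise.
-/

set_option autoImplicit false

namespace Fermat.Agent.Semistable

open WeierstrassCurve

namespace TraceTwo

/-- The number of affine points over `𝔽₂` is `2` exactly for `a₁ = 0` and `a₂ + a₄ = 0`. -/
theorem count_eq_two : ∀ a₁ a₂ a₃ a₄ a₆ : ZMod 2,
    (⟨a₁, a₂, a₃, a₄, a₆⟩ : WeierstrassCurve (ZMod 2)).Δ ≠ 0 →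
    (((Finset.univ : Finset (ZMod 2 × ZMod 2)).filter fun v =>
      v.2 ^ 2 + a₁ * v.1 * v.2 + a₃ * v.2 = v.1 ^ 3 + a₂ * v.1 ^ 2 + a₄ * v.1 + a₆).card = 2 ↔
      (a₁ = 0 ∧ a₂ + a₄ = 0)) := by
  decide +kernel

theorem apOfModel_two (W : WeierstrassCurve ℤ) (hgood : ¬ (2 : ℤ) ∣ W.Δ) :
    ∃ c : ℕ, c ≤ 4 ∧ W.apOfModel 2 = 2 - c ∧
      (c = 2 ↔ (W.a₁ : ZMod 2) = 0 ∧ (W.a₂ : ZMod 2) + W.a₄ = 0) := by
  have : Fact (Nat.Prime 2) := ⟨Nat.prime_two⟩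
  have hg : W.IsGoodPrimeFor 2 := by exact_mod_cast hgood
  have := EC.isElliptic_reductionMod W (l := 2) hg
  have hΔ := (W.reductionMod 2).isUnit_Δ.ne_zero
  have hcount := count_eq_two _ _ _ _ _ hΔ
  set V := W.reductionMod 2 with hV
  have e : V.toAffine.Point ≃
      Option {v : ZMod 2 × ZMod 2 // v.2 ^ 2 + V.a₁ * v.1 * v.2 + V.a₃ * v.2 =
        v.1 ^ 3 + V.a₂ * v.1 ^ 2 + V.a₄ * v.1 + V.a₆} :=
    { toFun := fun P => match P with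
        | .zero => none
        | .some x y h => some ⟨(x, y), (Affine.equation_iff x y).mp h.left⟩
      invFun := fun o => match o with
        | none => .zero
        | some ⟨(x, y), h⟩ => .some x y
            (Affine.equation_iff_nonsingular.mp ((Affine.equation_iff x y).mpr h))
      left_inv := fun P => by cases P <;> rfl
      right_inv := fun o => by rcases o with _ | ⟨⟨x, y⟩, h⟩ <;> rfl }
  refine ⟨_, ?_, ?_, hcount.trans (by simp [V, reductionMod])⟩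
  · exact (Finset.card_filter_le _ _).trans (by simp)
  · rw [apOfModel, traceOfFrobenius, ← hV, WeierstrassCurve.card, Nat.card_congr e,
      Nat.card_zmod, Nat.card_eq_fintype_card, Fintype.card_option, Fintype.card_subtype]
    push_cast
    simp only [V, reductionMod, map_a₁, map_a₂, map_a₃, map_a₄, map_a₆]
    ring

theorem thirtyTwo_dvd_c₄_iff (W : WeierstrassCurve ℤ) (hgood : ¬ (2 : ℤ) ∣ W.Δ) :
    (32 : ℤ) ∣ W.c₄ ↔ (W.a₁ : ZMod 2) = 0 ∧ (W.a₂ : ZMod 2) + W.a₄ = 0 := by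
  have h24 : (24 : ZMod 2) = 0 := rfl
  by_cases h1 : (W.a₁ : ZMod 2) = 0
  swap
  · refine iff_of_false (fun h => h1 ?_) fun h => h1 h.1
    have hc : (W.c₄ : ZMod 2) = 0 :=
      (ZMod.intCast_zmod_eq_zero_iff_dvd _ 2).2 ((show (2 : ℤ) ∣ 32 by norm_num).trans h)
    rw [c₄, b₂, b₄] at hc
    push_cast at hc
    generalize (W.a₁ : ZMod 2) = a, (W.a₂ : ZMod 2) = b, (W.a₃ : ZMod 2) = c,
      (W.a₄ : ZMod 2) = d at hc ⊢
    revert a b c d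
    decide
  obtain ⟨k, hk⟩ := (ZMod.intCast_zmod_eq_zero_iff_dvd _ 2).1 h1
  have h3 : (W.a₃ : ZMod 2) = 1 := by
    have hd : (W.Δ : ZMod 2) ≠ 0 := fun h =>
      hgood (by exact_mod_cast (ZMod.intCast_zmod_eq_zero_iff_dvd _ 2).1 h)
    rw [Δ, b₂, b₄, b₆, b₈] at hd
    push_cast at hd
    rw [h1] at hd
    generalize (W.a₂ : ZMod 2) = b, (W.a₃ : ZMod 2) = c, (W.a₄ : ZMod 2) = d,
      (W.a₆ : ZMod 2) = e at hd ⊢
    revert b c d e
    decide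
  have hc4 : W.c₄ = 16 * ((k ^ 2 + W.a₂) ^ 2 - 3 * (W.a₄ + k * W.a₃)) := by
    rw [c₄, b₂, b₄, hk]
    push_cast
    ring
  rw [hc4, show (32 : ℤ) = 16 * 2 by norm_num, mul_dvd_mul_iff_left (by norm_num : (16 : ℤ) ≠ 0),
    show (2 : ℤ) = ((2 : ℕ) : ℤ) from rfl, ← ZMod.intCast_zmod_eq_zero_iff_dvd]
  push_cast
  rw [h1, h3]
  generalize (k : ZMod 2) = k', (W.a₂ : ZMod 2) = b, (W.a₄ : ZMod 2) = d
  revert k' b d
  decide

end TraceTwo

/-- `a₂ = 0` when `W` is good at `2` with `32 ∣ c₄`. -/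
theorem apOfModel_two_eq_zero (W : WeierstrassCurve ℤ) (hgood : ¬ (2 : ℤ) ∣ W.Δ)
    (h : (32 : ℤ) ∣ W.c₄) : W.apOfModel 2 = 0 := by
  obtain ⟨c, -, hc, hiff⟩ := TraceTwo.apOfModel_two W hgood
  rw [hc, hiff.2 ((TraceTwo.thirtyTwo_dvd_c₄_iff W hgood).1 h)]
  norm_num

/-- `3 ∤ a₂` when `W` is good at `2` with `32 ∤ c₄`. -/
theorem not_three_dvd_apOfModel_two (W : WeierstrassCurve ℤ) (hgood : ¬ (2 : ℤ) ∣ W.Δ)
    (h : ¬ (32 : ℤ) ∣ W.c₄) : ¬ (3 : ℤ) ∣ W.apOfModel 2 := by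
  obtain ⟨c, hc4, hc, hiff⟩ := TraceTwo.apOfModel_two W hgood
  have hne : c ≠ 2 := fun e => h ((TraceTwo.thirtyTwo_dvd_c₄_iff W hgood).2 (hiff.1 e))
  omega

end Fermat.Agent.Semistable
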